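import Fermat.Agent.LevelP.Model.LocalGen

/-!
# Local generators and slopes

Owner: helper28.
-/

set_option autoImplicit false

noncomputable section

namespace Fermat.Agent.LevelP

open AlgebraicCurve Fermat.Agent.Curve IsLocalRing

local notation "Qb" => AlgebraicClosure ℚ
local notation "Γℚ" => (AlgebraicClosure ℚ ≃ₐ[ℚ] AlgebraicClosure ℚ)

variable {p : ℕ} {A : ValuationSubring Qb} {F : Type*} [Field F] [Algebra Qb F]
  [IsFunctionField1 Qb F] {Fb : Type*} [Field Fb] [Algebra (ResidueField A) Fb]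
  [IsFunctionField1 (ResidueField A) Fb] [IsAlgClosed (ResidueField A)]
  (M : TwoCompData p A F Fb)

/-- Fixed divisors are principal at every point, up to a twist along the components. -/
theorem TwoCompData.exists_localGen (hp : p.Prime) (L : Level p A) (D : Divisor Qb F)
    (hD : M.DivFixed L.H D) (y : M.Pt) : ∃ ψ : F, M.Fixed L.H ψ ∧ M.LocalGen y D ψ :=
  M.exists_localGen_aux hp L hD y

/-- The order at a node of the residue of a function without zero or pole in its tube. -/
theorem TwoCompData.slope_eq (hp : p.Prime) (L : Level p A) {y : M.Pt} (hy : M.IsNode y) {ψ : F}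
    (hfix : M.Fixed L.H ψ) (hψ : M.LocalGen y 0 ψ) {n₀ n₁ : ℤ}
    (h₀ : M.VOrd L.π false ψ n₀) (h₁ : M.VOrd L.π true ψ n₁) :
    12 * (L.e : ℤ) *
        (M.loc y false).ord (M.residueAt false (algebraMap Qb F (L.π ^ (-n₀)) * ψ)) =
      (n₁ - n₀) * M.r y := by
  have hπ : algebraMap Qb F L.π ≠ 0 := (map_ne_zero _).2 L.ne_zero
  rw [map_zpow₀, zpow_neg, inv_mul_eq_div]
  set G := ψ / algebraMap Qb F L.π ^ n₀ with hG
  have hG0 : M.VOrd L.π false G 0 := by simpa using M.vord_div_pi_zpow L h₀ n₀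
  have hG1 : M.VOrd L.π true G (n₁ - n₀) := M.vord_div_pi_zpow L h₁ n₀
  set d := n₁ - n₀
  have hGne : G ≠ 0 := div_ne_zero hψ.1 (zpow_ne_zero _ hπ)
  have hGord : ∀ P, M.sp P = y → P.ord G = 0 := fun P hP => by
    rw [hG, ord_div P hψ.1 (zpow_ne_zero _ hπ), hψ.2 P hP, P.ord_zpow, ord_algebraMap]
    simp
  obtain ⟨hw0, hw1⟩ := M.vord_w L
  have hwne := M.w_ne_zero
  have hU : M.RegUnit y (G ^ (12 * L.e) / M.w ^ d) := by
    refine M.regUnit_of_vord (π := L.π) (div_ne_zero (pow_ne_zero _ hGne) (zpow_ne_zero _ hwne))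
      (fun P hP => ?_) fun i _ => ?_
    · rw [ord_div P (pow_ne_zero _ hGne) (zpow_ne_zero _ hwne), ord_pow, hGord P hP, P.ord_zpow,
        M.w_ord y hy.1 hy.2 P hP]
      simp
    · cases i
      · simpa using (hG0.pow (12 * L.e)).div (hw0.zpow d) L.ne_zero
      · have h := (hG1.pow (12 * L.e)).div (hw1.zpow d) L.ne_zero
        rwa [show ((12 * L.e : ℕ) : ℤ) * d - d * (12 * L.e) = 0 by push_cast; ring] at h
  obtain ⟨-, hord⟩ := hU.ord_residueAt hy.1
  have hGV := hG0.valuation_eq_one
  have hres : M.residueAt false G ≠ 0 := residueAt_ne_zero hGV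
  have hwres : M.residueAt false M.w ≠ 0 := residueAt_ne_zero M.w_false
  rw [residueAt_div (pow_mem (M.mem_of_valuation_eq_one hGV) _)
      (by rw [map_zpow₀, M.w_false, one_zpow]),
    residueAt_pow (M.mem_of_valuation_eq_one hGV), residueAt_zpow M.w_false,
    ord_div _ (pow_ne_zero _ hres) (zpow_ne_zero _ hwres), ord_pow, Place.ord_zpow,
    residueAt_of_mem M (M.mem_of_valuation_eq_one M.w_false),
    M.red_w_ord y hy.1 hy.2] at hord
  push_cast at hord
  linear_combination hord

/-- A function whose residues along the first component are units away from the nodes, and which is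
locally a unit up to a vertical twist at the nodes, has the same order along both components. -/
theorem TwoCompData.slope_eq_zero (hp : p.Prime) (L : Level p A) {G : F} (hG : G ≠ 0)
    (hfix : M.Fixed L.H G) {n₁ : ℤ} (h₀ : M.VOrd L.π false G 0) (h₁ : M.VOrd L.π true G n₁)
    (hres : ∀ y, M.On y false →
      (¬ M.IsNode y → (M.loc y false).ord (M.residueAt false G) = 0) ∧
      (M.IsNode y → 12 * (L.e : ℤ) * (M.loc y false).ord (M.residueAt false G) = n₁ * M.r y)) :
    n₁ = 0 := by
  classical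
  set u := M.residueAt false G
  have hdeg := degree_divisorOf (K := ResidueField A) u
  rw [degree_eq_sum] at hdeg
  set S := (divisorOf (K := ResidueField A) u).support
  choose pt hpt using fun Q => M.existsUnique_pt false Q
  have hptQ : ∀ y, M.On y false → pt (M.loc y false) = y := fun y hy =>
    ((hpt (M.loc y false)).2 y ⟨hy, rfl⟩).symm
  by_contra hn
  have hsupp : ∀ y, M.IsNode y → M.loc y false ∈ S := fun y hy => by
    rw [Finsupp.mem_support_iff, divisorOf_apply]
    intro h0
    have h := (hres y hy.1).2 hy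
    rw [h0, mul_zero] at h
    rcases mul_eq_zero.1 h.symm with h | h
    · exact hn h
    · exact (M.r_pos y hy.1 hy.2).ne' (by exact_mod_cast h)
  have hnode : ∀ Q ∈ S, M.IsNode (pt Q) := fun Q hQ => by
    by_contra hcon
    rw [Finsupp.mem_support_iff, divisorOf_apply] at hQ
    have h := (hres _ (hpt Q).1.1).1 hcon
    rw [(hpt Q).1.2] at h
    exact hQ h
  obtain ⟨y₀, hy₀⟩ := M.nonempty_node
  have hsum : ∑ Q ∈ S, n₁ * (M.r (pt Q) : ℤ) = 0 := by
    rw [← mul_zero (12 * (L.e : ℤ)), ← hdeg, Finset.mul_sum]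
    refine Finset.sum_congr rfl fun Q hQ => ?_
    rw [deg_eq_one, Nat.cast_one, mul_one, divisorOf_apply,
      ← (hres _ (hnode Q hQ).1).2 (hnode Q hQ), (hpt Q).1.2]
  rw [← Finset.mul_sum, mul_eq_zero, or_iff_right hn] at hsum
  have h := (Finset.sum_eq_zero_iff_of_nonneg fun Q _ => Int.natCast_nonneg (M.r (pt Q))).1 hsum _
    (hsupp y₀ hy₀)
  rw [hptQ y₀ hy₀.1] at h
  exact (M.r_pos y₀ hy₀.1 hy₀.2).ne' (by exact_mod_cast h)

end Fermat.Agent.LevelP
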