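import Fermat.Prelude.Def_AlgebraicCurve_BaseChangeGalois
import Fermat.Prelude.Def_FLTPrelim_Ramification
import Fermat.Agent.Curve.Degree
import Mathlib.FieldTheory.IsAlgClosed.AlgebraicClosure
import Mathlib.RingTheory.Valuation.RamificationGroup

/-!
# Two-component reduction data for `X₀(pM)` at `p`

`TwoCompData p A F Fb` records what Mazur's principle at `p` uses about the reduction of
`X₀(pM)`, `p ∤ M`, at a valuation subring `A` of `ℚ̄` above `p`:

* `F` is the function field over `ℚ̄` with the semilinear Galois action `act`, `V i` the Gauss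
  valuation rings of the two components with residue maps `red i` into `Fb = k(X₀(M))`;
* `Pt` is the set of closed points of the special fibre, `loc y i` the place of the component `i`
  at `y ∈ Pt` (if `y` lies on it), `sp` the specialisation of places;
* `Reg y f` says that `f` is regular at `y`: no pole in the tube of `y`, integral along the
  components through `y`;
* `w` is the modular unit `Δ(τ)/Δ(pτ)`, normalised along the first component: it has no zero or pole
  in the tubes of the nodes and its residue has order `r y` there, prime to `p`;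
* `chart`: the two affine charts `t` finite and `1/t` finite.
-/

set_option autoImplicit false

noncomputable section

namespace Fermat.Agent.LevelP

open AlgebraicCurve Fermat.Agent.Curve IsLocalRing

local notation "Qb" => AlgebraicClosure ℚ
local notation "Γℚ" => (AlgebraicClosure ℚ ≃ₐ[ℚ] AlgebraicClosure ℚ)

/-- The data of the two-component reduction. -/
structure TwoCompData (p : ℕ) (A : ValuationSubring Qb) (F : Type*) [Field F] [Algebra Qb F]
    (Fb : Type*) [Field Fb] [Algebra (ResidueField A) Fb] where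
  /-- The Galois action on the coefficients of `q`-expansions. -/
  act : Γℚ →* SemilinearAut Qb F
  baseAut_act : ∀ (σ : Γℚ) (a : Qb), SemilinearAut.baseAut (act σ) a = σ a
  exists_fixing : ∀ f : F, ∃ L : IntermediateField ℚ Qb, FiniteDimensional ℚ L ∧
    ∀ σ ∈ L.fixingSubgroup, act σ • f = f
  /-- The valuation rings along the two components. -/
  V : Bool → ValuationSubring F
  algebraMap_mem_iff : ∀ i (a : Qb), algebraMap Qb F a ∈ V i ↔ a ∈ A
  act_mem_iff : ∀ i, ∀ σ ∈ A.inertiaSubgroupIn ℚ, ∀ f : F, act σ • f ∈ V i ↔ f ∈ V i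
  /-- The residue maps. -/
  red : (i : Bool) → V i →+* Fb
  red_algebraMap : ∀ i (a : A) (ha : algebraMap Qb F a ∈ V i),
    red i ⟨algebraMap Qb F a, ha⟩ = algebraMap (ResidueField A) Fb (residue A a)
  red_eq_zero_iff : ∀ i (f : V i), red i f = 0 ↔ (f : F) ∈ (V i).nonunits
  red_act : ∀ i, ∀ σ ∈ A.inertiaSubgroupIn ℚ, ∀ (f : V i) (h : act σ • (f : F) ∈ V i),
    red i ⟨act σ • (f : F), h⟩ = red i f
  /-- Residues lift to functions fixed by inertia, independently on the two components. -/
  exists_lift : ∀ a : Bool → Fb, ∃ f : F, (∀ σ ∈ A.inertiaSubgroupIn ℚ, act σ • f = f) ∧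
    ∀ i, ∃ h : f ∈ V i, red i ⟨f, h⟩ = a i
  /-- Functions are normalised by constants of the same rationality. -/
  exists_scale : ∀ i (H : Subgroup Γℚ), H ≤ A.inertiaSubgroupIn ℚ → ∀ f : F, f ≠ 0 →
    (∀ σ ∈ H, act σ • f = f) → ∃ c : Qb, c ≠ 0 ∧ (∀ σ ∈ H, σ c = c) ∧
      (V i).valuation (algebraMap Qb F c * f) = 1
  /-- The closed points of the special fibre. -/
  Pt : Type
  /-- Incidence of points and components. -/
  On : Pt → Bool → Prop
  /-- The place of a component at a point on it. -/
  loc : Pt → Bool → Place (ResidueField A) Fb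
  exists_on : ∀ y, ∃ i, On y i
  existsUnique_pt : ∀ i (Q : Place (ResidueField A) Fb), ∃! y, On y i ∧ loc y i = Q
  /-- Specialisation of places. -/
  sp : Place Qb F → Pt
  sp_act : ∀ σ ∈ A.inertiaSubgroupIn ℚ, ∀ P, sp (act σ • P) = sp P
  /-- Residues of regular functions are regular. -/
  red_regular : ∀ y (f : F), (∀ P, sp P = y → f ∈ P.toValuationSubring) →
    (∀ i, On y i → f ∈ V i) → ∀ i, On y i → ∀ h : f ∈ V i,
      red i ⟨f, h⟩ ∈ (loc y i).toValuationSubring
  /-- Values in the tube reduce to the value of the residue. -/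
  red_eval : ∀ y (f : F), (∀ P, sp P = y → f ∈ P.toValuationSubring) →
    (∀ i, On y i → f ∈ V i) → ∀ P, sp P = y → ∀ i, On y i → ∀ h : f ∈ V i,
      ∃ ha : evalAt P f ∈ A, residue A ⟨_, ha⟩ = evalAt (loc y i) (red i ⟨f, h⟩)
  /-- The two residues of a regular function agree at a node. -/
  red_node : ∀ y (f : F), (∀ P, sp P = y → f ∈ P.toValuationSubring) →
    (∀ i, On y i → f ∈ V i) → On y false → On y true →
      ∀ (h₀ : f ∈ V false) (h₁ : f ∈ V true),
        evalAt (loc y false) (red false ⟨f, h₀⟩) = evalAt (loc y true) (red true ⟨f, h₁⟩)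
  /-- Compatible residues lift to regular functions fixed by inertia. -/
  exists_regular_lift : ∀ y (a : Bool → Fb), (∀ i, On y i → a i ∈ (loc y i).toValuationSubring) →
    (On y false → On y true → evalAt (loc y false) (a false) = evalAt (loc y true) (a true)) →
    ∃ f : F, (∀ σ ∈ A.inertiaSubgroupIn ℚ, act σ • f = f) ∧
      (∀ P, sp P = y → f ∈ P.toValuationSubring) ∧
      ∀ i, On y i → ∃ h : f ∈ V i, red i ⟨f, h⟩ = a i
  /-- The nodes are finite in number, and there is at least one. -/
  finite_node : {y : Pt | On y false ∧ On y true}.Finite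
  nonempty_node : {y : Pt | On y false ∧ On y true}.Nonempty
  /-- `Δ(τ)/Δ(pτ)`. -/
  w : F
  w_fixed : ∀ σ ∈ A.inertiaSubgroupIn ℚ, act σ • w = w
  w_false : (V false).valuation w = 1
  w_true : (V true).valuation (w / algebraMap Qb F ((p : Qb) ^ 12)) = 1
  w_ord : ∀ y, On y false → On y true → ∀ P, sp P = y → P.ord w = 0
  /-- The order of the residue of `w` at a node. -/
  r : Pt → ℕ
  red_w_ord : ∀ y, On y false → On y true → ∀ h : w ∈ V false,
    (loc y false).ord (red false ⟨w, h⟩) = r y
  r_pos : ∀ y, On y false → On y true → 0 < r y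
  not_dvd_r : 5 ≤ p → ∀ y, On y false → On y true → ¬ p ∣ 12 * r y
  /-- A coordinate, integral with nonzero residue along both components. -/
  t : F
  t_fixed : ∀ σ : Γℚ, act σ • t = t
  t_unit : ∀ i, (V i).valuation t = 1
  /-- `InChart c y`: the point lies in the chart where `t` (`c = false`) or `1/t` is finite. -/
  InChart : Bool → Pt → Prop
  exists_chart : ∀ y, ∃ c, InChart c y
  chart_mem : ∀ c P, InChart c (sp P) → (if c then t⁻¹ else t) ∈ P.toValuationSubring
  /-- Denominators: a function regular at `y` becomes a function of the chart after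
  multiplication by a function of the chart not vanishing at `y`. -/
  exists_denom : ∀ (c : Bool) y, InChart c y → ∀ H : Subgroup Γℚ, H ≤ A.inertiaSubgroupIn ℚ →
    ∀ h : F, (∀ σ ∈ H, act σ • h = h) → (∀ i, On y i → h ∈ V i) →
    ∀ (S : Finset (Place Qb F)), (∀ P ∈ S, sp P ≠ y) → ∀ n : ℕ,
    ∃ s : F, (∀ σ ∈ H, act σ • s = s) ∧
      (∀ P : Place Qb F, (if c then t⁻¹ else t) ∈ P.toValuationSubring →
        s ∈ P.toValuationSubring) ∧
      (∀ P ∈ S, (if c then t⁻¹ else t) ∈ P.toValuationSubring → (n : ℤ) ≤ P.ord s) ∧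
      (∀ i, s ∈ V i ∧ s * h ∈ V i) ∧
      (∀ i, ¬ On y i → ∀ hs : s ∈ V i, red i ⟨s, hs⟩ = 0) ∧
      ∀ i, On y i → ∀ hs : s ∈ V i, evalAt (loc y i) (red i ⟨s, hs⟩) ≠ 0
  /-- Compatible residues regular on a chart lift to functions of the chart fixed by inertia. -/
  exists_chart_lift : ∀ (c : Bool) (a : Bool → Fb),
    (∀ y i, InChart c y → On y i → a i ∈ (loc y i).toValuationSubring) →
    (∀ y, InChart c y → On y false → On y true →
      evalAt (loc y false) (a false) = evalAt (loc y true) (a true)) →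
    ∃ f : F, (∀ σ ∈ A.inertiaSubgroupIn ℚ, act σ • f = f) ∧
      (∀ P : Place Qb F, (if c then t⁻¹ else t) ∈ P.toValuationSubring →
        f ∈ P.toValuationSubring) ∧
      ∀ i, ∃ h : f ∈ V i, red i ⟨f, h⟩ = a i
  /-- Glued regular residues on a chart without a common zero generate the unit ideal. -/
  chart_unit : ∀ (c : Bool) (S : Set (Bool → Fb)),
    (∀ a ∈ S, ∀ y i, InChart c y → On y i → a i ∈ (loc y i).toValuationSubring) →
    (∀ a ∈ S, ∀ y, InChart c y → On y false → On y true →
      evalAt (loc y false) (a false) = evalAt (loc y true) (a true)) →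
    (∀ y, InChart c y → ∃ a ∈ S, ∀ i, On y i → evalAt (loc y i) (a i) ≠ 0) →
    ∃ (n : ℕ) (a b : Fin n → Bool → Fb), (∀ j, a j ∈ S) ∧
      (∀ j y i, InChart c y → On y i → b j i ∈ (loc y i).toValuationSubring) ∧
      (∀ j y, InChart c y → On y false → On y true →
        evalAt (loc y false) (b j false) = evalAt (loc y true) (b j true)) ∧
      ∀ i, ∑ j, b j i * a j i = 1
  /-- Over a discretely valued field of constants, functions with bounded poles in a chart and
  integral along both components form a finitely generated module over the chart coordinate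
  ring. -/
  chart_finite : ∀ (c : Bool) (H : Subgroup Γℚ), H ≤ A.inertiaSubgroupIn ℚ →
    ∀ π₀ : Qb, π₀ ≠ 0 → (∀ σ ∈ H, σ π₀ = π₀) →
    (∀ x : Qb, x ≠ 0 → (∀ σ ∈ H, σ x = x) → ∃ n : ℤ, A.valuation x = A.valuation π₀ ^ n) →
    ∀ D : Divisor Qb F, ∃ G : Finset F,
    (∀ a ∈ G, (∀ σ ∈ H, act σ • a = a) ∧ (∀ i, a ∈ V i) ∧
      ∀ P : Place Qb F, (if c then t⁻¹ else t) ∈ P.toValuationSubring →
        a = 0 ∨ -D P ≤ P.ord a) ∧
    ∀ f : F, (∀ σ ∈ H, act σ • f = f) →
      (∀ i, f ∈ V i) →
      (∀ P : Place Qb F, (if c then t⁻¹ else t) ∈ P.toValuationSubring →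
        f = 0 ∨ -D P ≤ P.ord f) →
      f ∈ Submodule.span
        (Subring.closure ({x : F | ∃ a ∈ A, (∀ σ ∈ H, σ a = a) ∧ x = algebraMap Qb F a} ∪
          {(if c then t⁻¹ else t)})) (G : Set F)
  /-- A divisor fixed by `H` which is principal is the divisor of a function fixed by `H`. -/
  descend_principal : ∀ H : Subgroup Γℚ, H ≤ A.inertiaSubgroupIn ℚ → ∀ D : Divisor Qb F,
    (∀ σ ∈ H, act σ • D = D) → D.IsPrincipal →
      ∃ f : F, f ≠ 0 ∧ (∀ σ ∈ H, act σ • f = f) ∧ ∀ P, D P = P.ord f
  /-- A class fixed by `H` contains a divisor fixed by `H`. -/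
  descend_class : ∀ H : Subgroup Γℚ, H ≤ A.inertiaSubgroupIn ℚ → ∀ D : Divisor Qb F,
    Divisor.degree D = 0 → (∀ σ ∈ H, Divisor.IsPrincipal (act σ • D - D)) →
      ∃ D' : Divisor Qb F, (∀ σ ∈ H, act σ • D' = D') ∧ Divisor.IsPrincipal (D' - D)
  /-- The Atkin–Lehner involution exchanging the components. -/
  swap : F ≃ₐ[Qb] F
  swap_act : ∀ (σ : Γℚ) (f : F), swap (act σ • f) = act σ • swap f
  swap_mem_iff : ∀ f : F, swap f ∈ V false ↔ f ∈ V true
  red_swap : ∀ (f : V true) (h : swap (f : F) ∈ V false),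
    red false ⟨swap (f : F), h⟩ = red true f

/-- A discretely valued field of constants: the fixed field of `H` has uniformiser `π`, and
`v(π) ^ e = v(p)`. -/
structure Level (p : ℕ) (A : ValuationSubring Qb) where
  /-- The group fixing the constants. -/
  H : Subgroup Γℚ
  /-- A uniformiser. -/
  π : Qb
  /-- The absolute ramification index. -/
  e : ℕ
  le_inertia : H ≤ A.inertiaSubgroupIn ℚ
  fixed : ∀ σ ∈ H, σ π = π
  ne_zero : π ≠ 0
  lt_one : A.valuation π < 1
  value : ∀ x : Qb, x ≠ 0 → (∀ σ ∈ H, σ x = x) → ∃ n : ℤ, A.valuation x = A.valuation π ^ n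
  e_pos : 0 < e
  pow_e : A.valuation π ^ e = A.valuation (p : Qb)

namespace TwoCompData

variable {p : ℕ} {A : ValuationSubring Qb} {F : Type*} [Field F] [Algebra Qb F]
  {Fb : Type*} [Field Fb] [Algebra (ResidueField A) Fb] (M : TwoCompData p A F Fb)

/-- The coordinate of a chart. -/
def coord (c : Bool) : F := if c then M.t⁻¹ else M.t

/-- A point of both components. -/
def IsNode (y : M.Pt) : Prop := M.On y false ∧ M.On y true

/-- Regularity at a point of the special fibre. -/
def Reg (y : M.Pt) (f : F) : Prop :=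
  (∀ P, M.sp P = y → f ∈ P.toValuationSubring) ∧ ∀ i, M.On y i → f ∈ M.V i

/-- Units of the local ring at a point. -/
def RegUnit (y : M.Pt) (f : F) : Prop := f ≠ 0 ∧ M.Reg y f ∧ M.Reg y f⁻¹

/-- Fixed by a group of automorphisms. -/
def Fixed (H : Subgroup Γℚ) (f : F) : Prop := ∀ σ ∈ H, M.act σ • f = f

/-- A divisor fixed by a group of automorphisms. -/
def DivFixed (H : Subgroup Γℚ) (D : Divisor Qb F) : Prop := ∀ σ ∈ H, M.act σ • D = D

/-- `f` has order `n` along the component `i`, counted in the uniformiser `π`. -/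
def VOrd (π : Qb) (i : Bool) (f : F) (n : ℤ) : Prop :=
  (M.V i).valuation f = (M.V i).valuation (algebraMap Qb F π) ^ n

/-- `f` is congruent to `g` modulo `π ^ m` along the component `i`. -/
def VCongr (π : Qb) (i : Bool) (m : ℕ) (f g : F) : Prop :=
  ∃ d ∈ M.V i, f - g = algebraMap Qb F π ^ m * d

/-- `ψ` has the divisor `D` in the tube of `y`. -/
def LocalGen (y : M.Pt) (D : Divisor Qb F) (ψ : F) : Prop :=
  ψ ≠ 0 ∧ ∀ P, M.sp P = y → P.ord ψ = D P

/-- The residue along the first component, junk outside the valuation ring. -/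
def residueAt (i : Bool) (f : F) : Fb :=
  letI := Classical.propDecidable
  if h : f ∈ M.V i then M.red i ⟨f, h⟩ else 0

theorem residueAt_of_mem {i : Bool} {f : F} (h : f ∈ M.V i) :
    M.residueAt i f = M.red i ⟨f, h⟩ := dif_pos h

/-- `D` is trivial modulo `π ^ m`: after adding the divisor of a function which is a unit along
both components it has local generators congruent to `1` modulo `π ^ m` at every point. -/
def Trivial (L : Level p A) (D : Divisor Qb F) (m : ℕ) : Prop :=
  ∃ g : F, g ≠ 0 ∧ M.Fixed L.H g ∧ (∀ i, (M.V i).valuation g = 1) ∧ ∀ y, ∃ ψ : F, M.Fixed L.H ψ ∧ ψ ≠ 0 ∧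
    (∀ P, M.sp P = y → P.ord ψ = D P + P.ord g) ∧
    ∀ i, M.On y i → M.VCongr L.π i m ψ 1

end TwoCompData

end Fermat.Agent.LevelP
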