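import Fermat.Agent.LevelP.Model.StepB
import Fermat.Agent.LevelP.Ordinary.Residual

/-!
# Mazur's principle at `p` on two-component data: the two contradictions

A `p`-torsion class `D` (non-principal, `p • D` principal) all of whose residual divisors are rigid
(an "Eisenstein" residual divisor forces a `p`-th power residue) cannot have its class fixed by
inertia (tame case), nor be moved by a wild `τ` with small break to a class fixed over the tame
field (wild case).
-/

set_option autoImplicit false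

noncomputable section

namespace Fermat.Agent.LevelP

open AlgebraicCurve Fermat.Agent.Curve IsLocalRing

local notation "Qb" => AlgebraicClosure ℚ
local notation "Γℚ" => (AlgebraicClosure ℚ ≃ₐ[ℚ] AlgebraicClosure ℚ)

variable {p : ℕ} {A : ValuationSubring Qb} {F : Type*} [Field F] [Algebra Qb F]
  [IsFunctionField1 Qb F] {Fb : Type*} [Field Fb] [Algebra (ResidueField A) Fb]
  [IsFunctionField1 (ResidueField A) Fb] [IsAlgClosed (ResidueField A)]
  (M : TwoCompData p A F Fb)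

/-- The residual divisor of `u` is, modulo `p`, a multiple of the divisor `r` on the nodes. -/
def TwoCompData.EisensteinResidue (u : Fb) : Prop :=
  ∃ c : ℤ, ∀ y, M.On y false →
    (M.IsNode y → (p : ℤ) ∣ (M.loc y false).ord u - c * M.r y) ∧
    (¬ M.IsNode y → (p : ℤ) ∣ (M.loc y false).ord u)

/-- For a class killed by `p`: if the residual divisor along the first component is Eisenstein
modulo `p`, then the residue is a `p`-th power. -/
def TwoCompData.Rigid (D : Divisor Qb F) : Prop :=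
  ∀ f : F, f ≠ 0 → (∀ P, ((p : ℤ) • D) P = P.ord f) → (M.V false).valuation f = 1 →
    M.EisensteinResidue (M.residueAt false f) → ∃ h : Fb, h ^ p = M.residueAt false f

omit [IsFunctionField1 Qb F] [IsFunctionField1 (ResidueField A) Fb]
  [IsAlgClosed (ResidueField A)] in
theorem TwoCompData.divFixed_zsmul {H : Subgroup Γℚ} {D : Divisor Qb F} (hD : M.DivFixed H D)
    (k : ℤ) : M.DivFixed H (k • D) := fun σ hσ =>
  ((DistribMulAction.toAddMonoidHom (Divisor Qb F) (M.act σ)).map_zsmul k D).trans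
    (congrArg (k • ·) (hD σ hσ))

omit [IsFunctionField1 Qb F] [IsFunctionField1 (ResidueField A) Fb]
  [IsAlgClosed (ResidueField A)] in
theorem TwoCompData.act_smul_swap (σ : Γℚ) {X : Type*} [SMul (SemilinearAut Qb F) X]
    (x : X) : (M.act σ * SemilinearAut.ofAlgAut M.swap) • x =
      (SemilinearAut.ofAlgAut M.swap * M.act σ) • x := by
  congr 1
  refine Subtype.ext (Prod.ext (RingEquiv.ext fun f => ?_) (RingEquiv.ext fun a => ?_))
  · exact (M.swap_act σ f).symm
  · show SemilinearAut.baseAut (M.act σ * SemilinearAut.ofAlgAut M.swap) a =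
      SemilinearAut.baseAut (SemilinearAut.ofAlgAut M.swap * M.act σ) a
    simp

omit [IsFunctionField1 Qb F] [IsFunctionField1 (ResidueField A) Fb]
  [IsAlgClosed (ResidueField A)] in
theorem TwoCompData.act_swap (σ : Γℚ) (D : Divisor Qb F) :
    M.act σ • SemilinearAut.ofAlgAut M.swap • D = SemilinearAut.ofAlgAut M.swap • M.act σ • D := by
  rw [← mul_smul, ← mul_smul, M.act_smul_swap]

/-- At a point of the first component, the order of the residue of a function with divisor `p • E`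
in terms of a local generator of `E`. -/
theorem TwoCompData.residue_ord (hp : p.Prime) (L : Level p A) {E : Divisor Qb F} {f : F}
    (hf : f ≠ 0) (hff : M.Fixed L.H f) (hford : ∀ P, ((p : ℤ) • E) P = P.ord f) {n : ℤ}
    (h₀ : M.VOrd L.π false f 0) (h₁ : M.VOrd L.π true f n) {y : M.Pt} (hy : M.On y false)
    {ψ : F} (hψf : M.Fixed L.H ψ) (hψ : M.LocalGen y E ψ) :
    (¬ M.IsNode y → (p : ℤ) ∣ (M.loc y false).ord (M.residueAt false f)) ∧
    (M.IsNode y → ∀ μ₀ μ₁ : ℤ, M.VOrd L.π false ψ μ₀ → M.VOrd L.π true ψ μ₁ → ∃ o : ℤ,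
      12 * (L.e : ℤ) * ((M.loc y false).ord (M.residueAt false f) - p * o) =
        (n - p * (μ₁ - μ₀)) * M.r y) := by
  obtain ⟨m₀, hm₀⟩ := M.exists_vord L false hψ.1 hψf
  have hπ : algebraMap Qb F L.π ≠ 0 := (map_ne_zero _).2 L.ne_zero
  set X := ψ / algebraMap Qb F L.π ^ m₀ with hX
  have hX0 : X ≠ 0 := div_ne_zero hψ.1 (zpow_ne_zero _ hπ)
  have hXf : M.Fixed L.H X := TwoCompData.fixed_div hψf (TwoCompData.fixed_pi_zpow L _)
  have hXv : M.VOrd L.π false X 0 := by simpa using M.vord_div_pi_zpow L hm₀ m₀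
  have hXord : ∀ P, M.sp P = y → P.ord X = E P := fun P hP => by
    rw [hX, Fermat.Agent.Curve.ord_div P hψ.1 (zpow_ne_zero _ hπ), P.ord_zpow, ord_algebraMap,
      hψ.2 P hP]
    simp
  set U := f / X ^ p with hU
  have hU0 : U ≠ 0 := div_ne_zero hf (pow_ne_zero _ hX0)
  have hUord : ∀ P, M.sp P = y → P.ord U = 0 := fun P hP => by
    rw [hU, Fermat.Agent.Curve.ord_div P hf (pow_ne_zero _ hX0), Fermat.Agent.Curve.ord_pow,
      hXord P hP, ← hford P, Finsupp.smul_apply, smul_eq_mul, sub_self]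
  have hUv : M.VOrd L.π false U 0 := by simpa using h₀.div (hXv.pow p) L.ne_zero
  set o := (M.loc y false).ord (M.residueAt false X) with ho
  have hres : (M.loc y false).ord (M.residueAt false U) =
      (M.loc y false).ord (M.residueAt false f) - p * o := by
    rw [hU, TwoCompData.residueAt_div (M.mem_of_valuation_eq_one h₀.valuation_eq_one)
        (by rw [map_pow, hXv.valuation_eq_one, one_pow]),
      TwoCompData.residueAt_pow (M.mem_of_valuation_eq_one hXv.valuation_eq_one),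
      Fermat.Agent.Curve.ord_div _ (TwoCompData.residueAt_ne_zero h₀.valuation_eq_one)
        (pow_ne_zero _ (TwoCompData.residueAt_ne_zero hXv.valuation_eq_one)),
      Fermat.Agent.Curve.ord_pow]
  constructor
  · intro hnode
    have hUu : M.RegUnit y U := TwoCompData.regUnit_of_ord hU0 hUord fun i hi => by
      cases i
      · exact hUv.valuation_eq_one
      · exact absurd ⟨hy, hi⟩ hnode
    refine ⟨o, ?_⟩
    have := (hUu.ord_residueAt hy).2
    rw [hres] at this
    linarith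
  · intro hnode μ₀ μ₁ hμ₀ hμ₁
    obtain rfl : μ₀ = m₀ := M.vord_unique L hμ₀ hm₀
    refine ⟨o, ?_⟩
    have hUv₁ : M.VOrd L.π true U (n - p * (μ₁ - μ₀)) :=
      h₁.div ((M.vord_div_pi_zpow L hμ₁ μ₀).pow p) L.ne_zero
    have h := M.slope_eq hp L hnode
      (TwoCompData.fixed_div hff (TwoCompData.fixed_pow hXf p))
      ⟨hU0, fun P hP => by rw [hUord P hP, Finsupp.zero_apply]⟩ hUv hUv₁
    rw [← hres]
    simpa using h

omit [IsFunctionField1 Qb F] [IsFunctionField1 (ResidueField A) Fb]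
  [IsAlgClosed (ResidueField A)] in
theorem not_dvd_twelve (hp : p.Prime) (hp5 : 5 ≤ p) : ¬ (p : ℤ) ∣ 12 := by
  rw [show (12 : ℤ) = ((2 * (2 * 3) : ℕ) : ℤ) by norm_num, Int.natCast_dvd_natCast, hp.dvd_mul,
    hp.dvd_mul]
  rintro (h | h | h)
  all_goals have := Nat.le_of_dvd (by norm_num) h; omega

omit [IsFunctionField1 Qb F] [IsFunctionField1 (ResidueField A) Fb]
  [IsAlgClosed (ResidueField A)] in
theorem exists_inverse_mod (hp : p.Prime) {a : ℤ} (ha : ¬ (p : ℤ) ∣ a) :
    ∃ u : ℤ, (p : ℤ) ∣ a * u - 1 := by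
  obtain ⟨v, u, huv⟩ := (Nat.prime_iff_prime_int.1 hp).coprime_iff_not_dvd.2 ha
  exact ⟨u, -v, by linear_combination huv⟩

/-- Over the unramified constants every residual divisor is Eisenstein. -/
theorem TwoCompData.eisenstein_of_unramified (hp : p.Prime) (hp5 : 5 ≤ p) (L : Level p A)
    (he : L.e = 1) {E : Divisor Qb F} (hE : M.DivFixed L.H E) {f : F} (hf : f ≠ 0)
    (hff : M.Fixed L.H f) (hford : ∀ P, ((p : ℤ) • E) P = P.ord f) {n : ℤ}
    (h₀ : M.VOrd L.π false f 0) (h₁ : M.VOrd L.π true f n) :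
    M.EisensteinResidue (M.residueAt false f) := by
  obtain ⟨u, v, hu⟩ := exists_inverse_mod hp (not_dvd_twelve hp hp5)
  refine ⟨n * u, fun y hy => ?_⟩
  obtain ⟨ψ, hψf, hψ⟩ := M.exists_localGen hp L E hE y
  obtain ⟨h1, h2⟩ := M.residue_ord hp L hf hff hford h₀ h₁ hy hψf hψ
  refine ⟨fun hnode => ?_, h1⟩
  obtain ⟨μ₀, hμ₀⟩ := M.exists_vord L false hψ.1 hψf
  obtain ⟨μ₁, hμ₁⟩ := M.exists_vord L true hψ.1 hψf
  obtain ⟨o, ho⟩ := h2 hnode μ₀ μ₁ hμ₀ hμ₁
  rw [he, Nat.cast_one, mul_one] at ho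
  refine ((Nat.prime_iff_prime_int.1 hp).dvd_or_dvd
    (a := (12 : ℤ)) ⟨12 * o - (μ₁ - μ₀) * M.r y - v * n * M.r y, ?_⟩).resolve_left
    (not_dvd_twelve hp hp5)
  linear_combination ho - n * (M.r y : ℤ) * hu

/-- Over wild constants the residual divisor is Eisenstein when the slopes agree modulo `p`. -/
theorem TwoCompData.eisenstein_of_uniform (hp : p.Prime) (hp5 : 5 ≤ p) (L : Level p A)
    (he : L.e = p * (p - 1)) {E : Divisor Qb F} (hE : M.DivFixed L.H E) {f : F} (hf : f ≠ 0)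
    (hff : M.Fixed L.H f) (hford : ∀ P, ((p : ℤ) • E) P = P.ord f) {n : ℤ}
    (h₀ : M.VOrd L.π false f 0) (h₁ : M.VOrd L.π true f n)
    (huni : ∀ {y y' : M.Pt}, M.IsNode y → M.IsNode y' → ∀ {ψ ψ' : F}, M.LocalGen y E ψ →
      M.Fixed L.H ψ → M.LocalGen y' E ψ' → M.Fixed L.H ψ' → ∀ {a₀ a₁ a₀' a₁' : ℤ},
      M.VOrd L.π false ψ a₀ → M.VOrd L.π true ψ a₁ → M.VOrd L.π false ψ' a₀' →
      M.VOrd L.π true ψ' a₁' → (p : ℤ) ∣ (a₁ - a₀) - (a₁' - a₀')) :
    M.EisensteinResidue (M.residueAt false f) := by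
  have hpp := Nat.prime_iff_prime_int.1 hp
  have hp1 : ¬ (p : ℤ) ∣ 12 * ((p : ℤ) - 1) := fun h => by
    rcases hpp.dvd_or_dvd h with h | h
    · exact not_dvd_twelve hp hp5 h
    · exact hpp.not_dvd_one (by simpa using (dvd_refl (p : ℤ)).sub h)
  obtain ⟨u, v, hu⟩ := exists_inverse_mod hp hp1
  obtain ⟨y₀, hy₀⟩ := M.nonempty_node
  obtain ⟨ψ', hψ'f, hψ'⟩ := M.exists_localGen hp L E hE y₀
  obtain ⟨a₀', ha₀'⟩ := M.exists_vord L false hψ'.1 hψ'f
  obtain ⟨a₁', ha₁'⟩ := M.exists_vord L true hψ'.1 hψ'f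
  have hecast : (L.e : ℤ) = p * ((p : ℤ) - 1) := by
    rw [he, Nat.cast_mul, Nat.cast_sub hp.one_le, Nat.cast_one]
  obtain ⟨o', ho'⟩ := (M.residue_ord hp L hf hff hford h₀ h₁ hy₀.1 hψ'f hψ').2 hy₀
    a₀' a₁' ha₀' ha₁'
  rw [hecast] at ho'
  obtain ⟨n', hn'⟩ : (p : ℤ) ∣ n := by
    refine (hpp.dvd_or_dvd (b := (M.r y₀ : ℤ)) ⟨12 * ((p : ℤ) - 1) *
      ((M.loc y₀ false).ord (M.residueAt false f) - p * o') + (a₁' - a₀') * M.r y₀,
      by linear_combination -ho'⟩).resolve_right fun h =>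
      M.not_dvd_r hp5 y₀ hy₀.1 hy₀.2 ((Int.natCast_dvd_natCast.1 h).mul_left 12)
  refine ⟨(n' - (a₁' - a₀')) * u, fun y hy => ?_⟩
  obtain ⟨ψ, hψf, hψ⟩ := M.exists_localGen hp L E hE y
  obtain ⟨h1, h2⟩ := M.residue_ord hp L hf hff hford h₀ h₁ hy hψf hψ
  refine ⟨fun hnode => ?_, h1⟩
  obtain ⟨a₀, ha₀⟩ := M.exists_vord L false hψ.1 hψf
  obtain ⟨a₁, ha₁⟩ := M.exists_vord L true hψ.1 hψf
  obtain ⟨o, ho⟩ := h2 hnode a₀ a₁ ha₀ ha₁
  rw [hecast, hn'] at ho
  obtain ⟨δ, hδ⟩ := huni hnode hy₀ hψ hψf hψ' hψ'f ha₀ ha₁ ha₀' ha₁'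
  have ho₂ : 12 * ((p : ℤ) - 1) * ((M.loc y false).ord (M.residueAt false f) - p * o) =
      (n' - (a₁ - a₀)) * M.r y :=
    mul_left_cancel₀ hpp.ne_zero (by linear_combination ho)
  refine (hpp.dvd_or_dvd (a := 12 * ((p : ℤ) - 1))
    ⟨12 * ((p : ℤ) - 1) * o - δ * M.r y - v * (n' - (a₁' - a₀')) * M.r y, ?_⟩).resolve_left hp1
  linear_combination ho₂ - (n' - (a₁' - a₀')) * (M.r y : ℤ) * hu - (M.r y : ℤ) * hδ

/-- Rigid Eisenstein residues are `p`-th powers. -/
theorem TwoCompData.powResidue_of_rigid (hp : p.Prime) (L : Level p A)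
    {E : Divisor Qb F} (hE : M.DivFixed L.H E) (hpE : Divisor.IsPrincipal ((p : ℤ) • E))
    (hrig : M.Rigid E) (hrig' : M.Rigid (SemilinearAut.ofAlgAut M.swap • E))
    (heis : ∀ E', (E' = E ∨ E' = SemilinearAut.ofAlgAut M.swap • E) → M.DivFixed L.H E' →
      ∀ f : F, f ≠ 0 → M.Fixed L.H f → (∀ P, ((p : ℤ) • E') P = P.ord f) → ∀ n : ℤ,
      M.VOrd L.π false f 0 → M.VOrd L.π true f n → M.EisensteinResidue (M.residueAt false f)) :
    M.PowResidue E p := by
  obtain ⟨f₀, hf₀, hf₀f, hf₀ord⟩ := M.descend_principal L.H L.le_inertia _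
    (M.divFixed_zsmul hE _) hpE
  have hscale : ∀ i, ∃ g : F, g ≠ 0 ∧ M.Fixed L.H g ∧ (∀ P, ((p : ℤ) • E) P = P.ord g) ∧
      M.VOrd L.π i g 0 := by
    intro i
    obtain ⟨c, hc, hcH, hcv⟩ := M.exists_scale i L.H L.le_inertia f₀ hf₀ hf₀f
    refine ⟨algebraMap Qb F c * f₀, mul_ne_zero ((map_ne_zero _).2 hc) hf₀,
      TwoCompData.fixed_mul (M.fixed_algebraMap hcH) hf₀f, fun P => ?_,
      TwoCompData.vord_zero_iff.2 hcv⟩
    rw [P.ord_mul ((map_ne_zero _).2 hc) hf₀, Fermat.Agent.Curve.ord_algebraMap, zero_add, hf₀ord]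
  refine M.powResidue_of_exists hp.pos fun i => ?_
  obtain ⟨g, hg, hgf, hgord, hgv⟩ := hscale i
  refine ⟨g, hg, hgord, hgv.valuation_eq_one, ?_⟩
  cases i
  · obtain ⟨n, hn⟩ := M.exists_vord L true hg hgf
    exact hrig g hg hgord hgv.valuation_eq_one
      (heis E (Or.inl rfl) hE g hg hgf hgord n hgv hn)
  · have hgV : g ∈ M.V true := M.mem_of_valuation_eq_one hgv.valuation_eq_one
    have hgV' : g⁻¹ ∈ M.V true :=
      M.mem_of_valuation_eq_one (by rw [map_inv₀, hgv.valuation_eq_one, inv_one])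
    have hs0 : M.swap g ≠ 0 := (map_ne_zero _).2 hg
    have hsf : M.Fixed L.H (M.swap g) := fun σ hσ => by rw [← M.swap_act, hgf σ hσ]
    have hsV : M.swap g ∈ M.V false := (M.swap_mem_iff g).2 hgV
    have hsV' : (M.swap g)⁻¹ ∈ M.V false := by
      rw [← map_inv₀]; exact (M.swap_mem_iff _).2 hgV'
    have hsv : M.VOrd L.π false (M.swap g) 0 := TwoCompData.vord_zero_iff.2 (le_antisymm
      ((ValuationSubring.valuation_le_one_iff _ _).2 hsV) (by
        have h := (ValuationSubring.valuation_le_one_iff _ _).2 hsV'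
        rwa [map_inv₀, inv_le_one₀ (zero_lt_iff.2 ((map_ne_zero _).2 hs0))] at h))
    have hsord : ∀ P, ((p : ℤ) • (SemilinearAut.ofAlgAut M.swap • E)) P = P.ord (M.swap g) := by
      intro P
      have h := SemilinearAut.ord_smul (SemilinearAut.ofAlgAut M.swap)
        ((SemilinearAut.ofAlgAut M.swap)⁻¹ • P) g
      rw [smul_inv_smul, SemilinearAut.ofAlgAut_smul] at h
      rw [h, Finsupp.smul_apply, SemilinearAut.divisor_smul_apply, ← hgord, Finsupp.smul_apply]
    have hE' : M.DivFixed L.H (SemilinearAut.ofAlgAut M.swap • E) := fun σ hσ => by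
      rw [M.act_swap, hE σ hσ]
    obtain ⟨n, hn⟩ := M.exists_vord L true hs0 hsf
    obtain ⟨h, hh⟩ := hrig' _ hs0 hsord hsv.valuation_eq_one
      (heis _ (Or.inr rfl) hE' _ hs0 hsf hsord n hsv hn)
    refine ⟨h, hh.trans ?_⟩
    rw [M.residueAt_of_mem hsV, M.residueAt_of_mem hgV]
    exact M.red_swap ⟨g, hgV⟩ hsV

omit [IsFunctionField1 (ResidueField A) Fb] [IsAlgClosed (ResidueField A)] in
theorem degree_eq_zero_of_isPrincipal {D : Divisor Qb F} (h : Divisor.IsPrincipal D) :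
    Divisor.degree D = 0 := by
  obtain ⟨f, hf, hford⟩ := h
  rw [show D = divisorOf f from Finsupp.ext hford, degree_divisorOf]

omit [IsFunctionField1 Qb F] [IsFunctionField1 (ResidueField A) Fb]
  [IsAlgClosed (ResidueField A)] in
theorem isPrincipal_of_zsmul (hp : p.Prime) {k : ℤ} (hk : ¬ (p : ℤ) ∣ k) {D : Divisor Qb F}
    (hpD : Divisor.IsPrincipal ((p : ℤ) • D)) (hkD : Divisor.IsPrincipal (k • D)) :
    D.IsPrincipal := by
  obtain ⟨u, v, huv⟩ := (Nat.prime_iff_prime_int.1 hp).coprime_iff_not_dvd.2 hk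
  have h := Divisor.principal.add_mem (Divisor.principal.zsmul_mem hpD u)
    (Divisor.principal.zsmul_mem hkD v)
  rwa [smul_smul, smul_smul, ← add_smul, huv, one_smul] at h

/-- **Tame case.** -/
theorem no_tame_torsion (hp : p.Prime) (hp5 : 5 ≤ p) (hA : A.LiesOverPrime p)
    (D : Divisor Qb F) (hdeg : Divisor.degree D = 0) (hD : ¬ D.IsPrincipal)
    (hpD : Divisor.IsPrincipal ((p : ℤ) • D))
    (hfix : ∀ σ ∈ A.inertiaSubgroupIn ℚ, Divisor.IsPrincipal (M.act σ • D - D))
    (hrig : ∀ E : Divisor Qb F, Divisor.IsPrincipal (E - D) → M.Rigid E ∧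
      M.Rigid (SemilinearAut.ofAlgAut M.swap • E)) : False := by
  obtain ⟨E, hEf, hED⟩ := M.descend_class _ le_rfl D hdeg hfix
  set L := TwoCompData.unramifiedLevel hp hA
  have hpE : Divisor.IsPrincipal ((p : ℤ) • E) := by
    have h := Divisor.principal.add_mem hpD (Divisor.principal.zsmul_mem hED (p : ℤ))
    rwa [← smul_add, add_sub_cancel] at h
  have hres := M.powResidue_of_rigid hp L hEf hpE (hrig E hED).1 (hrig E hED).2
    fun E' _ hE' f hf hff hford n h₀ h₁ =>
      M.eisenstein_of_unramified hp hp5 L rfl hE' hf hff hford h₀ h₁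
  obtain ⟨D', hD'f, hD', htriv⟩ := M.exists_trivial_one hp hA (fun y hy => M.not_dvd_r' hp5 hy) L hEf hpE hres
  set k : ℤ := (M.nodeProd : ℤ) with hk
  have hdegE : Divisor.degree E = 0 := by
    have := degree_eq_zero_of_isPrincipal hED
    rw [map_sub, hdeg, sub_zero] at this
    exact this
  have hdeg' : Divisor.degree D' = 0 := by
    have := degree_eq_zero_of_isPrincipal hD'
    rwa [map_sub, map_zsmul, hdegE, smul_zero, sub_zero] at this
  have hpD' : Divisor.IsPrincipal ((p : ℤ) • D') := by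
    have h := Divisor.principal.add_mem (Divisor.principal.zsmul_mem hD' (p : ℤ))
      (Divisor.principal.zsmul_mem hpE k)
    rwa [smul_sub, smul_comm (p : ℤ) k, sub_add_cancel] at h
  have hD'p := TwoCompData.isPrincipal_of_unramified hp (by omega) hA L rfl hdeg' hD'f hpD' htriv
  have hkE : Divisor.IsPrincipal (k • E) := by
    have h := Divisor.principal.sub_mem hD'p hD'
    rwa [sub_sub_cancel] at h
  have hEp := isPrincipal_of_zsmul hp
    (fun h => M.not_dvd_nodeProd hp (fun y hy => M.not_dvd_r' hp5 hy) (Int.natCast_dvd_natCast.1 h)) hpE hkE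
  have h := Divisor.principal.sub_mem hEp hED
  rw [sub_sub_cancel] at h
  exact hD h

/-- **Wild case.** -/
theorem no_wild_torsion (hp : p.Prime) (hp5 : 5 ≤ p) (hA : A.LiesOverPrime p)
    (L₁ L : Level p A) (he₁ : L₁.e = p - 1) (he : L.e = p * (p - 1)) (hle : L.H ≤ L₁.H)
    (τ : Γℚ) (hτ : τ ∈ L₁.H) (hnorm : ∀ σ ∈ L.H, τ⁻¹ * σ * τ ∈ L.H)
    (hgen : ∀ σ ∈ L₁.H, ∃ n : ℤ, τ ^ n * σ ∈ L.H)
    (η : Qb) (b : ℕ) (hb : 1 ≤ b) (hbp : b < p) (hτπ : τ L.π = L.π * (1 + η))
    (hη : A.valuation η = A.valuation L.π ^ b)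
    (hmove : ∀ z : Qb, (∀ σ ∈ L.H, σ z = z) → z ∈ A →
      A.valuation (τ z - z) ≤ A.valuation L.π ^ (b + 1))
    (D : Divisor Qb F) (hdeg : Divisor.degree D = 0) (hpD : Divisor.IsPrincipal ((p : ℤ) • D))
    (hfix : ∀ σ ∈ L.H, Divisor.IsPrincipal (M.act σ • D - D))
    (hmoved : ¬ Divisor.IsPrincipal (M.act τ • D - D))
    (hfix₁ : ∀ σ ∈ L₁.H,
      Divisor.IsPrincipal (M.act σ • (M.act τ • D - D) - (M.act τ • D - D)))
    (hrig : ∀ E : Divisor Qb F, Divisor.IsPrincipal (E - D) → M.Rigid E ∧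
      M.Rigid (SemilinearAut.ofAlgAut M.swap • E)) : False := by
  have hτI : τ ∈ A.inertiaSubgroupIn ℚ := L₁.le_inertia hτ
  obtain ⟨E, hEf, hED⟩ := M.descend_class L.H L.le_inertia D hdeg hfix
  have hdegE : Divisor.degree E = 0 := by
    have := degree_eq_zero_of_isPrincipal hED
    rwa [map_sub, hdeg, sub_zero] at this
  have hpE : Divisor.IsPrincipal ((p : ℤ) • E) := by
    have h := Divisor.principal.add_mem hpD (Divisor.principal.zsmul_mem hED (p : ℤ))
    rwa [← smul_add, add_sub_cancel] at h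
  have hact : ∀ {X : Divisor Qb F}, Divisor.IsPrincipal X → ∀ g : SemilinearAut Qb F,
      Divisor.IsPrincipal (g • X) := fun hX g => SemilinearAut.smul_mem_principal g hX
  have hED' : Divisor.IsPrincipal ((M.act τ • E - E) - (M.act τ • D - D)) := by
    have h := Divisor.principal.sub_mem (hact hED (M.act τ)) hED
    rwa [smul_sub, show M.act τ • E - M.act τ • D - (E - D) =
      M.act τ • E - E - (M.act τ • D - D) by abel] at h
  -- the class moved by `τ` is fixed over the tame field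
  have hfix₁' : ∀ σ ∈ L₁.H,
      Divisor.IsPrincipal (M.act σ • (M.act τ • E - E) - (M.act τ • E - E)) := by
    intro σ hσ
    have h := Divisor.principal.sub_mem
      (Divisor.principal.add_mem (hfix₁ σ hσ) (hact hED' (M.act σ))) hED'
    rwa [smul_sub (M.act σ) (M.act τ • E - E) (M.act τ • D - D),
      show M.act σ • (M.act τ • D - D) - (M.act τ • D - D) +
        (M.act σ • (M.act τ • E - E) - M.act σ • (M.act τ • D - D)) -
        (M.act τ • E - E - (M.act τ • D - D)) =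
        M.act σ • (M.act τ • E - E) - (M.act τ • E - E) by abel] at h
  set w := SemilinearAut.ofAlgAut M.swap with hw
  have heis : ∀ E', (E' = E ∨ E' = w • E) → M.DivFixed L.H E' →
      ∀ f : F, f ≠ 0 → M.Fixed L.H f → (∀ P, ((p : ℤ) • E') P = P.ord f) → ∀ n : ℤ,
      M.VOrd L.π false f 0 → M.VOrd L.π true f n →
      M.EisensteinResidue (M.residueAt false f) := by
    intro E' hE' hE'f f hf hff hford n h₀ h₁
    refine M.eisenstein_of_uniform hp hp5 L he hE'f hf hff hford h₀ h₁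
      fun hy hy' _ _ hψ hψf hψ' hψ'f _ _ _ _ ha₀ ha₁ ha₀' ha₁' => ?_
    refine M.jump_uniform hp hp5 hA L₁ L he₁ he hle τ hτ hnorm hgen η b hb hbp hτπ hη hmove E'
      ?_ ⟨f, hf, hford⟩ hE'f ?_ hy hy' hψ hψf hψ' hψ'f ha₀ ha₁ ha₀' ha₁'
    · rcases hE' with rfl | rfl
      · exact hdegE
      · rw [SemilinearAut.degree_smul, hdegE]
    · rcases hE' with rfl | rfl
      · exact hfix₁'
      · intro σ hσ
        have h := hact (hfix₁' σ hσ) w
        rwa [smul_sub w, ← M.act_swap, smul_sub w, ← M.act_swap] at h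
  have hres := M.powResidue_of_rigid hp L hEf hpE (hrig E hED).1 (hrig E hED).2 heis
  obtain ⟨D', hD'f, hD', htriv⟩ := M.exists_trivial_one hp hA (fun y hy => M.not_dvd_r' hp5 hy) L hEf hpE hres
  set k : ℤ := (M.nodeProd : ℤ) with hk
  have hpk : ¬ (p : ℤ) ∣ k := fun h => M.not_dvd_nodeProd hp (fun y hy => M.not_dvd_r' hp5 hy) (Int.natCast_dvd_natCast.1 h)
  -- the moved class
  have hdegT : Divisor.degree (M.act τ • E - E) = 0 := by
    rw [map_sub, SemilinearAut.degree_smul, sub_self]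
  obtain ⟨T, hTf, hTE⟩ := M.descend_class L₁.H L₁.le_inertia _ hdegT hfix₁'
  have hpTE : Divisor.IsPrincipal ((p : ℤ) • (M.act τ • E - E)) := by
    have h := Divisor.principal.sub_mem (hact hpE (M.act τ)) hpE
    rwa [show M.act τ • ((p : ℤ) • E) = (p : ℤ) • (M.act τ • E) from
      (DistribMulAction.toAddMonoidHom (Divisor Qb F) (M.act τ)).map_zsmul _ _,
      ← smul_sub] at h
  have hx : (p : ℤ) • Pic0.mk (⟨E, hdegE⟩ : Divisor.degZero (K := Qb) (F := F)) = 0 :=
    (TwoCompData.mk_eq_zero_iff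
      (D := (p : ℤ) • (⟨E, hdegE⟩ : Divisor.degZero (K := Qb) (F := F)))).2 hpE
  have hresT : M.PowResidue T p := by
    refine M.powResidue_of_principal hp.pos hpTE ?_ hTE
    have h := M.picPow_act_sub hp.pos hτI
      (x := Pic0.mk ⟨E, hdegE⟩) hx
      (SemilinearAut.degZeroSMulHom (M.act τ) ⟨E, hdegE⟩ - ⟨E, hdegE⟩) rfl
    rw [AddSubgroup.coe_sub, SemilinearAut.coe_degZeroSMulHom] at h
    exact h
  have hpT : Divisor.IsPrincipal ((p : ℤ) • T) := by
    have h := Divisor.principal.add_mem hpTE (Divisor.principal.zsmul_mem hTE (p : ℤ))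
    rwa [← smul_add, add_sub_cancel] at h
  obtain ⟨T', hT'f, hT', htrivT⟩ := M.exists_trivial_one hp hA (fun y hy => M.not_dvd_r' hp5 hy) L₁ hTf hpT hresT
  have hdegT' : Divisor.degree T' = 0 := by
    have h := degree_eq_zero_of_isPrincipal hT'
    have h' := degree_eq_zero_of_isPrincipal hTE
    rw [map_sub, hdegT, sub_zero] at h'
    rwa [map_sub, map_zsmul, h', smul_zero, sub_zero] at h
  have hpT' : Divisor.IsPrincipal ((p : ℤ) • T') := by
    have h := Divisor.principal.add_mem (Divisor.principal.zsmul_mem hT' (p : ℤ))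
      (Divisor.principal.zsmul_mem hpT k)
    rwa [smul_sub, smul_comm (p : ℤ) k, sub_add_cancel] at h
  have hpD' : Divisor.IsPrincipal ((p : ℤ) • D') := by
    have h := Divisor.principal.add_mem (Divisor.principal.zsmul_mem hD' (p : ℤ))
      (Divisor.principal.zsmul_mem hpE k)
    rwa [smul_sub, smul_comm (p : ℤ) k, sub_add_cancel] at h
  refine M.no_wild_moved hp (by omega) hA L₁ L he₁ he hle τ hτI hnorm η b hb hτπ hη hmove
    hD'f hpD' htriv hdegT' hT'f hpT' (fun h => hmoved ?_) htrivT ?_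
  · have hkT : Divisor.IsPrincipal (k • T) := by
      have := Divisor.principal.sub_mem h hT'
      rwa [sub_sub_cancel] at this
    have h1 := Divisor.principal.sub_mem (Divisor.principal.sub_mem
      (isPrincipal_of_zsmul hp hpk hpT hkT) hTE) hED'
    rwa [sub_sub_cancel, sub_sub_cancel] at h1
  · have h := Divisor.principal.sub_mem (Divisor.principal.sub_mem
      (Divisor.principal.sub_mem (hact hD' (M.act τ)) hD') hT')
      (Divisor.principal.zsmul_mem hTE k)
    rwa [smul_sub (M.act τ), show M.act τ • (k • E) = k • (M.act τ • E) from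
      (DistribMulAction.toAddMonoidHom (Divisor Qb F) (M.act τ)).map_zsmul _ _,
      smul_sub k, smul_sub k,
      show M.act τ • D' - k • M.act τ • E - (D' - k • E) - (T' - k • T) -
        (k • T - (k • M.act τ • E - k • E)) = M.act τ • D' - D' - T' by abel] at h

end Fermat.Agent.LevelP
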