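import Fermat.Agent.LevelP.Model.Data

/-!
# Fixed functions along the components

Owner: helper34.
-/

set_option autoImplicit false

noncomputable section

namespace Fermat.Agent.LevelP

open AlgebraicCurve Fermat.Agent.Curve IsLocalRing

local notation "Qb" => AlgebraicClosure ℚ
local notation "Γℚ" => (AlgebraicClosure ℚ ≃ₐ[ℚ] AlgebraicClosure ℚ)

variable {p : ℕ} {A : ValuationSubring Qb} {F : Type*} [Field F] [Algebra Qb F]
  {Fb : Type*} [Field Fb] [Algebra (ResidueField A) Fb] (M : TwoCompData p A F Fb)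

theorem Level.valuation_lt_one_pow (L : Level p A) {m n : ℕ} (h : m ≤ n) :
    A.valuation L.π ^ n ≤ A.valuation L.π ^ m :=
  pow_le_pow_right_of_le_one' L.lt_one.le h

theorem Level.valuation_ne_zero (L : Level p A) : A.valuation L.π ≠ 0 :=
  (map_ne_zero _).2 L.ne_zero

theorem Level.π_mem (L : Level p A) : L.π ∈ A :=
  (A.valuation_le_one_iff _).1 L.lt_one.le

/-- Uniformisers of two levels whose indices differ by the factor `p`. -/
theorem Level.valuation_eq_pow (L₁ L : Level p A) (he : L.e = p * L₁.e) :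
    A.valuation L₁.π = A.valuation L.π ^ p := by
  refine (pow_left_inj₀ zero_le zero_le L₁.e_pos.ne').1 ?_
  rw [← pow_mul, ← he, L₁.pow_e, L.pow_e]

namespace TwoCompData

/-- Constants are compared along the components as in `A`. -/
theorem valuation_algebraMap_le_iff (i : Bool) (a b : Qb) :
    (M.V i).valuation (algebraMap Qb F a) ≤ (M.V i).valuation (algebraMap Qb F b) ↔
      A.valuation a ≤ A.valuation b := by
  rcases eq_or_ne b 0 with rfl | hb
  · simp
  have hb' : algebraMap Qb F b ≠ 0 := (map_ne_zero _).2 hb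
  rw [← div_le_one₀ (zero_lt_iff.2 ((map_ne_zero _).2 hb)),
    ← div_le_one₀ (zero_lt_iff.2 ((map_ne_zero _).2 hb')), ← map_div₀, ← map_div₀, ← map_div₀,
    ValuationSubring.valuation_le_one_iff, ValuationSubring.valuation_le_one_iff,
    M.algebraMap_mem_iff]

theorem valuation_algebraMap_eq (i : Bool) {a b : Qb} (h : A.valuation a = A.valuation b) :
    (M.V i).valuation (algebraMap Qb F a) = (M.V i).valuation (algebraMap Qb F b) :=
  le_antisymm ((M.valuation_algebraMap_le_iff i a b).2 h.le)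
    ((M.valuation_algebraMap_le_iff i b a).2 h.ge)

theorem valuation_pi_ne_zero (L : Level p A) (i : Bool) :
    (M.V i).valuation (algebraMap Qb F L.π) ≠ 0 :=
  (map_ne_zero _).2 ((map_ne_zero _).2 L.ne_zero)

theorem valuation_pi_lt_one (L : Level p A) (i : Bool) :
    (M.V i).valuation (algebraMap Qb F L.π) < 1 := by
  refine lt_of_not_ge fun h => L.lt_one.not_ge ?_
  have h' : (M.V i).valuation (algebraMap Qb F 1) ≤ (M.V i).valuation (algebraMap Qb F L.π) := by
    simpa using h
  simpa using (M.valuation_algebraMap_le_iff i 1 L.π).1 h'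

theorem pi_mem (L : Level p A) (i : Bool) : algebraMap Qb F L.π ∈ M.V i :=
  (M.algebraMap_mem_iff i _).2 L.π_mem

/-- Fixed functions have integral orders. -/
theorem exists_vord (L : Level p A) (i : Bool) {f : F} (hf : f ≠ 0) (hfix : M.Fixed L.H f) :
    ∃ n : ℤ, M.VOrd L.π i f n := by
  obtain ⟨c, hc, hcfix, hval⟩ := M.exists_scale i L.H L.le_inertia f hf hfix
  obtain ⟨n, hn⟩ := L.value c hc hcfix
  refine ⟨-n, ?_⟩
  rw [← map_zpow₀] at hn
  have h := M.valuation_algebraMap_eq i hn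
  rw [map_mul, h, map_zpow₀, map_zpow₀] at hval
  rw [VOrd, zpow_neg]
  exact eq_inv_of_mul_eq_one_right hval

/-- A function all whose fixed rewritings have residue zero is divisible by the uniformiser. -/
theorem vcongr_one_iff (L : Level p A) (i : Bool) {f g : F} (hf : M.Fixed L.H f)
    (hg : M.Fixed L.H g) (hfV : f ∈ M.V i) (hgV : g ∈ M.V i) :
    M.VCongr L.π i 1 f g ↔ M.red i ⟨f, hfV⟩ = M.red i ⟨g, hgV⟩ := by
  rw [← sub_eq_zero (a := M.red i ⟨f, hfV⟩), ← map_sub, M.red_eq_zero_iff,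
    ValuationSubring.mem_nonunits_iff]
  show _ ↔ (M.V i).valuation (f - g) < 1
  constructor
  · rintro ⟨d, hd, he⟩
    rw [he, pow_one, map_mul]
    exact mul_lt_one_of_lt_of_le (M.valuation_pi_lt_one L i)
      ((ValuationSubring.valuation_le_one_iff _ _).2 hd)
  · intro hlt
    refine ⟨(f - g) / algebraMap Qb F L.π, ?_, ?_⟩
    · rcases eq_or_ne (f - g) 0 with h | h
      · simp [h]
      obtain ⟨n, hn⟩ := M.exists_vord L i h (fun σ hσ => by rw [smul_sub, hf σ hσ, hg σ hσ])
      have hπ0 := M.valuation_pi_ne_zero L i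
      have hn1 : 1 ≤ n := by
        by_contra hcon
        rw [hn] at hlt
        refine hlt.not_ge ?_
        have hn0 : (0 : ℤ) ≤ -n := by omega
        obtain ⟨k, hk⟩ := Int.eq_ofNat_of_zero_le hn0
        rw [show n = -(k : ℤ) by omega, zpow_neg, zpow_natCast]
        exact one_le_inv₀ (zero_lt_iff.2 (pow_ne_zero _ hπ0)) |>.2
          (pow_le_one₀ zero_le (M.valuation_pi_lt_one L i).le)
      rw [← ValuationSubring.valuation_le_one_iff, map_div₀, hn, div_eq_mul_inv, ← zpow_neg_one,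
        ← zpow_add₀ hπ0]
      obtain ⟨k, hk⟩ := Int.eq_ofNat_of_zero_le (show 0 ≤ n + -1 by omega)
      rw [hk, zpow_natCast]
      exact pow_le_one₀ zero_le (M.valuation_pi_lt_one L i).le
    · rw [pow_one, mul_div_cancel₀ _ ((map_ne_zero _).2 L.ne_zero)]

/-- An automorphism with small break moves integral functions by at most `π ^ (b + 1)`. -/
theorem vcongr_act (L : Level p A) {τ : Γℚ} (hτ : τ ∈ A.inertiaSubgroupIn ℚ)
    (hnorm : ∀ σ ∈ L.H, τ⁻¹ * σ * τ ∈ L.H) {b : ℕ}
    (hmove : ∀ z : Qb, (∀ σ ∈ L.H, σ z = z) → z ∈ A →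
      A.valuation (τ z - z) ≤ A.valuation L.π ^ (b + 1))
    (i : Bool) {f : F} (hfix : M.Fixed L.H f) (hf : f ∈ M.V i) :
    M.VCongr L.π i (b + 1) (M.act τ • f) f := by
  have hπ0 : algebraMap Qb F L.π ≠ 0 := (map_ne_zero _).2 L.ne_zero
  suffices ∀ m ≤ b + 1, ∀ f, M.Fixed L.H f → f ∈ M.V i →
      M.VCongr L.π i m (M.act τ • f) f from this _ le_rfl f hfix hf
  intro m
  induction m with
  | zero =>
    intro _ f _ hf
    exact ⟨_, sub_mem ((M.act_mem_iff i τ hτ f).2 hf) hf, by rw [pow_zero, one_mul]⟩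
  | succ m ih =>
    intro hm f hfix hf
    obtain ⟨a, hafix, ha⟩ := M.exists_lift fun _ => M.red i ⟨f, hf⟩
    obtain ⟨haV, hares⟩ := ha i
    have haH : M.Fixed L.H a := fun σ hσ => hafix σ (L.le_inertia hσ)
    obtain ⟨f', hf', he⟩ := (M.vcongr_one_iff L i hfix haH hf haV).2 hares.symm
    rw [pow_one] at he
    have hf'fix : M.Fixed L.H f' := fun σ hσ => by
      have := congrArg (M.act σ • ·) he
      rw [smul_sub, hfix σ hσ, haH σ hσ, smul_mul', SemilinearAut.smul_algebraMap,
        M.baseAut_act, L.fixed σ hσ, he] at this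
      exact (mul_left_cancel₀ hπ0 this).symm
    obtain ⟨d, hd, hde⟩ := ih (by omega) f' hf'fix hf'
    set z := (τ L.π - L.π) / L.π ^ (m + 1) with hz
    have hzA : z ∈ A := by
      rw [← A.valuation_le_one_iff, hz, map_div₀, map_pow,
        div_le_one₀ (zero_lt_iff.2 (pow_ne_zero _ L.valuation_ne_zero))]
      exact (hmove L.π L.fixed L.π_mem).trans (L.valuation_lt_one_pow hm)
    refine ⟨algebraMap Qb F z * (M.act τ • f') + d,
      add_mem (mul_mem ((M.algebraMap_mem_iff i z).2 hzA) ((M.act_mem_iff i τ hτ f').2 hf')) hd,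
      ?_⟩
    have hf2 : f = a + algebraMap Qb F L.π * f' := by rw [← he]; ring
    have hz2 : algebraMap Qb F (τ L.π) - algebraMap Qb F L.π =
        algebraMap Qb F L.π ^ (m + 1) * algebraMap Qb F z := by
      rw [← map_sub, ← map_pow, ← map_mul, hz, mul_div_cancel₀ _ (pow_ne_zero _ L.ne_zero)]
    rw [hf2, smul_add, smul_mul', hafix τ hτ, SemilinearAut.smul_algebraMap, M.baseAut_act]
    linear_combination (M.act τ • f') * hz2 + algebraMap Qb F L.π * hde

/-- Functions over the tame field are congruent to any rational lift modulo `π ^ p`. -/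
theorem vcongr_tame (L₁ L : Level p A) (hle : L.H ≤ L₁.H) (he : L.e = p * L₁.e) (i : Bool)
    {g a : F} (hg : M.Fixed L₁.H g) (ha : ∀ σ ∈ A.inertiaSubgroupIn ℚ, M.act σ • a = a)
    (hgV : g ∈ M.V i) (haV : a ∈ M.V i) (h : M.red i ⟨g, hgV⟩ = M.red i ⟨a, haV⟩) :
    M.VCongr L.π i p g a := by
  obtain ⟨d, hd, hde⟩ :=
    (M.vcongr_one_iff L₁ i hg (fun σ hσ => ha σ (L₁.le_inertia hσ)) hgV haV).2 h
  have hv : A.valuation (L₁.π / L.π ^ p) ≤ 1 := by
    rw [map_div₀, map_pow, L₁.valuation_eq_pow L he,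
      div_self (pow_ne_zero _ L.valuation_ne_zero)]
  refine ⟨algebraMap Qb F (L₁.π / L.π ^ p) * d,
    mul_mem ((M.algebraMap_mem_iff i _).2 ((A.valuation_le_one_iff _).1 hv)) hd, ?_⟩
  rw [hde, pow_one, ← mul_assoc, ← map_pow, ← map_mul,
    mul_div_cancel₀ _ (pow_ne_zero _ L.ne_zero)]

end TwoCompData

end Fermat.Agent.LevelP
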