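import Fermat.Agent.LevelP.Model.Local
import Fermat.Agent.Curve.Duality

/-!
# Fixed functions with prescribed order at a place

A divisor fixed by a group of automorphisms of large degree has, at every place, a fixed section
of exact order.

Owner: helper28.
-/

set_option autoImplicit false

noncomputable section

namespace Fermat.Agent.LevelP

open AlgebraicCurve Fermat.Agent.Curve IsLocalRing
open Fermat.Agent.Reduction

local notation "Qb" => AlgebraicClosure ℚ
local notation "Γℚ" => (AlgebraicClosure ℚ ≃ₐ[ℚ] AlgebraicClosure ℚ)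

variable {p : ℕ} {A : ValuationSubring Qb} {F : Type*} [Field F] [Algebra Qb F]
  {Fb : Type*} [Field Fb] [Algebra (ResidueField A) Fb]
  [IsFunctionField1 (ResidueField A) Fb]
  (M : TwoCompData p A F Fb)

namespace TwoCompData

/-- The special fibre has two points. -/
theorem exists_pt_ne : ∃ y y' : M.Pt, y ≠ y' := by
  obtain ⟨Q⟩ := exists_place (K := ResidueField A) (F := Fb)
  obtain ⟨f, -, hf⟩ := exists_unique_pole Q
  have hQ : Q.ord f < 0 := (hf Q).2 rfl
  obtain ⟨Q', hQ'⟩ : ∃ Q' : Place (ResidueField A) Fb, 0 < Q'.ord f := by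
    by_contra hcon
    push Not at hcon
    have hne : f ≠ 0 := fun h => by simp [h] at hQ
    have h := degree_divisorOf (K := ResidueField A) f
    rw [degree_eq_sum, Finset.sum_eq_single Q] at h
    · have := deg_pos Q
      simp only [divisorOf_apply] at h
      rcases mul_eq_zero.1 h with h | h <;> omega
    · intro v _ hv
      have h1 : v.ord f = 0 :=
        le_antisymm (hcon v) (not_lt.1 fun h0 => hv ((hf v).1 h0))
      simp [h1]
    · intro hQs
      have : Q.ord f = 0 := by simpa using hQs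
      omega
  obtain ⟨y, ⟨hy, hQy⟩, -⟩ := M.existsUnique_pt false Q
  obtain ⟨y', ⟨hy', hQy'⟩, -⟩ := M.existsUnique_pt false Q'
  refine ⟨y, y', fun h => ?_⟩
  subst h
  have : Q = Q' := hQy.symm.trans hQy'
  subst this
  omega

variable [IsFunctionField1 Qb F]

/-- The coordinates are not constants. -/
theorem coord_transcendental (c : Bool) : Transcendental Qb (M.coord c) := by
  intro halg
  obtain ⟨a, ha⟩ := minpoly.mem_range_of_degree_eq_one Qb _
    (IsAlgClosed.degree_eq_one_of_irreducible _ (minpoly.irreducible halg.isIntegral))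
  have hall : ∀ (c' : Bool) (P : Place Qb F), M.coord c' ∈ P.toValuationSubring := by
    intro c' P
    cases c <;> cases c'
    all_goals simp only [coord, Bool.false_eq_true, if_false, if_true] at ha ⊢
    · rw [← ha]; exact P.algebraMap_mem' a
    · rw [← ha, ← map_inv₀]; exact P.algebraMap_mem' _
    · rw [← inv_inv M.t, ← ha, ← map_inv₀]; exact P.algebraMap_mem' _
    · rw [← ha]; exact P.algebraMap_mem' a
  obtain ⟨P⟩ := exists_place (K := Qb) (F := F)
  obtain ⟨y, hy⟩ : ∃ y, M.sp P ≠ y := by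
    obtain ⟨y, y', hyy'⟩ := M.exists_pt_ne
    rcases eq_or_ne (M.sp P) y with h | h
    · exact ⟨y', fun h' => hyy' (h ▸ h')⟩
    · exact ⟨y, h⟩
  obtain ⟨c', hc'⟩ := M.exists_chart y
  obtain ⟨s, -, hs1, hs2, hs3, hs4⟩ := M.exists_denom c' y hc' _ le_rfl 0
    (fun σ _ => smul_zero _) (fun i _ => zero_mem _) {P}
    (fun Q hQ => by rwa [Finset.mem_singleton.1 hQ]) 1
  have hP := hs2 P (Finset.mem_singleton_self P) (hall c' P)
  have halg' : IsAlgebraic Qb s :=
    isAlgebraic_of_forall_ord_nonneg fun Q => ord_nonneg_of_mem Q (hs1 Q (hall c' Q))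
  rw [ord_eq_zero_of_isAlgebraic P halg'] at hP
  exact absurd hP (by norm_num)

/-- A divisor of large degree fixed by `H` has at each place a fixed section of exact order. -/
theorem exists_fixed_exact {H : Subgroup Γℚ} {D : Divisor Qb F} (hD : M.DivFixed H D)
    (hdeg : 2 * (genusFF Qb F : ℤ) ≤ Divisor.degree D) (P₀ : Place Qb F) :
    ∃ f : F, f ≠ 0 ∧ M.Fixed H f ∧ f ∈ riemannRochSpace D ∧ P₀.ord f = -D P₀ := by
  classical
  obtain ⟨g, hgD, hg0, hgord⟩ :
      ∃ g ∈ riemannRochSpace D, g ≠ 0 ∧ P₀.ord g = -D P₀ := by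
    set D' := D - Finsupp.single P₀ 1 with hD'
    have hd' : Divisor.degree D' = Divisor.degree D - 1 := by
      rw [hD', map_sub, Divisor.degree_single, deg_eq_one]
      norm_num
    have h1 := riemann_roch D
    have h2 := riemann_roch D'
    rw [specialIndex_eq_zero_of_lt_degree (by omega)] at h1
    rw [specialIndex_eq_zero_of_lt_degree (by omega), hd'] at h2
    obtain ⟨g, hg, hg'⟩ : ∃ g ∈ riemannRochSpace D, g ∉ riemannRochSpace D' := by
      by_contra hcon
      push Not at hcon
      have := Submodule.finrank_mono (fun f hf => hcon f hf)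
      unfold ell at h1 h2
      omega
    have hg0 : g ≠ 0 := fun h => hg' (h ▸ Submodule.zero_mem _)
    refine ⟨g, hg, hg0, le_antisymm ?_ ((mem_riemannRochSpace_iff.1 hg P₀).resolve_left hg0)⟩
    by_contra hcon
    refine hg' (mem_riemannRochSpace_iff.2 fun v => Or.inr ?_)
    have hv := (mem_riemannRochSpace_iff.1 hg v).resolve_left hg0
    rcases eq_or_ne v P₀ with rfl | hne
    · simp [hD']; omega
    · simp [hD', Finsupp.single_eq_of_ne hne]; omega
  obtain ⟨K₀, hK₀, hgfix⟩ := M.exists_fixing g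
  -- the images of `H` among the embeddings of `K₀`
  let res : H → (K₀ →ₐ[ℚ] Qb) := fun σ => (σ : Γℚ).toAlgHom.comp K₀.val
  let T : Finset (K₀ →ₐ[ℚ] Qb) := Finset.univ.filter (fun e => ∃ σ : H, res σ = e)
  have hT : ∀ e : T, ∃ σ : H, res σ = e := fun e => (Finset.mem_filter.1 e.2).2
  choose rep hrep using hT
  have hact : ∀ σ σ' : H, res σ = res σ' → M.act σ • g = M.act σ' • g := by
    intro σ σ' h
    have hmem : (σ' : Γℚ)⁻¹ * σ ∈ K₀.fixingSubgroup := by
      rw [IntermediateField.mem_fixingSubgroup_iff]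
      intro x hx
      have := DFunLike.congr_fun h ⟨x, hx⟩
      rw [AlgEquiv.mul_apply, show (σ : Γℚ) x = (σ' : Γℚ) x from this]
      exact (σ' : Γℚ).symm_apply_apply x
    have := hgfix _ hmem
    rwa [map_mul, map_inv, mul_smul, inv_smul_eq_iff] at this
  let term : K₀ → T → F := fun c e => algebraMap Qb F ((e : K₀ →ₐ[ℚ] Qb) c) * M.act (rep e) • g
  have hord_term : ∀ (e : T) (P : Place Qb F), -D P ≤ P.ord (M.act (rep e) • g) := by
    intro e P
    have h := SemilinearAut.ord_smul (M.act (rep e)) ((M.act (rep e))⁻¹ • P) g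
    rw [smul_inv_smul] at h
    rw [h]
    have hinv : (M.act (rep e))⁻¹ • D = D := by
      rw [← map_inv]; exact hD _ (inv_mem (rep e).2)
    have h2 : D P = D ((M.act (rep e))⁻¹ • P) := by
      conv_lhs => rw [← hD _ (rep e).2]
      rw [SemilinearAut.divisor_smul_apply]
    rw [h2]
    exact (mem_riemannRochSpace_iff.1 hgD _).resolve_left hg0
  have hsum_mem : ∀ c, (∑ e : T, term c e) ∈ riemannRochSpace D := fun c => by
    refine Submodule.sum_mem _ fun e _ => ?_
    show algebraMap Qb F _ * _ ∈ _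
    rw [← Algebra.smul_def]
    exact Submodule.smul_mem _ _ (mem_riemannRochSpace_iff.2 fun P => Or.inr (hord_term e P))
  have hfix : ∀ c, M.Fixed H (∑ e : T, term c e) := by
    intro c τ hτ
    rw [Finset.smul_sum]
    have hmem : ∀ e : T, res (⟨τ, hτ⟩ * rep e) ∈ T :=
      fun e => Finset.mem_filter.2 ⟨Finset.mem_univ _, ⟨_, rfl⟩⟩
    let shift : T → T := fun e => ⟨_, hmem e⟩
    have hinj : Function.Injective shift := by
      intro e e' h
      have h' := congrArg Subtype.val h
      refine Subtype.ext ?_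
      rw [← hrep e, ← hrep e']
      ext x
      exact τ.injective (DFunLike.congr_fun h' x)
    refine Fintype.sum_bijective shift (Finite.injective_iff_bijective.1 hinj) _ _ fun e => ?_
    show M.act τ • (algebraMap Qb F _ * _) = algebraMap Qb F _ * _
    rw [smul_mul', SemilinearAut.smul_algebraMap, M.baseAut_act, ← mul_smul, ← map_mul]
    congr 1
    · congr 1
      show τ ((e : K₀ →ₐ[ℚ] Qb) c) = τ ((rep e : Γℚ) c)
      rw [← hrep e]
      rfl
    · exact hact (⟨τ, hτ⟩ * rep e) (rep (shift e)) (hrep (shift e)).symm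
  -- some constant keeps the leading term
  obtain ⟨u, hu0, hu⟩ := exists_ord_eq P₀ (D P₀)
  have hmem : ∀ e : T, M.act (rep e) • g * u ∈ P₀.toValuationSubring := by
    intro e
    refine mem_of_ord_nonneg P₀ ?_
    rw [P₀.ord_mul ((smul_ne_zero_iff_ne _).2 hg0) hu0, hu]
    have := hord_term e P₀
    omega
  let lam : T → Qb := fun e => evalAt P₀ (M.act (rep e) • g * u)
  obtain ⟨e₁, he₁⟩ : ∃ e : T, lam e ≠ 0 := by
    refine ⟨⟨res 1, Finset.mem_filter.2 ⟨Finset.mem_univ _, ⟨1, rfl⟩⟩⟩, ?_⟩
    rw [ConstRed.evalAt_ne_zero_iff P₀ (hmem _)]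
    rw [hact (rep _) 1 (hrep _), OneMemClass.coe_one, map_one, one_smul, P₀.ord_mul hg0 hu0, hu,
      hgord]
    exact ⟨mul_ne_zero hg0 hu0, neg_add_cancel _⟩
  obtain ⟨c, hc⟩ : ∃ c : K₀, ∑ e : T, lam e * (e : K₀ →ₐ[ℚ] Qb) c ≠ 0 := by
    by_contra hcon
    push Not at hcon
    refine he₁ ?_
    have hli := (linearIndependent_monoidHom K₀ Qb).comp
      (fun e : T => ((e : K₀ →ₐ[ℚ] Qb) : K₀ →* Qb)) fun e e' h => by
        refine Subtype.ext (AlgHom.ext fun x => ?_)
        exact DFunLike.congr_fun h x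
    refine Fintype.linearIndependent_iff.1 hli lam (funext fun x => ?_) e₁
    simpa using hcon x
  set f := ∑ e : T, term c e with hfdef
  have hterm : ∀ e : T, term c e * u ∈ P₀.toValuationSubring := fun e => by
    rw [mul_assoc]
    exact mul_mem (P₀.algebraMap_mem' _) (hmem e)
  have hval : evalAt P₀ (f * u) = ∑ e : T, lam e * (e : K₀ →ₐ[ℚ] Qb) c := by
    have h := map_sum (ConstRed.evalHom P₀)
      (fun e : T => (⟨term c e * u, hterm e⟩ : P₀.toValuationSubring)) Finset.univ
    have hcoe : ((∑ e : T, (⟨term c e * u, hterm e⟩ : P₀.toValuationSubring) :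
        P₀.toValuationSubring) : F) = f * u := by
      rw [hfdef, Finset.sum_mul, AddSubmonoidClass.coe_finsetSum]
    rw [← hcoe]
    refine h.trans (Finset.sum_congr rfl fun e _ => ?_)
    show evalAt P₀ (term c e * u) = _
    rw [mul_assoc, ConstRed.evalAt_mul P₀ (P₀.algebraMap_mem' _) (hmem e),
      ConstRed.evalAt_algebraMap, mul_comm]
  have hfu : f * u ∈ P₀.toValuationSubring := by
    rw [hfdef, Finset.sum_mul]; exact sum_mem fun e _ => hterm e
  rw [← hval, ConstRed.evalAt_ne_zero_iff P₀ hfu] at hc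
  have hf0 : f ≠ 0 := left_ne_zero_of_mul hc.1
  refine ⟨f, hf0, hfix c, hsum_mem c, ?_⟩
  have := hc.2
  rw [P₀.ord_mul hf0 hu0, hu] at this
  omega

/-- A fixed function bounded by a fixed divisor in a tube, of exact order at a given place. -/
theorem exists_fixed_local {H : Subgroup Γℚ} {D : Divisor Qb F} (hD : M.DivFixed H D) {y : M.Pt}
    {P₀ : Place Qb F} (hP₀ : M.sp P₀ = y) :
    ∃ f : F, f ≠ 0 ∧ M.Fixed H f ∧ (∀ P, M.sp P = y → D P ≤ P.ord f) ∧ P₀.ord f = D P₀ := by
  obtain ⟨c, hc⟩ := M.exists_chart y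
  set Z := poleDivisor (K := Qb) (M.coord c) with hZ
  have hZfix : M.DivFixed H Z := by
    intro σ hσ
    ext P
    rw [SemilinearAut.divisor_smul_apply, hZ, poleDivisor_apply, poleDivisor_apply]
    have h := SemilinearAut.ord_smul (M.act σ) ((M.act σ)⁻¹ • P) (M.coord c)
    rw [smul_inv_smul, M.fixed_t H c σ hσ] at h
    rw [h]
  have hZdeg : 1 ≤ Divisor.degree Z := by
    rw [hZ, degree_poleDivisor (M.coord_transcendental c)]
    have := finiteDimensional_adjoin (M.coord_transcendental c)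
    exact_mod_cast Module.finrank_pos
  obtain ⟨n, hn⟩ : ∃ n : ℕ, 2 * (genusFF Qb F : ℤ) ≤ Divisor.degree (-D + n • Z) := by
    refine ⟨(2 * (genusFF Qb F : ℤ) + Divisor.degree D).toNat, ?_⟩
    rw [map_add, map_neg, map_nsmul, nsmul_eq_mul]
    have h1 := le_mul_of_one_le_right (Int.natCast_nonneg
      (2 * (genusFF Qb F : ℤ) + Divisor.degree D).toNat) hZdeg
    have h2 := Int.self_le_toNat (2 * (genusFF Qb F : ℤ) + Divisor.degree D)
    omega
  have hfix : M.DivFixed H (-D + n • Z) := fun σ hσ => by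
    rw [smul_add, smul_neg, hD σ hσ, ← DistribSMul.toAddMonoidHom_apply _ (M.act σ), map_nsmul,
      DistribSMul.toAddMonoidHom_apply, hZfix σ hσ]
  obtain ⟨f, hf0, hffix, hfmem, hford⟩ := M.exists_fixed_exact hfix hn P₀
  have hZ0 : ∀ P, M.sp P = y → Z P = 0 := fun P hP => by
    have := ord_nonneg_of_mem P ((M.reg_coord hc).1 P hP)
    rw [hZ, poleDivisor_apply]
    omega
  refine ⟨f, hf0, hffix, fun P hP => ?_, ?_⟩
  · have := (mem_riemannRochSpace_iff.1 hfmem P).resolve_left hf0
    simpa [hZ0 P hP] using this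
  · simpa [hZ0 P₀ hP₀] using hford

end TwoCompData

end Fermat.Agent.LevelP
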