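import Fermat.Agent.LevelP.Model.Nodal
import Fermat.Agent.Reduction.ConstReduction.Eval
import Fermat.Agent.EC.Red.ResidueQbar

/-!
# Residues and units of the local rings of two-component data

Owner: helper28.
-/

set_option autoImplicit false

noncomputable section

namespace Fermat.Agent.LevelP

open AlgebraicCurve Fermat.Agent.Curve IsLocalRing
open Fermat.Agent.Reduction

local notation "Qb" => AlgebraicClosure ℚ
local notation "Γℚ" => (AlgebraicClosure ℚ ≃ₐ[ℚ] AlgebraicClosure ℚ)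

variable {p : ℕ} {A : ValuationSubring Qb} {F : Type*} [Field F] [Algebra Qb F]
  {Fb : Type*} [Field Fb] [Algebra (ResidueField A) Fb] (M : TwoCompData p A F Fb)

/-- A level determines the residue characteristic. -/
theorem Level.liesOverPrime (L : Level p A) : A.LiesOverPrime p := by
  refine A.mem_nonunits_iff.2 ?_
  rw [← L.pow_e]
  exact pow_lt_one₀ zero_le L.lt_one L.e_pos.ne'

namespace TwoCompData

section Fixed

variable {M} {H : Subgroup Γℚ} {f g : F}

theorem fixed_one : M.Fixed H (1 : F) := (M.fixedFns H).one_mem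

theorem fixed_zero : M.Fixed H (0 : F) := (M.fixedFns H).zero_mem

theorem fixed_add (hf : M.Fixed H f) (hg : M.Fixed H g) : M.Fixed H (f + g) :=
  (M.fixedFns H).add_mem hf hg

theorem fixed_sub (hf : M.Fixed H f) (hg : M.Fixed H g) : M.Fixed H (f - g) :=
  (M.fixedFns H).sub_mem hf hg

theorem fixed_prod {ι : Type*} (s : Finset ι) {g : ι → F} (h : ∀ i ∈ s, M.Fixed H (g i)) :
    M.Fixed H (∏ i ∈ s, g i) :=
  (M.fixedFns H).prod_mem h

theorem fixed_pi (L : Level p A) : M.Fixed L.H (algebraMap Qb F L.π) :=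
  M.fixed_algebraMap L.fixed

theorem fixed_pi_zpow (L : Level p A) (n : ℤ) : M.Fixed L.H (algebraMap Qb F L.π ^ n) :=
  fixed_zpow (fixed_pi L) n

theorem fixed_of_inertia (L : Level p A) (h : ∀ σ ∈ A.inertiaSubgroupIn ℚ, M.act σ • f = f) :
    M.Fixed L.H f :=
  fun σ hσ => h σ (L.le_inertia hσ)

theorem fixed_w (L : Level p A) : M.Fixed L.H M.w := fixed_of_inertia L M.w_fixed

theorem fixed_t (H : Subgroup Γℚ) (c : Bool) : M.Fixed H (M.coord c) := by
  intro σ _
  cases c
  · exact M.t_fixed σ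
  · show M.act σ • M.t⁻¹ = M.t⁻¹
    rw [smul_inv'', M.t_fixed]

end Fixed

section Residue

variable {M} {i : Bool} {f g : F}

theorem residueAt_mul (hf : f ∈ M.V i) (hg : g ∈ M.V i) :
    M.residueAt i (f * g) = M.residueAt i f * M.residueAt i g := by
  rw [residueAt_of_mem M hf, residueAt_of_mem M hg, residueAt_of_mem M (mul_mem hf hg)]
  exact map_mul (M.red i) ⟨f, hf⟩ ⟨g, hg⟩

theorem residueAt_add (hf : f ∈ M.V i) (hg : g ∈ M.V i) :
    M.residueAt i (f + g) = M.residueAt i f + M.residueAt i g := by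
  rw [residueAt_of_mem M hf, residueAt_of_mem M hg, residueAt_of_mem M (add_mem hf hg)]
  exact map_add (M.red i) ⟨f, hf⟩ ⟨g, hg⟩

theorem residueAt_sub (hf : f ∈ M.V i) (hg : g ∈ M.V i) :
    M.residueAt i (f - g) = M.residueAt i f - M.residueAt i g := by
  rw [residueAt_of_mem M hf, residueAt_of_mem M hg, residueAt_of_mem M (sub_mem hf hg)]
  exact map_sub (M.red i) ⟨f, hf⟩ ⟨g, hg⟩

theorem residueAt_pow (hf : f ∈ M.V i) (n : ℕ) :
    M.residueAt i (f ^ n) = M.residueAt i f ^ n := by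
  rw [residueAt_of_mem M hf, residueAt_of_mem M (pow_mem hf n)]
  exact map_pow (M.red i) ⟨f, hf⟩ n

variable (M) in
theorem residueAt_algebraMap (i : Bool) {a : Qb} (ha : a ∈ A) :
    M.residueAt i (algebraMap Qb F a) =
      algebraMap (ResidueField A) Fb (residue A ⟨a, ha⟩) := by
  rw [residueAt_of_mem M ((M.algebraMap_mem_iff i a).2 ha)]
  exact M.red_algebraMap i ⟨a, ha⟩ _

variable (M) in
theorem residueAt_one (i : Bool) : M.residueAt i (1 : F) = 1 := by
  rw [residueAt_of_mem M (one_mem _)]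
  exact map_one (M.red i)

variable (M) in
theorem residueAt_zero (i : Bool) : M.residueAt i (0 : F) = 0 := by
  rw [residueAt_of_mem M (zero_mem _)]
  exact map_zero (M.red i)

theorem residueAt_ne_zero (h : (M.V i).valuation f = 1) : M.residueAt i f ≠ 0 := by
  rw [residueAt_of_mem M (M.mem_of_valuation_eq_one h)]
  exact M.red_ne_zero h _

theorem valuation_eq_one_of_residueAt (hf : f ∈ M.V i) (h : M.residueAt i f ≠ 0) :
    (M.V i).valuation f = 1 :=
  M.valuation_eq_one_of_red hf (by rwa [residueAt_of_mem M hf] at h)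

theorem residueAt_eq_zero_iff (hf : f ∈ M.V i) :
    M.residueAt i f = 0 ↔ (M.V i).valuation f < 1 := by
  rw [residueAt_of_mem M hf, M.red_eq_zero_iff, ValuationSubring.mem_nonunits_iff]

theorem residueAt_inv (h : (M.V i).valuation f = 1) :
    M.residueAt i f⁻¹ = (M.residueAt i f)⁻¹ := by
  have h' : (M.V i).valuation f⁻¹ = 1 := by rw [map_inv₀, h, inv_one]
  have hf : f ≠ 0 := fun h0 => by simp [h0] at h
  refine eq_inv_of_mul_eq_one_left ?_
  rw [← residueAt_mul (M.mem_of_valuation_eq_one h') (M.mem_of_valuation_eq_one h),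
    inv_mul_cancel₀ hf, residueAt_one]

theorem residueAt_div (hf : f ∈ M.V i) (h : (M.V i).valuation g = 1) :
    M.residueAt i (f / g) = M.residueAt i f / M.residueAt i g := by
  rw [div_eq_mul_inv, residueAt_mul hf (M.mem_of_valuation_eq_one (by rw [map_inv₀, h, inv_one])),
    residueAt_inv h, div_eq_mul_inv]

theorem residueAt_zpow (h : (M.V i).valuation f = 1) (n : ℤ) :
    M.residueAt i (f ^ n) = M.residueAt i f ^ n := by
  obtain ⟨k, rfl | rfl⟩ := Int.eq_nat_or_neg n
  · rw [zpow_natCast, zpow_natCast, residueAt_pow (M.mem_of_valuation_eq_one h)]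
  · rw [zpow_neg, zpow_neg, zpow_natCast, zpow_natCast,
      residueAt_inv (by rw [map_pow, h, one_pow]), residueAt_pow (M.mem_of_valuation_eq_one h)]

theorem residueAt_act {σ : Γℚ} (hσ : σ ∈ A.inertiaSubgroupIn ℚ) (hf : f ∈ M.V i) :
    M.residueAt i (M.act σ • f) = M.residueAt i f := by
  rw [residueAt_of_mem M hf, residueAt_of_mem M ((M.act_mem_iff i σ hσ f).2 hf)]
  exact M.red_act i σ hσ ⟨f, hf⟩ _

end Residue

/-- Fixed integral functions with zero residue are divisible by the uniformiser. -/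
theorem exists_eq_pi_mul (L : Level p A) {i : Bool} {f : F} (hfix : M.Fixed L.H f)
    (hf : f ∈ M.V i) (h : M.residueAt i f = 0) :
    ∃ g ∈ M.V i, f = algebraMap Qb F L.π * g := by
  rw [residueAt_of_mem M hf, ← map_zero (M.red i)] at h
  obtain ⟨d, hd, he⟩ := (M.vcongr_one_iff L i hfix fixed_zero hf (zero_mem _)).2 h
  exact ⟨d, hd, by simpa using he⟩

theorem vord_div_pi_zpow (L : Level p A) {i : Bool} {f : F} {n : ℤ} (h : M.VOrd L.π i f n)
    (m : ℤ) : M.VOrd L.π i (f / algebraMap Qb F L.π ^ m) (n - m) := by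
  refine h.div ?_ L.ne_zero
  rw [← map_zpow₀]
  exact M.vord_algebraMap (map_zpow₀ _ _ _)

theorem vord_pi_zpow (L : Level p A) (i : Bool) (m : ℤ) :
    M.VOrd L.π i (algebraMap Qb F L.π ^ m) m := by
  rw [← map_zpow₀]
  exact M.vord_algebraMap (map_zpow₀ _ _ _)

theorem vord_one (L : Level p A) (i : Bool) : M.VOrd L.π i (1 : F) 0 :=
  vord_zero_iff.2 (map_one _)

theorem vord_w (L : Level p A) : M.VOrd L.π false M.w 0 ∧ M.VOrd L.π true M.w (12 * L.e) := by
  refine ⟨vord_zero_iff.2 M.w_false, ?_⟩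
  have hp : (p : Qb) ^ 12 ≠ 0 := pow_ne_zero _ fun h0 => by
    have := L.pow_e
    rw [h0, map_zero] at this
    exact pow_ne_zero _ L.valuation_ne_zero this
  have h : M.VOrd L.π true (algebraMap Qb F ((p : Qb) ^ 12)) (12 * L.e) := by
    refine M.vord_algebraMap ?_
    rw [map_pow, ← L.pow_e, ← pow_mul, ← zpow_natCast]
    push_cast
    rw [mul_comm]
  have := (vord_zero_iff.2 M.w_true : M.VOrd L.π true _ 0).mul h L.ne_zero
  rwa [div_mul_cancel₀ _ ((map_ne_zero _).2 hp), zero_add] at this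

theorem w_ne_zero : M.w ≠ 0 := fun h => by
  have := M.w_false
  simp [h] at this

theorem mem_of_vord (L : Level p A) {i : Bool} {f : F} {n : ℤ} (h : M.VOrd L.π i f n)
    (hn : 0 ≤ n) : f ∈ M.V i := by
  obtain ⟨k, rfl⟩ := Int.eq_ofNat_of_zero_le hn
  rw [← ValuationSubring.valuation_le_one_iff, h, zpow_natCast]
  exact pow_le_one₀ zero_le (M.valuation_pi_lt_one L i).le

theorem residueAt_of_vord_pos (L : Level p A) {i : Bool} {f : F} {n : ℤ} (h : M.VOrd L.π i f n)
    (hn : 0 < n) : M.residueAt i f = 0 := by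
  rw [residueAt_eq_zero_iff (M.mem_of_vord L h hn.le), h]
  obtain ⟨k, rfl⟩ := Int.eq_ofNat_of_zero_le hn.le
  rw [zpow_natCast]
  exact pow_lt_one₀ zero_le (M.valuation_pi_lt_one L i) (by omega)

theorem nonneg_of_vord (L : Level p A) {i : Bool} {f : F} {n : ℤ} (h : M.VOrd L.π i f n)
    (hf : f ∈ M.V i) : 0 ≤ n := by
  by_contra hn
  have hg := M.mem_of_vord L h.inv (by omega)
  have h0 := M.residueAt_of_vord_pos L h.inv (by omega)
  have hne : f ≠ 0 := h.ne_zero L.ne_zero
  have := residueAt_mul hf hg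
  rw [mul_inv_cancel₀ hne, residueAt_one, h0, mul_zero] at this
  exact one_ne_zero this

theorem reg_pow {y : M.Pt} {f : F} (h : M.Reg y f) (n : ℕ) : M.Reg y (f ^ n) :=
  (M.regSubring y).pow_mem h n

theorem reg_mul {y : M.Pt} {f g : F} (hf : M.Reg y f) (hg : M.Reg y g) : M.Reg y (f * g) :=
  (M.regSubring y).mul_mem hf hg

theorem reg_coord {y : M.Pt} {c : Bool} (hc : M.InChart c y) : M.Reg y (M.coord c) := by
  refine ⟨fun P hP => M.chart_mem c P (hP ▸ hc), fun i _ => M.mem_of_valuation_eq_one ?_⟩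
  cases c
  · exact M.t_unit i
  · show (M.V i).valuation M.t⁻¹ = 1
    rw [map_inv₀, M.t_unit i, inv_one]

theorem residueAt_regular {y : M.Pt} {i : Bool} {f : F} (hf : M.Reg y f) (hi : M.On y i) :
    M.residueAt i f ∈ (M.loc y i).toValuationSubring := by
  rw [residueAt_of_mem M (hf.2 i hi)]
  exact M.red_regular y f hf.1 hf.2 i hi _

variable [IsFunctionField1 (ResidueField A) Fb] [IsAlgClosed (ResidueField A)]

/-- The residue of a regular function at `y` along `i`. -/
def valueAt (y : M.Pt) (i : Bool) (f : F) : ResidueField A :=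
  evalAt (M.loc y i) (M.residueAt i f)

theorem valueAt_node {y : M.Pt} {f : F} (hf : M.Reg y f) (hy : M.IsNode y) :
    M.valueAt y false f = M.valueAt y true f := by
  rw [valueAt, valueAt, residueAt_of_mem M (hf.2 _ hy.1), residueAt_of_mem M (hf.2 _ hy.2)]
  exact M.red_node y f hf.1 hf.2 hy.1 hy.2 _ _

theorem valueAt_eq {y : M.Pt} {f : F} (hf : M.Reg y f) {i j : Bool} (hi : M.On y i)
    (hj : M.On y j) : M.valueAt y i f = M.valueAt y j f := by
  cases i <;> cases j
  · rfl
  · exact M.valueAt_node hf ⟨hi, hj⟩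
  · exact (M.valueAt_node hf ⟨hj, hi⟩).symm
  · rfl

theorem valueAt_ne_zero_iff {y : M.Pt} {i : Bool} {f : F} (hf : M.Reg y f) (hi : M.On y i) :
    M.valueAt y i f ≠ 0 ↔
      M.residueAt i f ≠ 0 ∧ (M.loc y i).ord (M.residueAt i f) = 0 :=
  ConstRed.evalAt_ne_zero_iff _ (M.residueAt_regular hf hi)

variable [IsFunctionField1 Qb F]

/-- A regular function with nonzero value is a unit. -/
theorem regUnit_of_valueAt {y : M.Pt} {i : Bool} {f : F} (hf : M.Reg y f) (hi : M.On y i)
    (h : M.valueAt y i f ≠ 0) : M.RegUnit y f := by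
  have hres : ∀ j, M.On y j → M.residueAt j f ≠ 0 := fun j hj =>
    ((M.valueAt_ne_zero_iff hf hj).1 (M.valueAt_eq hf hi hj ▸ h)).1
  have hv : ∀ j, M.On y j → (M.V j).valuation f = 1 := fun j hj =>
    valuation_eq_one_of_residueAt (hf.2 j hj) (hres j hj)
  have hf0 : f ≠ 0 := fun h0 => hres i hi (by rw [h0, residueAt_zero])
  refine ⟨hf0, hf, fun P hP => ?_, fun j hj => M.mem_of_valuation_eq_one
    (by rw [map_inv₀, hv j hj, inv_one])⟩
  obtain ⟨ha, he⟩ := M.red_eval y f hf.1 hf.2 P hP i hi (hf.2 i hi)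
  have hne : evalAt P f ≠ 0 := fun h0 => h <| by
    rw [valueAt, residueAt_of_mem M (hf.2 i hi), ← he]
    have : (⟨evalAt P f, ha⟩ : A) = 0 := Subtype.ext h0
    rw [this, map_zero]
  refine mem_of_ord_nonneg P ?_
  rw [P.ord_inv, ((ConstRed.evalAt_ne_zero_iff P (hf.1 P hP)).1 hne).2, neg_zero]

omit [IsFunctionField1 Qb F] [IsAlgClosed (ResidueField A)] in
theorem RegUnit.ord_residueAt {M : TwoCompData p A F Fb} {y : M.Pt} {i : Bool} {f : F}
    (hf : M.RegUnit y f) (hi : M.On y i) :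
    M.residueAt i f ≠ 0 ∧ (M.loc y i).ord (M.residueAt i f) = 0 := by
  have h1 := residueAt_mul (hf.2.1.2 i hi) (hf.2.2.2 i hi)
  rw [mul_inv_cancel₀ hf.1, residueAt_one] at h1
  have hne : M.residueAt i f ≠ 0 := left_ne_zero_of_mul (h1 ▸ one_ne_zero)
  have hne' : M.residueAt i f⁻¹ ≠ 0 := right_ne_zero_of_mul (h1 ▸ one_ne_zero)
  refine ⟨hne, ?_⟩
  have h2 := congrArg (M.loc y i).ord h1
  rw [(M.loc y i).ord_mul hne hne', Place.ord_one] at h2
  have h3 := ord_nonneg_of_mem (M.loc y i) (M.residueAt_regular hf.2.1 hi)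
  have h4 := ord_nonneg_of_mem (M.loc y i) (M.residueAt_regular hf.2.2 hi)
  omega

omit [IsFunctionField1 Qb F] [IsFunctionField1 (ResidueField A) Fb]
  [IsAlgClosed (ResidueField A)] in
/-- A function without zero or pole in the tube and a unit along the components is a unit. -/
theorem regUnit_of_vord {π : Qb} {y : M.Pt} {f : F} (hf : f ≠ 0)
    (hord : ∀ P, M.sp P = y → P.ord f = 0) (hv : ∀ i, M.On y i → M.VOrd π i f 0) :
    M.RegUnit y f :=
  ⟨hf, ⟨fun P hP => mem_of_ord_nonneg P (hord P hP).ge,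
      fun i hi => M.mem_of_valuation_eq_one (hv i hi).valuation_eq_one⟩,
    fun P hP => mem_of_ord_nonneg P (by rw [P.ord_inv, hord P hP, neg_zero]),
    fun i hi => M.mem_of_valuation_eq_one
      (by rw [map_inv₀, (hv i hi).valuation_eq_one, inv_one])⟩

end TwoCompData

end Fermat.Agent.LevelP
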