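import Fermat.Agent.LevelP.Model.FixedFns
import Fermat.Agent.LevelP.LocalPrincipal

/-!
# Fixed divisors are locally principal on the two-component model

Owner: helper28.
-/

set_option autoImplicit false

noncomputable section

namespace Fermat.Agent.LevelP

open AlgebraicCurve Fermat.Agent.Curve IsLocalRing
open Fermat.Agent.Reduction

local notation "Qb" => AlgebraicClosure ℚ
local notation "Γℚ" => (AlgebraicClosure ℚ ≃ₐ[ℚ] AlgebraicClosure ℚ)

variable {p : ℕ} {A : ValuationSubring Qb} {F : Type*} [Field F] [Algebra Qb F]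
  {Fb : Type*} [Field Fb] [Algebra (ResidueField A) Fb]
  (M : TwoCompData p A F Fb)

/-- An element divisible by every power of the uniformiser vanishes. -/
theorem Level.eq_zero_of_forall_le (hp : p.Prime) (L : Level p A) {x : Qb}
    (h : ∀ m : ℕ, A.valuation x ≤ A.valuation L.π ^ m) : x = 0 := by
  by_contra hx
  have hxA : x ∈ A := (A.valuation_le_one_iff _).1 (by simpa using h 0)
  have halg : IsAlgebraic ℤ (⟨x, hxA⟩ : A) :=
    (isAlgebraic_algebraMap_iff (R := ℤ) (A := Qb) (S := A) Subtype.val_injective).1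
      ((IsFractionRing.isAlgebraic_iff ℤ ℚ Qb).2 ((AlgebraicClosure.isAlgebraic ℚ).isAlgebraic x))
  obtain ⟨r, hr, c, hc⟩ := halg.exists_nonzero_dvd
    (mem_nonZeroDivisors_iff_ne_zero.2 fun h0 => hx (congrArg Subtype.val h0))
  have hc' : (r : Qb) = x * (c : Qb) := by
    have := congrArg (Subtype.val : A → Qb) hc
    simpa using this
  have hle : A.valuation (r : Qb) ≤ A.valuation x := by
    rw [hc', map_mul]
    exact mul_le_of_le_one_right zero_le ((A.valuation_le_one_iff _).2 c.2)
  rw [EC.Mult.valuation_intCast hp L.liesOverPrime hr, ← L.pow_e, ← pow_mul] at hle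
  refine (hle.trans (h (L.e * padicValInt p r + 1))).not_gt ?_
  exact pow_lt_pow_right_of_lt_one₀ (zero_lt_iff.2 L.valuation_ne_zero) L.lt_one (Nat.lt_succ_self _)

namespace TwoCompData

/-- The twist along the second component. -/
def twist (n : ℕ) (i : Bool) : ℕ := if i then n else 0

/-- Fixed functions bounded by `D` in the tube of `y`, integral along the components after the
twist. -/
def Sect (L : Level p A) (D : Divisor Qb F) (y : M.Pt) (n : ℕ) (f : F) : Prop :=
  M.Fixed L.H f ∧ (∀ P, M.sp P = y → OrdGE P (D P) f) ∧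
    ∀ i, M.On y i → f / algebraMap Qb F L.π ^ twist n i ∈ M.V i

/-- The local ring at `y` over the constants of `L`. -/
abbrev localRing (L : Level p A) (y : M.Pt) : Subring F := M.regSubring y ⊓ M.fixedFns L.H

variable {M} {L : Level p A} {D : Divisor Qb F} {y : M.Pt} {n : ℕ} {f g c : F}

theorem Sect.add (hf : M.Sect L D y n f) (hg : M.Sect L D y n g) : M.Sect L D y n (f + g) :=
  ⟨fixed_add hf.1 hg.1, fun P hP => (hf.2.1 P hP).add (hg.2.1 P hP),
    fun i hi => by rw [add_div]; exact add_mem (hf.2.2 i hi) (hg.2.2 i hi)⟩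

theorem Sect.mul_left (hc : c ∈ M.localRing L y) (hg : M.Sect L D y n g) :
    M.Sect L D y n (c * g) :=
  ⟨fixed_mul hc.2 hg.1, fun P hP => by
      simpa using ((ordGE_zero_iff_mem P).2 (hc.1.1 P hP)).mul (hg.2.1 P hP),
    fun i hi => by rw [mul_div_assoc]; exact mul_mem (hc.1.2 i hi) (hg.2.2 i hi)⟩

theorem Sect.neg (hg : M.Sect L D y n g) : M.Sect L D y n (-g) := by
  simpa using hg.mul_left (c := -1) (neg_mem (one_mem _))

theorem Sect.sub (hf : M.Sect L D y n f) (hg : M.Sect L D y n g) : M.Sect L D y n (f - g) := by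
  simpa [sub_eq_add_neg] using hf.add hg.neg

variable (M L D y n) in
theorem sect_zero : M.Sect L D y n 0 :=
  ⟨fixed_zero, fun _ _ => ordGE_zero _, fun i _ => by rw [zero_div]; exact zero_mem _⟩

theorem Sect.exists_pi_mul (hf : M.Sect L D y n f)
    (h : ∀ i, M.On y i → M.residueAt i (f / algebraMap Qb F L.π ^ twist n i) = 0) :
    ∃ f', M.Sect L D y n f' ∧ f = algebraMap Qb F L.π * f' := by
  have hπ : algebraMap Qb F L.π ≠ 0 := (map_ne_zero _).2 L.ne_zero
  refine ⟨f / algebraMap Qb F L.π, ⟨fixed_div hf.1 (fixed_pi L), fun P hP => ?_, fun i hi => ?_⟩,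
    (mul_div_cancel₀ _ hπ).symm⟩
  · rw [div_eq_mul_inv, ← map_inv₀]
    simpa using (hf.2.1 P hP).mul (ordGE_algebraMap (v := P) L.π⁻¹)
  · obtain ⟨g', hg', he⟩ := M.exists_eq_pi_mul L
      (fixed_div hf.1 (fixed_pow (fixed_pi L) _)) (hf.2.2 i hi) (h i hi)
    rwa [div_right_comm, he, mul_div_cancel_left₀ _ hπ]

variable (M)

/-- Fixed functions are normalised along one component and divisible along the others without
changing their divisor in the tube. -/
theorem exists_twisted (L : Level p A) (y : M.Pt) {f : F} (hf : f ≠ 0)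
    (hfix : M.Fixed L.H f) {i : Bool} (hi : M.On y i) (K : ℤ) :
    ∃ g : F, g ≠ 0 ∧ M.Fixed L.H g ∧ (∀ P, M.sp P = y → P.ord g = P.ord f) ∧
      M.VOrd L.π i g 0 ∧ ∀ j, j ≠ i → M.On y j → ∃ m, K ≤ m ∧ M.VOrd L.π j g m := by
  obtain ⟨a, ha⟩ := M.exists_vord L i hf hfix
  have hπ : ∀ m : ℤ, algebraMap Qb F L.π ^ m ≠ 0 :=
    fun m => zpow_ne_zero _ ((map_ne_zero _).2 L.ne_zero)
  have hπord : ∀ (P : Place Qb F) (m : ℤ), P.ord (algebraMap Qb F L.π ^ m) = 0 := fun P m => by
    rw [P.ord_zpow, ord_algebraMap, mul_zero]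
  by_cases hnode : M.IsNode y
  · obtain ⟨a', ha'⟩ := M.exists_vord L (!i) hf hfix
    obtain ⟨hw0, hw1⟩ := M.vord_w L
    have he : (1 : ℤ) ≤ 12 * L.e := by have := L.e_pos; omega
    set k : ℤ := |K - (a' - a)| with hk
    have hk0 : K - (a' - a) ≤ k := le_abs_self _
    have hk1 : k ≤ 12 * L.e * k := le_mul_of_one_le_left (abs_nonneg _) he
    have hw : ∀ j : ℤ, M.w ^ j ≠ 0 := fun j => zpow_ne_zero _ M.w_ne_zero
    have hwo : ∀ (j : ℤ) P, M.sp P = y → P.ord (M.w ^ j) = 0 := fun j P hP => by
      rw [P.ord_zpow, M.w_ord y hnode.1 hnode.2 P hP, mul_zero]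
    cases i
    · refine ⟨f / algebraMap Qb F L.π ^ a * M.w ^ k, mul_ne_zero (div_ne_zero hf (hπ a)) (hw k),
        fixed_mul (fixed_div hfix (fixed_pi_zpow L a)) (fixed_zpow (fixed_w L) k), fun P hP => ?_,
        ?_, fun j hj _ => ⟨a' - a + k * (12 * L.e), by linarith, ?_⟩⟩
      · rw [P.ord_mul (div_ne_zero hf (hπ a)) (hw k), ord_div P hf (hπ a), hπord, hwo k P hP]
        ring
      · simpa using (M.vord_div_pi_zpow L ha a).mul (hw0.zpow k) L.ne_zero
      · obtain rfl : j = true := by simpa using hj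
        exact (M.vord_div_pi_zpow L ha' a).mul (hw1.zpow k) L.ne_zero
    · refine ⟨f / algebraMap Qb F L.π ^ (a - k * (12 * L.e)) * M.w ^ (-k),
        mul_ne_zero (div_ne_zero hf (hπ _)) (hw _),
        fixed_mul (fixed_div hfix (fixed_pi_zpow L _)) (fixed_zpow (fixed_w L) _), fun P hP => ?_,
        ?_, fun j hj _ => ⟨a' - (a - k * (12 * L.e)) + -k * 0, by linarith, ?_⟩⟩
      · rw [P.ord_mul (div_ne_zero hf (hπ _)) (hw _), ord_div P hf (hπ _), hπord, hwo _ P hP]
        ring
      · have h := (M.vord_div_pi_zpow L ha (a - k * (12 * L.e))).mul (hw1.zpow (-k)) L.ne_zero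
        rwa [show a - (a - k * (12 * (L.e : ℤ))) + -k * (12 * L.e) = 0 by ring] at h
      · obtain rfl : j = false := by simpa using hj
        exact (M.vord_div_pi_zpow L ha' _).mul (hw0.zpow (-k)) L.ne_zero
  · refine ⟨f / algebraMap Qb F L.π ^ a, div_ne_zero hf (hπ a),
      fixed_div hfix (fixed_pi_zpow L a), fun P _ => ?_, ?_, fun j hj hj' => absurd ?_ hnode⟩
    · rw [ord_div P hf (hπ a), hπord, sub_zero]
    · simpa using M.vord_div_pi_zpow L ha a
    · cases i <;> cases j
      · exact absurd rfl hj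
      · exact ⟨hi, hj'⟩
      · exact ⟨hj', hi⟩
      · exact absurd rfl hj

variable [IsFunctionField1 (ResidueField A) Fb] [IsFunctionField1 Qb F]

/-- A nonzero fixed function bounded below in a tube by a fixed divisor. -/
theorem exists_fixed_ge {H : Subgroup Γℚ} {D : Divisor Qb F} (hD : M.DivFixed H D) (y : M.Pt) :
    ∃ f : F, f ≠ 0 ∧ M.Fixed H f ∧ ∀ P, M.sp P = y → D P ≤ P.ord f := by
  by_cases h : ∃ P, M.sp P = y
  · obtain ⟨P₀, hP₀⟩ := h
    obtain ⟨f, hf, hfix, hle, -⟩ := M.exists_fixed_local hD hP₀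
    exact ⟨f, hf, hfix, hle⟩
  · exact ⟨1, one_ne_zero, fixed_one, fun P hP => absurd ⟨P, hP⟩ h⟩

/-- Residues of sections have orders bounded below. -/
theorem exists_residue_bound (L : Level p A) (hD : M.DivFixed L.H D) (y : M.Pt) (n : ℕ)
    {i : Bool} (hi : M.On y i) :
    ∃ B : ℤ, ∀ f, M.Sect L D y n f →
      M.residueAt i (f / algebraMap Qb F L.π ^ twist n i) ≠ 0 →
      B ≤ (M.loc y i).ord (M.residueAt i (f / algebraMap Qb F L.π ^ twist n i)) := by
  have hDneg : M.DivFixed L.H (-D) := fun σ hσ => by rw [smul_neg, hD σ hσ]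
  obtain ⟨f₀, hf₀, hf₀fix, hf₀ord⟩ := M.exists_fixed_ge hDneg y
  obtain ⟨g, hg, hgfix, hgord, hgi, hgj⟩ := M.exists_twisted L y hf₀ hf₀fix hi n
  refine ⟨-(M.loc y i).ord (M.residueAt i g), fun f hf hres => ?_⟩
  set T := algebraMap Qb F L.π ^ twist n i
  have hreg : M.Reg y (f / T * g) := by
    refine ⟨fun P hP => ?_, fun j hj => ?_⟩
    · rw [← ordGE_zero_iff_mem, div_eq_mul_inv]
      have hT : OrdGE P 0 T⁻¹ := by
        rw [show T⁻¹ = algebraMap Qb F (L.π ^ twist n i)⁻¹ by rw [map_inv₀, map_pow]]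
        exact ordGE_algebraMap (v := P) _
      refine (((hf.2.1 P hP).mul hT).mul (ordGE_of_le_ord (v := P) (f := g) le_rfl)).mono ?_
      have h := hf₀ord P hP
      rw [Finsupp.neg_apply] at h
      rw [hgord P hP]
      omega
    · by_cases hji : j = i
      · subst hji
        exact mul_mem (hf.2.2 j hj) (M.mem_of_valuation_eq_one hgi.valuation_eq_one)
      · obtain ⟨m, hm, hgm⟩ := hgj j hji hj
        have hπ : algebraMap Qb F L.π ≠ 0 := (map_ne_zero _).2 L.ne_zero
        rw [show f / T * g = f / algebraMap Qb F L.π ^ twist n j *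
          (algebraMap Qb F L.π ^ ((twist n j : ℤ) - twist n i) * g) by
            rw [zpow_sub₀ hπ, zpow_natCast, zpow_natCast]
            simp only [T]
            field_simp]
        refine mul_mem (hf.2.2 j hj)
          (M.mem_of_vord L ((M.vord_pi_zpow L j _).mul hgm L.ne_zero) ?_)
        unfold twist
        cases i <;> cases j <;> simp <;> omega
  have h := ord_nonneg_of_mem _ (M.residueAt_regular hreg hi)
  rw [residueAt_mul (hf.2.2 i hi) (M.mem_of_valuation_eq_one hgi.valuation_eq_one),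
    (M.loc y i).ord_mul hres (residueAt_ne_zero hgi.valuation_eq_one)] at h
  omega

/-- A section with residue of minimal order along a component. -/
theorem exists_residue_min (L : Level p A) (hD : M.DivFixed L.H D) (y : M.Pt) (n : ℕ)
    {i : Bool} (hi : M.On y i) :
    ∃ f, M.Sect L D y n f ∧ M.residueAt i (f / algebraMap Qb F L.π ^ twist n i) ≠ 0 ∧
      ∀ f', M.Sect L D y n f' → ∃ a : (M.loc y i).toValuationSubring,
        M.residueAt i (f' / algebraMap Qb F L.π ^ twist n i) =
          a * M.residueAt i (f / algebraMap Qb F L.π ^ twist n i) := by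
  classical
  set ρ := fun f : F => M.residueAt i (f / algebraMap Qb F L.π ^ twist n i)
  obtain ⟨B, hB⟩ := M.exists_residue_bound L hD y n hi
  obtain ⟨f₀, hf₀, hf₀fix, hf₀ord⟩ := M.exists_fixed_ge hD y
  obtain ⟨g, hg, hgfix, hgord, hgi, hgj⟩ := M.exists_twisted L y hf₀ hf₀fix hi n
  set T := algebraMap Qb F L.π ^ twist n i with hT
  have hT0 : T ≠ 0 := pow_ne_zero _ ((map_ne_zero _).2 L.ne_zero)
  have hsect : M.Sect L D y n (g * T) := by
    refine ⟨fixed_mul hgfix (fixed_pow (fixed_pi L) _), fun P hP => ?_, fun j hj => ?_⟩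
    · refine ordGE_of_le_ord ?_
      rw [P.ord_mul hg hT0, hgord P hP, hT, ord_pow, ord_algebraMap]
      have := hf₀ord P hP
      omega
    · by_cases hji : j = i
      · subst hji
        rw [mul_div_cancel_right₀ _ hT0]
        exact M.mem_of_valuation_eq_one hgi.valuation_eq_one
      · obtain ⟨m, hm, hgm⟩ := hgj j hji hj
        rw [hT, ← zpow_natCast, ← zpow_natCast (algebraMap Qb F L.π) (twist n j)]
        refine M.mem_of_vord L (M.vord_div_pi_zpow L (hgm.mul (M.vord_pi_zpow L j _) L.ne_zero) _) ?_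
        unfold twist
        cases i <;> cases j <;> simp <;> omega
  have hρ0 : ρ (g * T) ≠ 0 := by
    show M.residueAt i (g * T / T) ≠ 0
    rw [mul_div_cancel_right₀ _ hT0]
    exact residueAt_ne_zero hgi.valuation_eq_one
  obtain ⟨z, ⟨f, hf, hfne, rfl⟩, hmin⟩ := Int.exists_least_of_bdd
    (P := fun z => ∃ f, M.Sect L D y n f ∧ ρ f ≠ 0 ∧ (M.loc y i).ord (ρ f) = z)
    ⟨B, fun z ⟨f, hf, hfne, hz⟩ => hz ▸ hB f hf hfne⟩ ⟨_, g * T, hsect, hρ0, rfl⟩
  refine ⟨f, hf, hfne, fun f' hf' => ⟨⟨ρ f' / ρ f, ?_⟩, (div_mul_cancel₀ _ hfne).symm⟩⟩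
  rcases eq_or_ne (ρ f') 0 with h0 | h0
  · rw [h0, zero_div]; exact zero_mem _
  · refine mem_of_ord_nonneg _ ?_
    rw [ord_div _ h0 hfne]
    have := hmin _ ⟨f', hf', h0, rfl⟩
    omega

variable [IsAlgClosed (ResidueField A)]

omit [IsFunctionField1 Qb F] in
theorem evalHom_eq_zero_iff_not_isUnit (Q : Place (ResidueField A) Fb)
    (a : Q.toValuationSubring) : ConstRed.evalHom Q a = 0 ↔ ¬ IsUnit a := by
  constructor
  · intro h hu
    exact (hu.map (ConstRed.evalHom Q)).ne_zero h
  · intro h
    rw [ConstRed.evalHom_eq_zero_iff]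
    rcases eq_or_ne (a : Fb) 0 with h0 | h0
    · exact Or.inl h0
    refine Or.inr (lt_of_le_of_ne (ord_nonneg_of_mem Q a.2) fun he => h ?_)
    exact (isUnit_iff_ord_eq_zero Q a).2 ⟨by simpa using h0, he.symm⟩

/-- The sections at a node as a node family. -/
theorem exists_node_generator (L : Level p A) (hD : M.DivFixed L.H D) {y : M.Pt}
    (hy : M.IsNode y) :
    ∃ n b, M.Sect L D y n b ∧ (∀ i, M.residueAt i (b / algebraMap Qb F L.π ^ twist n i) ≠ 0) ∧
      ∀ f, M.Sect L D y n f → ∃ c ∈ M.localRing L y,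
        ∀ i, M.residueAt i (f / algebraMap Qb F L.π ^ twist n i) =
          M.residueAt i c * M.residueAt i (b / algebraMap Qb F L.π ^ twist n i) := by
  have hon : ∀ i, M.On y i := fun i => by cases i; exacts [hy.1, hy.2]
  set πF := algebraMap Qb F L.π with hπF
  have hπ0 : πF ≠ 0 := (map_ne_zero _).2 L.ne_zero
  let r : M.localRing L y →+* (Bool → Fb) :=
    { toFun := fun c i => M.residueAt i c
      map_one' := funext fun i => M.residueAt_one i
      map_mul' := fun c d => funext fun i => residueAt_mul (c.2.1.2 i (hon i)) (d.2.1.2 i (hon i))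
      map_zero' := funext fun i => M.residueAt_zero i
      map_add' := fun c d => funext fun i => residueAt_add (c.2.1.2 i (hon i)) (d.2.1.2 i (hon i)) }
  let N : ℤ → Submodule (M.localRing L y) F := fun n =>
    { carrier := {f | M.Sect L D y n.toNat f}
      add_mem' := Sect.add
      zero_mem' := sect_zero M L D y _
      smul_mem' := fun c f hf => hf.mul_left c.2 }
  let ρ : (n : ℤ) → N n →+ (Bool → Fb) := fun n => AddMonoidHom.mk'
    (fun f i => M.residueAt i ((f : F) / πF ^ twist n.toNat i)) fun f g => funext fun i => by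
      show M.residueAt i (((f : F) + g) / _) = _
      rw [add_div]
      exact residueAt_add (f.2.2.2 i (hon i)) (g.2.2.2 i (hon i))
  obtain ⟨B₀, hB₀⟩ := M.exists_residue_bound L hD y 0 hy.1
  obtain ⟨n, b, -, hb, hgen⟩ := NodeFamily.exists_residual_generator
    ({ W := fun i => (M.loc y i).toValuationSubring
       ev := fun i => ConstRed.evalHom (M.loc y i)
       r := r
       N := N
       ρ := ρ
       ev_eq_zero := fun i a => evalHom_eq_zero_iff_not_isUnit (M.loc y i) a
       r_surj := fun a a' h => by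
         obtain ⟨f, hfix, hfP, hf⟩ := M.exists_regular_lift y
           (fun i => if i then (a' : Fb) else a) (fun i _ => by cases i; exacts [a.2, a'.2])
           (fun _ _ => h)
         refine ⟨⟨f, ⟨hfP, fun i hi => (hf i hi).1⟩, fun σ hσ => hfix σ (L.le_inertia hσ)⟩, ?_, ?_⟩
         · obtain ⟨hV, hr⟩ := hf false hy.1
           show M.residueAt false f = _
           rw [residueAt_of_mem M hV, hr]
           rfl
         · obtain ⟨hV, hr⟩ := hf true hy.2
           show M.residueAt true f = _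
           rw [residueAt_of_mem M hV, hr]
           rfl
       r_lift := fun i j a => ⟨algebraMap (ResidueField A) _ (ConstRed.evalHom (M.loc y i) a),
         ConstRed.evalHom_algebraMap _ _⟩
       ρ_smul := fun m c f => funext fun i => by
         show M.residueAt i ((c : F) * f / _) = M.residueAt i c * M.residueAt i _
         rw [mul_div_assoc, residueAt_mul (c.2.1.2 i (hon i)) (f.2.2.2 i (hon i))]
       exists_min := fun m i => by
         obtain ⟨f, hf, hne, hgen⟩ := M.exists_residue_min L hD y m.toNat (hon i)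
         exact ⟨⟨f, hf⟩, hne, fun f' => hgen f' f'.2⟩
       shift := fun m f hf => by
         rcases lt_or_ge m 0 with hm | hm
         · have h0 : (m + 1).toNat = m.toNat := by omega
           refine ⟨⟨f, show M.Sect L D y (m + 1).toNat f from h0.symm ▸ f.2⟩, rfl, ?_⟩
           show M.residueAt false ((f : F) / _) = M.residueAt false ((f : F) / _)
           rw [h0]
         · have h0 : (m + 1).toNat = m.toNat + 1 := by omega
           refine ⟨⟨f, show M.Sect L D y (m + 1).toNat f from
             ⟨f.2.1, f.2.2.1, fun i hi => ?_⟩⟩, rfl, rfl⟩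
           cases i
           · exact f.2.2.2 false hi
           · obtain ⟨g', hg', he⟩ := M.exists_eq_pi_mul L
               (fixed_div f.2.1 (fixed_pow (fixed_pi L) _)) (f.2.2.2 true hi) hf
             show (f : F) / πF ^ (m + 1).toNat ∈ _
             rw [h0, pow_succ, ← div_div, show (f : F) / πF ^ m.toNat = πF * g' from he,
               mul_div_cancel_left₀ _ hπ0]
             exact hg'
       bound := fun u hu => by
         set Q := M.loc y false
         refine ⟨12 * L.e * (((Q.ord u - B₀).toNat + 1 : ℕ) : ℤ), fun m hm f a he => ?_⟩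
         set k := (Q.ord u - B₀).toNat + 1
         obtain ⟨hw0, hw1⟩ := M.vord_w L
         have hwk : ∀ P, M.sp P = y → P.ord (M.w ^ k) = 0 := fun P hP => by
           rw [ord_pow, M.w_ord y hy.1 hy.2 P hP, mul_zero]
         have hwk0 : M.w ^ k ≠ 0 := pow_ne_zero _ M.w_ne_zero
         have hsect : M.Sect L D y 0 ((f : F) / M.w ^ k) := by
           refine ⟨fixed_div f.2.1 (fixed_pow (fixed_w L) _), fun P hP => ?_, fun i hi => ?_⟩
           · have h := (f.2.2.1 P hP).mul
               (ordGE_of_le_ord (v := P) (f := (M.w ^ k)⁻¹) (n := 0)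
                 (by rw [P.ord_inv, hwk P hP, neg_zero]))
             simpa [div_eq_mul_inv] using h
           · have h := f.2.2.2 i hi
             cases i
             · simp only [twist, Bool.false_eq_true, if_false, pow_zero, div_one] at h ⊢
               rw [div_eq_mul_inv]
               exact mul_mem h (M.mem_of_valuation_eq_one
                 (by rw [map_inv₀, (hw0.pow k).valuation_eq_one, inv_one]))
             · simp only [twist, if_true, pow_zero, div_one] at h ⊢
               rw [show (f : F) / M.w ^ k = (f : F) / πF ^ m.toNat * (πF ^ m.toNat * (M.w ^ k)⁻¹) by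
                 rw [← mul_assoc, div_mul_cancel₀ _ (pow_ne_zero _ hπ0), div_eq_mul_inv]]
               refine mul_mem h (M.mem_of_vord L (n := (m.toNat : ℤ) + -((k : ℤ) * (12 * L.e))) ?_ ?_)
               · rw [← zpow_natCast πF]
                 exact (M.vord_pi_zpow L true _).mul (hw1.pow k).inv L.ne_zero
               · have := Int.self_le_toNat m
                 linarith
         have hwres : M.residueAt false M.w ≠ 0 := residueAt_ne_zero M.w_false
         have hfV : (f : F) ∈ M.V false := by simpa [twist] using f.2.2.2 false hy.1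
         have hρf : ρ m f false = M.residueAt false f := by
           show M.residueAt false ((f : F) / _) = _
           simp [twist]
         rw [hρf] at he
         have hne : M.residueAt false (f : F) ≠ 0 := fun h0 => hu (by rw [he, h0, mul_zero])
         have ha : (a : Fb) ≠ 0 := fun h0 => hu (by rw [he, h0, zero_mul])
         have hr : M.residueAt false ((f : F) / M.w ^ k) =
             M.residueAt false f / M.residueAt false M.w ^ k := by
           rw [residueAt_div hfV (by rw [map_pow, M.w_false, one_pow]),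
             residueAt_pow (M.mem_of_valuation_eq_one M.w_false)]
         have hge := hB₀ _ hsect (by
           simpa [twist, hr] using ⟨hne, fun h => absurd h hwres⟩)
         simp only [twist, Bool.false_eq_true, if_false, pow_zero, div_one, hr] at hge
         rw [ord_div Q hne (pow_ne_zero _ hwres), ord_pow,
           residueAt_of_mem M (M.mem_of_valuation_eq_one M.w_false),
           M.red_w_ord y hy.1 hy.2] at hge
         have hua := congrArg Q.ord he
         rw [Q.ord_mul ha hne] at hua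
         have ha0 := ord_nonneg_of_mem Q a.2
         have hkr : (k : ℤ) ≤ k * M.r y :=
           le_mul_of_one_le_right (by positivity) (by exact_mod_cast M.r_pos y hy.1 hy.2)
         have hk := Int.self_le_toNat (Q.ord u - B₀)
         have hk' : (k : ℤ) = (Q.ord u - B₀).toNat + 1 := by simp [k]
         omega } : NodeFamily (M.localRing L y) F Fb (ResidueField A))
  refine ⟨n.toNat, b, b.2, hb, fun f hf => ?_⟩
  obtain ⟨c, hc⟩ := hgen ⟨f, hf⟩
  exact ⟨c, c.2, fun i => congrFun hc i⟩

/-- Sections are generated modulo the uniformiser by one of them. -/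
theorem exists_sect_generator (L : Level p A) (hD : M.DivFixed L.H D) (y : M.Pt) :
    ∃ n b, M.Sect L D y n b ∧ b ≠ 0 ∧
      ∀ f, M.Sect L D y n f → ∃ c ∈ M.localRing L y, ∃ f', M.Sect L D y n f' ∧
        f = c * b + algebraMap Qb F L.π * f' := by
  suffices ∃ n b, M.Sect L D y n b ∧ b ≠ 0 ∧
      ∀ f, M.Sect L D y n f → ∃ c ∈ M.localRing L y, ∀ i, M.On y i →
        M.residueAt i (f / algebraMap Qb F L.π ^ twist n i) =
          M.residueAt i c * M.residueAt i (b / algebraMap Qb F L.π ^ twist n i) by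
    obtain ⟨n, b, hb, hb0, hgen⟩ := this
    refine ⟨n, b, hb, hb0, fun f hf => ?_⟩
    obtain ⟨c, hc, hres⟩ := hgen f hf
    obtain ⟨f', hf', he⟩ := (hf.sub (hb.mul_left hc)).exists_pi_mul fun i hi => by
      rw [sub_div, mul_div_assoc, residueAt_sub (hf.2.2 i hi) (mul_mem (hc.1.2 i hi) (hb.2.2 i hi)),
        residueAt_mul (hc.1.2 i hi) (hb.2.2 i hi), hres i hi, sub_self]
    exact ⟨c, hc, f', hf', by rw [← he]; ring⟩
  by_cases hy : M.IsNode y
  · obtain ⟨n, b, hb, hne, hgen⟩ := M.exists_node_generator L hD hy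
    refine ⟨n, b, hb, fun h => hne false (by rw [h, zero_div, residueAt_zero]), fun f hf => ?_⟩
    obtain ⟨c, hc, hres⟩ := hgen f hf
    exact ⟨c, hc, fun i _ => hres i⟩
  · obtain ⟨i, hi⟩ := M.exists_on y
    have honly : ∀ j, M.On y j → j = i := fun j hj => by
      by_contra h
      cases i <;> cases j
      · exact h rfl
      · exact hy ⟨hi, hj⟩
      · exact hy ⟨hj, hi⟩
      · exact h rfl
    obtain ⟨b, hb, hne, hgen⟩ := M.exists_residue_min L hD y 0 hi
    refine ⟨0, b, hb, fun h => hne (by rw [h, zero_div, residueAt_zero]), fun f hf => ?_⟩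
    obtain ⟨a, ha⟩ := hgen f hf
    obtain ⟨c, hcfix, hcP, hc⟩ := M.exists_regular_lift y (fun _ => (a : Fb))
      (fun j hj => honly j hj ▸ a.2) (fun h0 h1 => absurd ⟨h0, h1⟩ hy)
    refine ⟨c, ⟨⟨hcP, fun j hj => (hc j hj).1⟩, fun σ hσ => hcfix σ (L.le_inertia hσ)⟩,
      fun j hj => ?_⟩
    obtain rfl := honly j hj
    obtain ⟨hV, hr⟩ := hc j hj
    rw [ha, residueAt_of_mem M hV, hr]

/-- **Local principality.** -/
theorem exists_localGen_aux (hp : p.Prime) (L : Level p A) (hD : M.DivFixed L.H D) (y : M.Pt) :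
    ∃ ψ : F, M.Fixed L.H ψ ∧ M.LocalGen y D ψ := by
  obtain ⟨n, b, hb, hb0, hgen⟩ := M.exists_sect_generator L hD y
  refine ⟨b, hb.1, hb0, fun P₀ hP₀ => le_antisymm ?_ ((hb.2.1 P₀ hP₀).le_ord hb0)⟩
  by_contra hlt
  push Not at hlt
  obtain ⟨i₀, hi₀⟩ := M.exists_on y
  -- sections of exact order and of the opposite order
  have key : ∀ E : Divisor Qb F, M.DivFixed L.H E →
      ∃ f, f ≠ 0 ∧ M.Sect L E y n f ∧ P₀.ord f = E P₀ := by
    intro E hE
    obtain ⟨f, hf, hffix, hfle, hford⟩ := M.exists_fixed_local hE hP₀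
    obtain ⟨g, hg, hgfix, hgord, hgi, hgj⟩ := M.exists_twisted L y hf hffix hi₀ 0
    set T := algebraMap Qb F L.π ^ n with hT
    have hT0 : T ≠ 0 := pow_ne_zero _ ((map_ne_zero _).2 L.ne_zero)
    refine ⟨g * T, mul_ne_zero hg hT0,
      ⟨fixed_mul hgfix (fixed_pow (fixed_pi L) _), fun P hP => ?_, fun j hj => ?_⟩, ?_⟩
    · refine ordGE_of_le_ord ?_
      rw [P.ord_mul hg hT0, hgord P hP, hT, ord_pow, ord_algebraMap]
      have := hfle P hP
      omega
    · obtain ⟨m, hm, hgm⟩ : ∃ m, 0 ≤ m ∧ M.VOrd L.π j g m := by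
        by_cases h : j = i₀
        · exact ⟨0, le_rfl, h ▸ hgi⟩
        · exact hgj j h hj
      rw [hT, ← zpow_natCast, ← zpow_natCast (algebraMap Qb F L.π) (twist n j)]
      refine M.mem_of_vord L (M.vord_div_pi_zpow L (hgm.mul (M.vord_pi_zpow L j _) L.ne_zero) _) ?_
      unfold twist
      cases j <;> simp <;> omega
    · rw [P₀.ord_mul hg hT0, hgord P₀ hP₀, hT, ord_pow, ord_algebraMap, hford]
      ring
  obtain ⟨f, hf0, hf, hford⟩ := key D hD
  obtain ⟨f', hf'0, hf', hf'ord⟩ := key (-D) fun σ hσ => by rw [smul_neg, hD σ hσ]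
  have hreg : ∀ g, M.Sect L D y n g → M.Reg y (g * f') := by
    intro g hg
    refine ⟨fun P hP => ?_, fun j hj => ?_⟩
    · rw [← ordGE_zero_iff_mem]
      exact ((hg.2.1 P hP).mul (hf'.2.1 P hP)).mono (by simp)
    · have hmem : ∀ {h : F}, h / algebraMap Qb F L.π ^ twist n j ∈ M.V j → h ∈ M.V j := by
        intro h hh
        rw [← div_mul_cancel₀ h
          (pow_ne_zero (twist n j) ((map_ne_zero (algebraMap Qb F)).2 L.ne_zero))]
        exact mul_mem hh (pow_mem (M.pi_mem L j) _)
      exact mul_mem (hmem (hg.2.2 j hj)) (hmem (hf'.2.2 j hj))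
  let lam : F → Qb := fun g => evalAt P₀ (g * f')
  have hlamA : ∀ g, M.Sect L D y n g → A.valuation (lam g) ≤ 1 := fun g hg => by
    obtain ⟨ha, -⟩ := M.red_eval y _ (hreg g hg).1 (hreg g hg).2 P₀ hP₀ i₀ hi₀
      ((hreg g hg).2 i₀ hi₀)
    exact (A.valuation_le_one_iff _).2 ha
  have hlamP : ∀ g, M.Sect L D y n g → g * f' ∈ P₀.toValuationSubring :=
    fun g hg => (hreg g hg).1 P₀ hP₀
  have step : ∀ (m : ℕ) g, M.Sect L D y n g → A.valuation (lam g) ≤ A.valuation L.π ^ m := by
    intro m
    induction m with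
    | zero => simpa using hlamA
    | succ m ih =>
      intro g hg
      obtain ⟨c, hc, g', hg', rfl⟩ := hgen g hg
      have hcb : lam (c * b) = 0 := by
        refine (ConstRed.evalAt_eq_zero_iff P₀ (hlamP _ (hb.mul_left hc))).2 ?_
        rcases eq_or_ne c 0 with rfl | hc0
        · simp
        · refine Or.inr ?_
          rw [P₀.ord_mul (mul_ne_zero hc0 hb0) hf'0, P₀.ord_mul hc0 hb0, hf'ord,
            Finsupp.neg_apply]
          have := ord_nonneg_of_mem P₀ (hc.1.1 P₀ hP₀)
          omega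
      have heq : lam (c * b + algebraMap Qb F L.π * g') = L.π * lam g' := by
        show evalAt P₀ ((c * b + algebraMap Qb F L.π * g') * f') = _
        rw [add_mul, mul_assoc (algebraMap Qb F L.π),
          ConstRed.evalAt_add P₀ (hlamP _ (hb.mul_left hc))
            (mul_mem (P₀.algebraMap_mem' _) (hlamP g' hg')),
          show evalAt P₀ (c * b * f') = 0 from hcb, zero_add,
          ConstRed.evalAt_mul P₀ (P₀.algebraMap_mem' _) (hlamP g' hg'),
          ConstRed.evalAt_algebraMap]
      rw [heq, map_mul, pow_succ']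
      exact mul_le_mul_right (ih g' hg') _
  have h0 := L.eq_zero_of_forall_le hp fun m => step m f hf
  have hne : lam f ≠ 0 := (ConstRed.evalAt_ne_zero_iff P₀ (hlamP f hf)).2
    ⟨mul_ne_zero hf0 hf'0, by rw [P₀.ord_mul hf0 hf'0, hford, hf'ord]; simp⟩
  exact hne h0

end TwoCompData

end Fermat.Agent.LevelP
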