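import Fermat.Agent.LevelP.Model.Basic
import Fermat.Agent.LevelP.FirstOrder
import Fermat.Agent.LevelP.PeuField
import Fermat.Agent.Curve.Fibre

/-!
# Two-component data as a nodal model over a field of constants

Owner: helper34.

`TwoCompData.nodal M L` is the `NodalModel` of the fixed functions of a level `L`; the file also
collects the calculus of orders along the components and of regular functions.
-/

set_option autoImplicit false

noncomputable section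

namespace Fermat.Agent.LevelP

open AlgebraicCurve Fermat.Agent.Curve IsLocalRing

local notation "Qb" => AlgebraicClosure ℚ
local notation "Γℚ" => (AlgebraicClosure ℚ ≃ₐ[ℚ] AlgebraicClosure ℚ)

variable {p : ℕ} {A : ValuationSubring Qb} {F : Type*} [Field F] [Algebra Qb F]
  {Fb : Type*} [Field Fb] [Algebra (ResidueField A) Fb] (M : TwoCompData p A F Fb)

/-- A fixed constant in the maximal ideal is divisible by the uniformiser. -/
theorem Level.exists_eq_mul (L : Level p A) {x : Qb} (hx : ∀ σ ∈ L.H, σ x = x)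
    (hlt : A.valuation x < 1) : ∃ e ∈ A, (∀ σ ∈ L.H, σ e = e) ∧ x = L.π * e := by
  refine ⟨x / L.π, ?_, fun σ hσ => by rw [map_div₀, hx σ hσ, L.fixed σ hσ],
    (mul_div_cancel₀ _ L.ne_zero).symm⟩
  rcases eq_or_ne x 0 with rfl | hx0
  · simp
  obtain ⟨n, hn⟩ := L.value x hx0 hx
  have hπ0 := L.valuation_ne_zero
  have hn1 : (1 : ℤ) ≤ n := by
    by_contra hcon
    rw [hn] at hlt
    refine hlt.not_ge ?_
    obtain ⟨k, hk⟩ := Int.eq_ofNat_of_zero_le (show (0 : ℤ) ≤ -n by omega)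
    rw [show n = -(k : ℤ) by omega, zpow_neg, zpow_natCast]
    exact one_le_inv₀ (zero_lt_iff.2 (pow_ne_zero _ hπ0)) |>.2
      (pow_le_one₀ zero_le L.lt_one.le)
  rw [← A.valuation_le_one_iff, map_div₀, hn, div_eq_mul_inv, ← zpow_neg_one, ← zpow_add₀ hπ0]
  obtain ⟨k, hk⟩ := Int.eq_ofNat_of_zero_le (show 0 ≤ n + -1 by omega)
  rw [hk, zpow_natCast]
  exact pow_le_one₀ zero_le L.lt_one.le

namespace TwoCompData

section Calculus

variable {M} {H : Subgroup Γℚ} {f g : F}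

theorem fixed_mul (hf : M.Fixed H f) (hg : M.Fixed H g) : M.Fixed H (f * g) :=
  fun σ hσ => by rw [smul_mul', hf σ hσ, hg σ hσ]

theorem fixed_inv (hf : M.Fixed H f) : M.Fixed H f⁻¹ :=
  fun σ hσ => by rw [smul_inv'', hf σ hσ]

theorem fixed_div (hf : M.Fixed H f) (hg : M.Fixed H g) : M.Fixed H (f / g) :=
  div_eq_mul_inv f g ▸ fixed_mul hf (fixed_inv hg)

theorem fixed_pow (hf : M.Fixed H f) (n : ℕ) : M.Fixed H (f ^ n) :=
  fun σ hσ => by rw [smul_pow', hf σ hσ]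

theorem fixed_zpow (hf : M.Fixed H f) : ∀ n : ℤ, M.Fixed H (f ^ n)
  | (n : ℕ) => by rw [zpow_natCast]; exact fixed_pow hf n
  | Int.negSucc n => by rw [zpow_negSucc]; exact fixed_inv (fixed_pow hf _)

theorem fixed_mono {H' : Subgroup Γℚ} (hle : H' ≤ H) (hf : M.Fixed H f) : M.Fixed H' f :=
  fun σ hσ => hf σ (hle hσ)

variable (M) in
theorem fixed_algebraMap {a : Qb} (h : ∀ σ ∈ H, σ a = a) : M.Fixed H (algebraMap Qb F a) :=
  fun σ hσ => by rw [SemilinearAut.smul_algebraMap, M.baseAut_act, h σ hσ]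

theorem fixed_act {τ : Γℚ} (hnorm : ∀ σ ∈ H, τ⁻¹ * σ * τ ∈ H) (hf : M.Fixed H f) :
    M.Fixed H (M.act τ • f) := by
  intro σ hσ
  have h := hf _ (hnorm σ hσ)
  rw [map_mul, map_mul, mul_smul, mul_smul, map_inv, inv_smul_eq_iff] at h
  exact h

theorem divFixed_act {τ : Γℚ} (hnorm : ∀ σ ∈ H, τ⁻¹ * σ * τ ∈ H) {D : Divisor Qb F}
    (hD : M.DivFixed H D) : M.DivFixed H (M.act τ • D) := by
  intro σ hσ
  have h := hD _ (hnorm σ hσ)
  rw [map_mul, map_mul, mul_smul, mul_smul, map_inv, inv_smul_eq_iff] at h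
  exact h

variable {π : Qb} {i : Bool} {n m : ℤ}

theorem VOrd.mul (hf : M.VOrd π i f n) (hg : M.VOrd π i g m) (hπ : π ≠ 0) :
    M.VOrd π i (f * g) (n + m) := by
  rw [VOrd, map_mul, hf, hg,
    zpow_add₀ ((map_ne_zero _).2 ((map_ne_zero (algebraMap Qb F)).2 hπ))]

theorem VOrd.inv (hf : M.VOrd π i f n) : M.VOrd π i f⁻¹ (-n) := by
  rw [VOrd, map_inv₀, hf, zpow_neg]

theorem VOrd.div (hf : M.VOrd π i f n) (hg : M.VOrd π i g m) (hπ : π ≠ 0) :
    M.VOrd π i (f / g) (n - m) := by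
  rw [div_eq_mul_inv, sub_eq_add_neg]
  exact hf.mul hg.inv hπ

theorem VOrd.zpow (hf : M.VOrd π i f n) (k : ℤ) : M.VOrd π i (f ^ k) (k * n) := by
  rw [VOrd, map_zpow₀, hf, ← zpow_mul, mul_comm]

theorem VOrd.pow (hf : M.VOrd π i f n) (k : ℕ) : M.VOrd π i (f ^ k) (k * n) := by
  simpa using hf.zpow k

theorem VOrd.valuation_eq_one (hf : M.VOrd π i f 0) : (M.V i).valuation f = 1 := by
  simpa [VOrd] using hf

theorem vord_zero_iff : M.VOrd π i f 0 ↔ (M.V i).valuation f = 1 := by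
  simp [VOrd]

theorem VOrd.ne_zero (hf : M.VOrd π i f n) (hπ : π ≠ 0) : f ≠ 0 := by
  rintro rfl
  rw [VOrd, map_zero] at hf
  exact zpow_ne_zero n ((map_ne_zero _).2 ((map_ne_zero (algebraMap Qb F)).2 hπ)) hf.symm

variable (M) in
theorem vord_algebraMap {a : Qb} {n : ℤ} (h : A.valuation a = A.valuation π ^ n) :
    M.VOrd π i (algebraMap Qb F a) n := by
  rw [← map_zpow₀] at h
  rw [VOrd, M.valuation_algebraMap_eq i h, map_zpow₀, map_zpow₀]

end Calculus

theorem vord_unique (L : Level p A) {i : Bool} {f : F} {n m : ℤ} (hn : M.VOrd L.π i f n)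
    (hm : M.VOrd L.π i f m) : n = m :=
  zpow_right_injective₀ (zero_lt_iff.2 (M.valuation_pi_ne_zero L i))
    (M.valuation_pi_lt_one L i).ne (hn.symm.trans hm)

/-- Orders along the components are those of the larger level, scaled by `p`. -/
theorem VOrd.of_tame {M : TwoCompData p A F Fb} {L₁ L : Level p A} (he : L.e = p * L₁.e)
    {i : Bool} {f : F} {n : ℤ} (h : M.VOrd L₁.π i f n) : M.VOrd L.π i f (p * n) := by
  rw [VOrd, h, M.valuation_algebraMap_eq i
    ((L₁.valuation_eq_pow L he).trans (map_pow _ _ _).symm), map_pow, map_pow, ← zpow_natCast,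
    ← zpow_mul]

theorem mem_of_valuation_eq_one {i : Bool} {f : F} (h : (M.V i).valuation f = 1) : f ∈ M.V i :=
  (ValuationSubring.valuation_le_one_iff _ _).1 h.le

theorem red_ne_zero {i : Bool} {f : F} (h : (M.V i).valuation f = 1) (hf : f ∈ M.V i) :
    M.red i ⟨f, hf⟩ ≠ 0 := fun h0 => by
  rw [M.red_eq_zero_iff] at h0
  exact ((ValuationSubring.mem_nonunits_iff _).1 h0).ne h

theorem valuation_eq_one_of_red {i : Bool} {f : F} (hf : f ∈ M.V i)
    (h : M.red i ⟨f, hf⟩ ≠ 0) : (M.V i).valuation f = 1 := by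
  refine le_antisymm ((ValuationSubring.valuation_le_one_iff _ _).2 hf) (not_lt.1 fun hlt => h ?_)
  rw [M.red_eq_zero_iff]
  exact (ValuationSubring.mem_nonunits_iff _).2 hlt

/-- Functions regular at `y`. -/
def regSubring (y : M.Pt) : Subring F where
  carrier := {f | M.Reg y f}
  mul_mem' := fun hf hg =>
    ⟨fun P hP => mul_mem (hf.1 P hP) (hg.1 P hP), fun i hi => mul_mem (hf.2 i hi) (hg.2 i hi)⟩
  add_mem' := fun hf hg =>
    ⟨fun P hP => add_mem (hf.1 P hP) (hg.1 P hP), fun i hi => add_mem (hf.2 i hi) (hg.2 i hi)⟩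
  one_mem' := ⟨fun _ _ => one_mem _, fun _ _ => one_mem _⟩
  zero_mem' := ⟨fun _ _ => zero_mem _, fun _ _ => zero_mem _⟩
  neg_mem' := fun hf => ⟨fun P hP => neg_mem (hf.1 P hP), fun i hi => neg_mem (hf.2 i hi)⟩

/-- Functions fixed by `H`. -/
def fixedFns (H : Subgroup Γℚ) : Subring F where
  carrier := {f | M.Fixed H f}
  mul_mem' := fixed_mul
  add_mem' := fun hf hg σ hσ => by rw [smul_add, hf σ hσ, hg σ hσ]
  one_mem' := fun σ _ => smul_one _
  zero_mem' := fun σ _ => smul_zero _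
  neg_mem' := fun hf σ hσ => by rw [smul_neg, hf σ hσ]

/-- The integral constants fixed by `H`. -/
def fixedInts (A : ValuationSubring Qb) (H : Subgroup Γℚ) : Subring Qb where
  carrier := {a | a ∈ A ∧ ∀ σ ∈ H, σ a = a}
  mul_mem' := fun ha hb => ⟨mul_mem ha.1 hb.1, fun σ hσ => by rw [map_mul, ha.2 σ hσ, hb.2 σ hσ]⟩
  add_mem' := fun ha hb => ⟨add_mem ha.1 hb.1, fun σ hσ => by rw [map_add, ha.2 σ hσ, hb.2 σ hσ]⟩
  one_mem' := ⟨one_mem _, fun σ _ => map_one σ⟩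
  zero_mem' := ⟨zero_mem _, fun σ _ => map_zero σ⟩
  neg_mem' := fun ha => ⟨neg_mem ha.1, fun σ hσ => by rw [map_neg, ha.2 σ hσ]⟩

theorem reg_algebraMap (y : M.Pt) {a : Qb} (ha : a ∈ A) : M.Reg y (algebraMap Qb F a) :=
  ⟨fun P _ => P.algebraMap_mem' a, fun i _ => (M.algebraMap_mem_iff i a).2 ha⟩

variable [IsFunctionField1 (ResidueField A) Fb] [IsAlgClosed (ResidueField A)]

theorem evalAt_loc_algebraMap (y : M.Pt) (i : Bool) (c : ResidueField A) :
    evalAt (M.loc y i) (algebraMap (ResidueField A) Fb c) = c := by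
  have h := evalAt_spec (M.loc y i) ((M.loc y i).algebraMap_mem' c)
  rw [← map_sub, map_eq_zero, sub_eq_zero, ord_algebraMap] at h
  exact (h.resolve_right (lt_irrefl 0)).symm

variable (hp : p.Prime) (hA : A.LiesOverPrime p)

/-- The fixed functions of a level as a nodal model. -/
def nodal (L : Level p A) : NodalModel F M.Pt where
  O := (fixedInts A L.H).map (algebraMap Qb F)
  π := algebraMap Qb F L.π
  V k := (M.V k).toSubring ⊓ M.fixedFns L.H
  B y := M.regSubring y ⊓ M.fixedFns L.H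
  On := M.On
  π_mem := ⟨L.π, ⟨L.π_mem, L.fixed⟩, rfl⟩
  π_ne := (map_ne_zero _).2 L.ne_zero
  O_le_V k := by
    rintro _ ⟨a, ⟨ha, hfix⟩, rfl⟩
    exact ⟨(M.algebraMap_mem_iff k a).2 ha, M.fixed_algebraMap hfix⟩
  O_le_B y := by
    rintro _ ⟨a, ⟨ha, hfix⟩, rfl⟩
    exact ⟨M.reg_algebraMap y ha, M.fixed_algebraMap hfix⟩
  B_le_V y k hk := fun f hf => ⟨hf.1.2 k hk, hf.2⟩
  sat y c hc h := by
    refine ⟨⟨fun P hP => ?_, fun k hk => ?_⟩,
      fixed_div hc.2 (M.fixed_algebraMap L.fixed)⟩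
    · rw [div_eq_mul_inv, ← map_inv₀]
      exact mul_mem (hc.1.1 P hP) (P.algebraMap_mem' _)
    · obtain ⟨d, hd, rfl⟩ := h k hk
      rw [mul_div_cancel_left₀ _ ((map_ne_zero _).2 L.ne_zero)]
      exact hd.1
  const k a ha h := by
    have halg : IsAlgebraic (ResidueField A) (M.red k ⟨a, ha.1⟩) := by
      refine isAlgebraic_of_forall_ord_nonneg fun Q => ord_nonneg_of_mem Q ?_
      obtain ⟨y, ⟨hy, rfl⟩, -⟩ := M.existsUnique_pt k Q
      obtain ⟨c, hc, d, hd, he⟩ := h y hy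
      have : M.red k ⟨a, ha.1⟩ = M.red k ⟨c, hc.1.2 k hy⟩ :=
        (M.vcongr_one_iff L k ha.2 hc.2 ha.1 _).1 ⟨d, hd.1, by rw [pow_one]; exact he⟩
      rw [this]
      exact M.red_regular y c hc.1.1 hc.1.2 k hy _
    obtain ⟨α, hα⟩ := minpoly.mem_range_of_degree_eq_one (ResidueField A) _
      (IsAlgClosed.degree_eq_one_of_irreducible _ (minpoly.irreducible halg.isIntegral))
    obtain ⟨⟨x, hx⟩, rfl⟩ := residue_surjective α
    obtain ⟨c, hcA, hcfix, hlt⟩ := exists_inertia_fixed_residue_eq hp hA hx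
    have hres : residue A ⟨x, hx⟩ = residue A ⟨c, hcA⟩ := by
      rw [← sub_eq_zero, ← map_sub, IsLocalRing.residue_eq_zero_iff]
      exact (A.valuation_lt_one_iff _).2 hlt
    have hcH : ∀ σ ∈ L.H, σ c = c := fun σ hσ => hcfix σ (L.le_inertia hσ)
    have hred : M.red k ⟨a, ha.1⟩ =
        M.red k ⟨algebraMap Qb F c, (M.algebraMap_mem_iff k c).2 hcA⟩ := by
      rw [M.red_algebraMap k ⟨c, hcA⟩, ← hres]
      exact hα.symm
    obtain ⟨d, hd, he⟩ := (M.vcongr_one_iff L k ha.2 (M.fixed_algebraMap hcH) ha.1 _).2 hred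
    rw [pow_one] at he
    refine ⟨_, ⟨c, ⟨hcA, hcH⟩, rfl⟩, d, ⟨hd, ?_⟩, he⟩
    have : d = (a - algebraMap Qb F c) / algebraMap Qb F L.π := by
      rw [he, mul_div_cancel_left₀ _ ((map_ne_zero _).2 L.ne_zero)]
    rw [this]
    exact fixed_div ((M.fixedFns L.H).sub_mem ha.2 (M.fixed_algebraMap hcH))
      (M.fixed_algebraMap L.fixed)
  node y hy₀ hy₁ c hc c₀ hc₀ c₁ hc₁ h₀ h₁ := by
    obtain ⟨a₀, ⟨ha₀, ha₀f⟩, rfl⟩ := hc₀
    obtain ⟨a₁, ⟨ha₁, ha₁f⟩, rfl⟩ := hc₁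
    have key : ∀ (i : Bool) (hi : M.On y i) (a : Qb) (ha : a ∈ A), (∀ σ ∈ L.H, σ a = a) →
        (∃ d ∈ (M.V i).toSubring ⊓ M.fixedFns L.H,
          c - algebraMap Qb F a = algebraMap Qb F L.π * d) →
        evalAt (M.loc y i) (M.red i ⟨c, hc.1.2 i hi⟩) = residue A ⟨a, ha⟩ := by
      rintro i hi a ha hfix ⟨d, hd, he⟩
      rw [(M.vcongr_one_iff L i hc.2 (M.fixed_algebraMap hfix) _
        ((M.algebraMap_mem_iff i a).2 ha)).1 ⟨d, hd.1, by rw [pow_one]; exact he⟩,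
        M.red_algebraMap i ⟨a, ha⟩, M.evalAt_loc_algebraMap]
    have h := M.red_node y c hc.1.1 hc.1.2 hy₀ hy₁ (hc.1.2 _ hy₀) (hc.1.2 _ hy₁)
    rw [key false hy₀ a₀ ha₀ ha₀f h₀, key true hy₁ a₁ ha₁ ha₁f h₁] at h
    have hlt : A.valuation (a₁ - a₀) < 1 := by
      refine (A.valuation_lt_one_iff ⟨a₁ - a₀, sub_mem ha₁ ha₀⟩).1 ?_
      rw [← IsLocalRing.residue_eq_zero_iff]
      exact (map_sub (residue A) ⟨a₁, ha₁⟩ ⟨a₀, ha₀⟩).trans (sub_eq_zero.2 h.symm)
    obtain ⟨e, heA, hef, he⟩ := L.exists_eq_mul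
      (fun σ hσ => by rw [map_sub, ha₁f σ hσ, ha₀f σ hσ]) hlt
    exact ⟨_, ⟨e, ⟨heA, hef⟩, rfl⟩, by rw [← map_sub, ← map_mul, he]⟩

/-- A congruence between fixed functions is a congruence of the nodal model. -/
theorem congr_of_vcongr (L : Level p A) {i : Bool} {m : ℕ} {f g : F} (hf : M.Fixed L.H f)
    (hg : M.Fixed L.H g) (h : M.VCongr L.π i m f g) :
    (M.nodal hp hA L).Congr i m f g := by
  obtain ⟨d, hd, he⟩ := h
  refine ⟨d, ⟨hd, ?_⟩, he⟩
  have : d = (f - g) / algebraMap Qb F L.π ^ m := by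
    rw [he, mul_div_cancel_left₀ _ (pow_ne_zero _ ((map_ne_zero _).2 L.ne_zero))]
  rw [this]
  exact fixed_div ((M.fixedFns L.H).sub_mem hf hg)
    (fixed_pow (M.fixed_algebraMap L.fixed) m)

end TwoCompData

end Fermat.Agent.LevelP
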