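import Fermat.Agent.LevelP.Model.Nodal
import Fermat.Agent.Reduction.ConstReduction.Eval
import Mathlib.LinearAlgebra.Prod
import Mathlib.Algebra.Module.Submodule.Basic

/-!
# A divisor trivial modulo every power of `π` is principal

A trivialisation modulo `π ^ m` gives, on each chart, a bounded function congruent to it; the
difference of the two splits into a part on each chart and a part in a fixed finite family, so a
nonzero unit function would have to be divisible by a high power of `π`.

Owner: helper27.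
-/

set_option autoImplicit false

noncomputable section

namespace Fermat.Agent.LevelP

open AlgebraicCurve Fermat.Agent.Curve IsLocalRing Fermat.Agent.Reduction

local notation "Qb" => AlgebraicClosure ℚ
local notation "Γℚ" => (AlgebraicClosure ℚ ≃ₐ[ℚ] AlgebraicClosure ℚ)

universe u

variable {p : ℕ} {A : ValuationSubring Qb} {F : Type u} [Field F] [Algebra Qb F]
  {Fb : Type*} [Field Fb] [Algebra (ResidueField A) Fb] (M : TwoCompData p A F Fb)

namespace TwoCompData

/-- Functions fixed by `H` with poles bounded by `D` in a chart and integral along both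
components. -/
def ChartBounded (c : Bool) (H : Subgroup Γℚ) (D : Divisor Qb F) (f : F) : Prop :=
  M.Fixed H f ∧ (∀ i, f ∈ M.V i) ∧
    ∀ P : Place Qb F, M.coord c ∈ P.toValuationSubring → f = 0 ∨ -D P ≤ P.ord f

/-- Functions fixed by `H` regular on a chart and integral along both components. -/
def ChartReg (c : Bool) (H : Subgroup Γℚ) (f : F) : Prop :=
  M.Fixed H f ∧ (∀ i, f ∈ M.V i) ∧
    ∀ P : Place Qb F, M.coord c ∈ P.toValuationSubring → f ∈ P.toValuationSubring

/-- Functions regular on a chart, as a subring. -/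
def chartRing (c : Bool) (H : Subgroup Γℚ) : Subring F where
  carrier := {f | M.ChartReg c H f}
  mul_mem' := fun ha hb => ⟨fixed_mul ha.1 hb.1, fun i => mul_mem (ha.2.1 i) (hb.2.1 i),
    fun P hP => mul_mem (ha.2.2 P hP) (hb.2.2 P hP)⟩
  add_mem' := fun ha hb => ⟨(M.fixedFns H).add_mem ha.1 hb.1,
    fun i => add_mem (ha.2.1 i) (hb.2.1 i), fun P hP => add_mem (ha.2.2 P hP) (hb.2.2 P hP)⟩
  one_mem' := ⟨(M.fixedFns H).one_mem, fun _ => one_mem _, fun _ _ => one_mem _⟩
  zero_mem' := ⟨(M.fixedFns H).zero_mem, fun _ => zero_mem _, fun _ _ => zero_mem _⟩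
  neg_mem' := fun ha => ⟨(M.fixedFns H).neg_mem ha.1, fun i => neg_mem (ha.2.1 i),
    fun P hP => neg_mem (ha.2.2 P hP)⟩

variable {M}

theorem ord_sum_le {P : Place Qb F} {f g : F} {n : ℤ} (hf : f = 0 ∨ n ≤ P.ord f)
    (hg : g = 0 ∨ n ≤ P.ord g) : f + g = 0 ∨ n ≤ P.ord (f + g) := by
  rw [← ordGE_iff] at hf hg ⊢
  exact hf.add hg

theorem ChartBounded.add {c : Bool} {H : Subgroup Γℚ} {D : Divisor Qb F} {f g : F}
    (hf : M.ChartBounded c H D f) (hg : M.ChartBounded c H D g) :
    M.ChartBounded c H D (f + g) :=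
  ⟨(M.fixedFns H).add_mem hf.1 hg.1, fun i => add_mem (hf.2.1 i) (hg.2.1 i),
    fun P hP => ord_sum_le (hf.2.2 P hP) (hg.2.2 P hP)⟩

theorem chartBounded_zero {c : Bool} {H : Subgroup Γℚ} {D : Divisor Qb F} :
    M.ChartBounded c H D 0 :=
  ⟨(M.fixedFns H).zero_mem, fun _ => zero_mem _, fun _ _ => Or.inl rfl⟩

theorem ChartBounded.neg {c : Bool} {H : Subgroup Γℚ} {D : Divisor Qb F} {f : F}
    (hf : M.ChartBounded c H D f) : M.ChartBounded c H D (-f) :=
  ⟨(M.fixedFns H).neg_mem hf.1, fun i => neg_mem (hf.2.1 i),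
    fun P hP => (hf.2.2 P hP).imp (fun h => by rw [h, neg_zero]) (fun h => by rwa [ord_neg])⟩

theorem ChartBounded.mul {c : Bool} {H : Subgroup Γℚ} {D : Divisor Qb F} {f s : F}
    (hs : M.ChartReg c H s) (hf : M.ChartBounded c H D f) : M.ChartBounded c H D (s * f) := by
  refine ⟨fixed_mul hs.1 hf.1, fun i => mul_mem (hs.2.1 i) (hf.2.1 i), fun P hP => ?_⟩
  rcases eq_or_ne s 0 with rfl | hs0
  · exact Or.inl (zero_mul f)
  rcases eq_or_ne f 0 with rfl | hf0
  · exact Or.inl (mul_zero s)
  refine Or.inr ?_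
  rw [P.ord_mul hs0 hf0]
  have h1 := ord_nonneg_of_mem P (hs.2.2 P hP)
  have h2 := (hf.2.2 P hP).resolve_left hf0
  omega

theorem chartBounded_sum {c : Bool} {H : Subgroup Γℚ} {D : Divisor Qb F} {α : Type*}
    (s : Finset α) (f : α → F) (h : ∀ a ∈ s, M.ChartBounded c H D (f a)) :
    M.ChartBounded c H D (∑ a ∈ s, f a) := by
  classical
  induction s using Finset.induction with
  | empty => simpa using chartBounded_zero
  | insert a s ha ih =>
    rw [Finset.sum_insert ha]
    exact (h a (Finset.mem_insert_self a s)).add (ih fun b hb => h b (Finset.mem_insert_of_mem hb))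

variable (M)

theorem t_ne_zero : M.t ≠ 0 := fun h => by simpa [h] using M.t_unit false

theorem coord_ne_zero (c : Bool) : M.coord c ≠ 0 := by
  cases c <;> simp [coord, M.t_ne_zero]

theorem coord_valuation (c : Bool) (i : Bool) : (M.V i).valuation (M.coord c) = 1 := by
  cases c <;> simp [coord, M.t_unit i]

theorem coord_fixed (c : Bool) (H : Subgroup Γℚ) : M.Fixed H (M.coord c) := by
  intro σ _
  cases c <;> simp only [coord, Bool.false_eq_true, if_false, if_true, smul_inv'', M.t_fixed σ]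

theorem chartReg_coord (c : Bool) (H : Subgroup Γℚ) : M.ChartReg c H (M.coord c) :=
  ⟨M.coord_fixed c H, fun i => M.mem_of_valuation_eq_one (M.coord_valuation c i), fun _ h => h⟩

theorem chartReg_algebraMap (c : Bool) {H : Subgroup Γℚ} {a : Qb} (ha : a ∈ A)
    (hfix : ∀ σ ∈ H, σ a = a) : M.ChartReg c H (algebraMap Qb F a) :=
  ⟨M.fixed_algebraMap hfix, fun i => (M.algebraMap_mem_iff i a).2 ha,
    fun P _ => P.algebraMap_mem' a⟩

variable {M}

theorem VCongr.symm' {π : Qb} {i : Bool} {m : ℕ} {f g : F} (h : M.VCongr π i m f g) :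
    M.VCongr π i m g f := by
  obtain ⟨d, hd, he⟩ := h
  exact ⟨-d, neg_mem hd, by linear_combination -he⟩

theorem VCongr.add' {π : Qb} {i : Bool} {m : ℕ} {f g f' g' : F} (h : M.VCongr π i m f g)
    (h' : M.VCongr π i m f' g') : M.VCongr π i m (f + f') (g + g') := by
  obtain ⟨d, hd, he⟩ := h
  obtain ⟨d', hd', he'⟩ := h'
  exact ⟨d + d', add_mem hd hd', by linear_combination he + he'⟩

theorem VCongr.mul_left' {π : Qb} {i : Bool} {m : ℕ} {f g s : F} (hs : s ∈ M.V i)
    (h : M.VCongr π i m f g) : M.VCongr π i m (s * f) (s * g) := by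
  obtain ⟨d, hd, he⟩ := h
  exact ⟨s * d, mul_mem hs hd, by linear_combination s * he⟩

theorem vcongr_sum {π : Qb} {i : Bool} {m : ℕ} {α : Type*} (s : Finset α) (f g : α → F)
    (h : ∀ a ∈ s, M.VCongr π i m (f a) (g a)) :
    M.VCongr π i m (∑ a ∈ s, f a) (∑ a ∈ s, g a) := by
  classical
  induction s using Finset.induction with
  | empty => exact ⟨0, zero_mem _, by simp⟩
  | insert a s ha ih =>
    rw [Finset.sum_insert ha, Finset.sum_insert ha]
    exact (h a (Finset.mem_insert_self a s)).add' (ih fun b hb => h b (Finset.mem_insert_of_mem hb))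

theorem VCongr.trans' {π : Qb} {i : Bool} {m : ℕ} {f g k : F} (h : M.VCongr π i m f g)
    (h' : M.VCongr π i m g k) : M.VCongr π i m f k := by
  obtain ⟨d, hd, he⟩ := h
  obtain ⟨d', hd', he'⟩ := h'
  exact ⟨d + d', add_mem hd hd', by linear_combination he + he'⟩

variable (M)

/-- The quotient of a congruence by `π ^ m`. -/
theorem VCongr.exists_eq {L : Level p A} {m : ℕ} {f g : F} (hf : M.Fixed L.H f)
    (hg : M.Fixed L.H g) (h : ∀ i, M.VCongr L.π i m f g) :
    ∃ d, M.Fixed L.H d ∧ (∀ i, d ∈ M.V i) ∧ f - g = algebraMap Qb F L.π ^ m * d := by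
  have hπ : algebraMap Qb F L.π ^ m ≠ 0 := pow_ne_zero _ ((map_ne_zero _).2 L.ne_zero)
  refine ⟨(f - g) / algebraMap Qb F L.π ^ m,
    fixed_div ((M.fixedFns L.H).sub_mem hf hg) (fixed_pow (M.fixed_algebraMap L.fixed) m),
    fun i => ?_, (mul_div_cancel₀ _ hπ).symm⟩
  obtain ⟨d, hd, he⟩ := h i
  rwa [he, mul_div_cancel_left₀ _ hπ]

/-- A chart-regular function gives glued regular residues. -/
theorem residues_of_chartReg {c : Bool} {H : Subgroup Γℚ} {s : F} (hs : M.ChartReg c H s)
    {y : M.Pt} (hy : M.InChart c y) : M.Reg y s :=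
  ⟨fun P hP => hs.2.2 P (M.chart_mem c P (hP ▸ hy)), fun i _ => hs.2.1 i⟩

variable [IsFunctionField1 Qb F] [IsFunctionField1 (ResidueField A) Fb]
  [IsAlgClosed (ResidueField A)]

/-- **Local to global on a chart.** -/
theorem exists_chartBounded_congr (L : Level p A) (D : Divisor Qb F) {m : ℕ} (hm : 1 ≤ m) {g : F}
    (hg0 : g ≠ 0) (hgfix : M.Fixed L.H g) (hgV : ∀ i, g ∈ M.V i)
    (hloc : ∀ y, ∃ ψ : F, M.Fixed L.H ψ ∧ ψ ≠ 0 ∧ (∀ P, M.sp P = y → P.ord ψ = D P + P.ord g) ∧
      ∀ i, M.On y i → M.VCongr L.π i m ψ 1)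
    (c : Bool) : ∃ h, M.ChartBounded c L.H D h ∧ ∀ i, M.VCongr L.π i m g h := by
  classical
  let π := algebraMap Qb F L.π
  -- elements which move `g` into the bounded functions, modulo `π ^ m`
  let Good : F → Prop := fun s => M.ChartReg c L.H s ∧
    ∃ h, M.ChartBounded c L.H D h ∧ ∀ i, M.VCongr L.π i m (s * g) h
  have hloc' : ∀ y, M.InChart c y → ∃ s, Good s ∧
      ∀ i, M.On y i → evalAt (M.loc y i) (M.residueAt i s) ≠ 0 := by
    intro y hy
    obtain ⟨ψ, hψfix, hψ0, hψord, hψcong⟩ := hloc y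
    set σ₀ := g / ψ with hσ₀
    have hunit : ∀ i, M.On y i → (M.V i).valuation ψ = 1 := by
      intro i hi
      obtain ⟨d, hd, he⟩ := hψcong i hi
      have hψeq : ψ = 1 + π ^ m * d := by linear_combination he
      rw [hψeq]
      refine (M.V i).valuation.map_one_add_of_lt ?_
      rw [map_mul, map_pow]
      exact mul_lt_one_of_lt_of_le (pow_lt_one₀ zero_le (M.valuation_pi_lt_one L i) (by omega))
        ((ValuationSubring.valuation_le_one_iff _ _).2 hd)
    have hσV : ∀ i, M.On y i → σ₀ ∈ M.V i := fun i hi => by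
      refine (ValuationSubring.valuation_le_one_iff _ _).1 ?_
      rw [hσ₀, map_div₀, hunit i hi, div_one]
      exact (ValuationSubring.valuation_le_one_iff _ _).2 (hgV i)
    have hσ0 : σ₀ ≠ 0 := div_ne_zero hg0 hψ0
    have hσord : ∀ P, M.sp P = y → P.ord σ₀ = -D P := fun P hP => by
      rw [hσ₀, div_eq_mul_inv, P.ord_mul hg0 (inv_ne_zero hψ0), P.ord_inv, hψord P hP]
      ring
    -- the places where the local section violates the bound
    let E : Divisor Qb F := divisorOf σ₀ + D
    let S : Finset (Place Qb F) := E.support.filter fun P => M.sp P ≠ y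
    obtain ⟨s, hsfix, hsreg, hsS, hsV, hsoff, hson⟩ :=
      M.exists_denom c y hy L.H L.le_inertia σ₀ (fixed_div hgfix hψfix) hσV S
        (fun P hP => (Finset.mem_filter.1 hP).2) (S.sup fun P => (-E P).toNat)
    have hs : M.ChartReg c L.H s := ⟨hsfix, fun i => (hsV i).1, hsreg⟩
    refine ⟨s ^ (m + 1), ⟨(M.chartRing c L.H).pow_mem hs (m + 1), s ^ (m + 1) * σ₀,
      ⟨fixed_mul (fixed_pow hsfix (m + 1)) (fixed_div hgfix hψfix), fun i => ?_, fun P hP => ?_⟩,
      fun i => ?_⟩, fun i hi => ?_⟩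
    · rw [pow_succ, mul_assoc]
      exact mul_mem (pow_mem (hsV i).1 m) (hsV i).2
    · rcases eq_or_ne s 0 with rfl | hs0
      · exact Or.inl (by rw [zero_pow (Nat.succ_ne_zero m), zero_mul])
      refine Or.inr ?_
      rw [P.ord_mul (pow_ne_zero (m + 1) hs0) hσ0, ← zpow_natCast, P.ord_zpow]
      have hnn := ord_nonneg_of_mem P (hsreg P hP)
      have hle' : (P.ord s : ℤ) ≤ ((m + 1 : ℕ) : ℤ) * P.ord s :=
        le_mul_of_one_le_left hnn (by exact_mod_cast Nat.succ_pos m)
      by_cases hPy : M.sp P = y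
      · rw [hσord P hPy]
        omega
      by_cases hPE : P ∈ E.support
      · have hPS : P ∈ S := Finset.mem_filter.2 ⟨hPE, hPy⟩
        have hle := hsS P hPS hP
        have hsup : (-E P).toNat ≤ S.sup fun P => (-E P).toNat :=
          Finset.le_sup (f := fun P => (-E P).toNat) hPS
        have hEP : E P = P.ord σ₀ + D P := by simp [E]
        omega
      · have hEP : P.ord σ₀ + D P = 0 := by
          rw [Finsupp.notMem_support_iff] at hPE
          simpa [E] using hPE
        omega
    · by_cases hi : M.On y i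
      · refine VCongr.mul_left' (pow_mem (hsV i).1 (m + 1)) ?_
        obtain ⟨d, hd, he⟩ := hψcong i hi
        refine ⟨σ₀ * d, mul_mem (hσV i hi) hd, ?_⟩
        have : g = σ₀ * ψ := by rw [hσ₀, div_mul_cancel₀ _ hψ0]
        conv_lhs => rw [this]
        linear_combination σ₀ * he
      · have hsc : M.VCongr L.π i 1 s 0 := by
          refine (M.vcongr_one_iff L i hsfix (M.fixedFns L.H).zero_mem (hsV i).1 (zero_mem _)).2 ?_
          rw [hsoff i hi (hsV i).1]
          exact (map_zero (M.red i)).symm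
        obtain ⟨d, hd, he⟩ := hsc
        rw [sub_zero, pow_one] at he
        refine ⟨d ^ m * (s * g) - d ^ m * (s * σ₀),
          sub_mem (mul_mem (pow_mem hd m) (mul_mem (hsV i).1 (hgV i)))
            (mul_mem (pow_mem hd m) (hsV i).2), ?_⟩
        rw [pow_succ, show s ^ m = (algebraMap Qb F L.π * d) ^ m by rw [← he]]
        ring
    · rw [M.residueAt_of_mem (pow_mem (hsV i).1 (m + 1))]
      have hr := M.residues_of_chartReg hs hy
      have hmem := M.red_regular y s hr.1 hr.2 i hi (hsV i).1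
      have hpow : M.red i ⟨s ^ (m + 1), pow_mem (hsV i).1 (m + 1)⟩ =
          M.red i ⟨s, (hsV i).1⟩ ^ (m + 1) :=
        map_pow (M.red i) ⟨s, (hsV i).1⟩ (m + 1)
      rw [hpow, ← ConstRed.evalHom_apply _ (pow_mem hmem (m + 1))]
      show (ConstRed.evalHom (M.loc y i)) (⟨_, hmem⟩ ^ (m + 1)) ≠ 0
      rw [map_pow]
      exact pow_ne_zero (m + 1) (hson i hi (hsV i).1)
  -- their residues generate the unit ideal
  let S : Set (Bool → Fb) := (fun s i => M.residueAt i s) '' {s | Good s}
  obtain ⟨n, a, b, haS, hbreg, hbnode, hsum⟩ := M.chart_unit c S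
    (by
      rintro _ ⟨s, hs, rfl⟩ y i hy hi
      have hr := M.residues_of_chartReg hs.1 hy
      show M.residueAt i s ∈ _
      rw [M.residueAt_of_mem (hs.1.2.1 i)]
      exact M.red_regular y s hr.1 hr.2 i hi _)
    (by
      rintro _ ⟨s, hs, rfl⟩ y hy h₀ h₁
      have hr := M.residues_of_chartReg hs.1 hy
      show evalAt _ (M.residueAt false s) = evalAt _ (M.residueAt true s)
      rw [M.residueAt_of_mem (hs.1.2.1 false), M.residueAt_of_mem (hs.1.2.1 true)]
      exact M.red_node y s hr.1 hr.2 h₀ h₁ _ _)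
    (fun y hy => by
      obtain ⟨s, hs, hne⟩ := hloc' y hy
      exact ⟨_, ⟨s, hs, rfl⟩, hne⟩)
  choose s hs hsa using fun j => haS j
  choose e hefix hereg hered using fun j => M.exists_chart_lift c (b j) (hbreg j) (hbnode j)
  choose hsR h hh hcong using fun j => hs j
  have heR : ∀ j, M.ChartReg c L.H (e j) := fun j =>
    ⟨fun σ hσ => hefix j σ (L.le_inertia hσ), fun i => (hered j i).1, hereg j⟩
  set s₁ := ∑ j, e j * s j with hs₁
  have hs₁R : M.ChartReg c L.H s₁ := (M.chartRing c L.H).sum_mem fun j _ =>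
    (M.chartRing c L.H).mul_mem (heR j) (hsR j)
  -- `s₁` is congruent to `1`
  have hone : ∀ i, M.VCongr L.π i 1 1 s₁ := fun i => by
    refine (M.vcongr_one_iff L i (M.fixedFns L.H).one_mem hs₁R.1 (one_mem _) (hs₁R.2.1 i)).2 ?_
    rw [show (⟨s₁, hs₁R.2.1 i⟩ : M.V i) =
      ∑ j, (⟨e j, (heR j).2.1 i⟩ : M.V i) * ⟨s j, (hsR j).2.1 i⟩ from
        Subtype.ext (by simp [hs₁]), map_sum]
    refine ((map_one (M.red i)).trans ?_)
    rw [← hsum i]
    refine Finset.sum_congr rfl fun j _ => ?_
    rw [map_mul, ← hsa j]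
    obtain ⟨_, he'⟩ := hered j i
    show b j i * M.residueAt i (s j) = _
    rw [← he', M.residueAt_of_mem ((hsR j).2.1 i)]
  -- improve to a congruence modulo `π ^ m`
  set q := ∑ l ∈ Finset.range m, (1 - s₁) ^ l with hq
  have hqR : M.ChartReg c L.H q := (M.chartRing c L.H).sum_mem fun l _ =>
    (M.chartRing c L.H).pow_mem ((M.chartRing c L.H).sub_mem (M.chartRing c L.H).one_mem hs₁R) l
  have hgeom : q * s₁ = 1 - (1 - s₁) ^ m := by
    have := geom_sum_mul (1 - s₁) m
    rw [← hq] at this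
    linear_combination -this
  refine ⟨∑ j, q * e j * h j, chartBounded_sum _ _ fun j _ =>
    ChartBounded.mul ((M.chartRing c L.H).mul_mem hqR (heR j)) (hh j), fun i => ?_⟩
  have h1 : M.VCongr L.π i m g (q * s₁ * g) := by
    obtain ⟨d, hd, he⟩ := hone i
    rw [pow_one] at he
    refine ⟨d ^ m * g, mul_mem (pow_mem hd m) (hgV i), ?_⟩
    rw [hgeom, show (1 - s₁) ^ m = (algebraMap Qb F L.π * d) ^ m by rw [← he]]
    ring
  refine h1.trans' ?_
  rw [hs₁, Finset.mul_sum, Finset.sum_mul]
  refine vcongr_sum _ _ _ fun j _ => ?_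
  rw [show q * (e j * s j) * g = q * e j * (s j * g) by ring]
  exact VCongr.mul_left' (mul_mem (hqR.2.1 i) ((heR j).2.1 i)) (hcong j i)

/-- Multiplying by a high power of the coordinate removes all excess poles. -/
theorem exists_pow_bounded (c : Bool) (H : Subgroup Γℚ) (D : Divisor Qb F) {f : F}
    (hfix : M.Fixed H f) (hV : ∀ i, f ∈ M.V i)
    (hb : ∀ P : Place Qb F, M.coord c ∈ P.toValuationSubring →
      M.coord (!c) ∈ P.toValuationSubring → f = 0 ∨ -D P ≤ P.ord f) :
    ∃ K : ℕ, ∀ k ≥ K, M.ChartBounded c H D (M.coord c ^ k * f) := by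
  classical
  rcases eq_or_ne f 0 with rfl | hf
  · exact ⟨0, fun k _ => by rw [mul_zero]; exact chartBounded_zero⟩
  let E : Divisor Qb F := divisorOf f + D
  refine ⟨E.support.sup fun P => (-E P).toNat, fun k hk => ⟨fixed_mul
    (fixed_pow (M.coord_fixed c H) k) hfix,
    fun i => mul_mem (pow_mem (M.mem_of_valuation_eq_one (M.coord_valuation c i)) k) (hV i),
    fun P hP => Or.inr ?_⟩⟩
  rw [P.ord_mul (pow_ne_zero k (M.coord_ne_zero c)) hf, ← zpow_natCast, P.ord_zpow]
  have hnn := ord_nonneg_of_mem P hP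
  have hEP : E P = P.ord f + D P := by simp [E]
  have hkE : -E P ≤ (k : ℤ) := by
    by_cases hPE : P ∈ E.support
    · have h1 : (-E P).toNat ≤ E.support.sup fun P => (-E P).toNat :=
        Finset.le_sup (f := fun P => (-E P).toNat) hPE
      omega
    · rw [Finsupp.notMem_support_iff] at hPE
      omega
  by_cases hP' : M.coord (!c) ∈ P.toValuationSubring
  · have := (hb P hP hP').resolve_left hf
    nlinarith
  · have h1 : 1 ≤ P.ord (M.coord c) := by
      by_contra hlt
      refine hP' ?_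
      have hinv : M.coord (!c) = (M.coord c)⁻¹ := by cases c <;> simp [coord]
      rw [hinv]
      exact mem_of_ord_nonneg P (by rw [P.ord_inv]; omega)
    have h2 : (k : ℤ) ≤ (k : ℤ) * P.ord (M.coord c) :=
      le_mul_of_one_le_right (by positivity) h1
    omega

theorem coord_not (c : Bool) : M.coord (!c) = (M.coord c)⁻¹ := by
  cases c <;> simp [coord]

/-- The fixed constants form a field. -/
abbrev constField (L : Level p A) : Subfield Qb := fixedSubfield L.H

/-- Functions fixed by a level with poles bounded by `D` on a chart. -/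
def boundedSpace (L : Level p A) (D : Divisor Qb F) (c : Bool) :
    Submodule (constField L) F where
  carrier := {f | M.Fixed L.H f ∧
    ∀ P : Place Qb F, M.coord c ∈ P.toValuationSubring → f = 0 ∨ -D P ≤ P.ord f}
  zero_mem' := ⟨(M.fixedFns L.H).zero_mem, fun _ _ => Or.inl rfl⟩
  add_mem' := fun ha hb => ⟨(M.fixedFns L.H).add_mem ha.1 hb.1,
    fun P hP => ord_sum_le (ha.2 P hP) (hb.2 P hP)⟩
  smul_mem' := fun a f hf => by
    have e : a • f = algebraMap Qb F (a : Qb) * f := by
      rw [Subfield.smul_def, Algebra.smul_def]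
    rw [e]
    refine ⟨fixed_mul (M.fixed_algebraMap (mem_fixedSubfield.1 a.2)) hf.1, fun P hP => ?_⟩
    rcases eq_or_ne (algebraMap Qb F (a : Qb)) 0 with h | h
    · exact Or.inl (by rw [h, zero_mul])
    refine (hf.2 P hP).imp (fun h0 => by rw [h0, mul_zero]) fun h0 => ?_
    rcases eq_or_ne f 0 with rfl | hf0
    · simpa using h0
    rw [P.ord_mul h hf0, ord_algebraMap]
    omega

/-- A polynomial expression in the coordinate with fixed integral coefficients. -/
theorem exists_coeffs {c : Bool} {H : Subgroup Γℚ} {x : F}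
    (hx : x ∈ Subring.closure
      ({x : F | ∃ a ∈ A, (∀ σ ∈ H, σ a = a) ∧ x = algebraMap Qb F a} ∪ {M.coord c})) :
    ∃ P : Polynomial Qb, (∀ n, P.coeff n ∈ fixedInts A H) ∧
      x = P.eval₂ (algebraMap Qb F) (M.coord c) := by
  induction hx using Subring.closure_induction with
  | mem y hy =>
    rcases hy with ⟨a, ha, hfix, rfl⟩ | hy
    · exact ⟨Polynomial.C a, fun n => by
        rw [Polynomial.coeff_C]; split_ifs
        · exact ⟨ha, hfix⟩
        · exact zero_mem _, by rw [Polynomial.eval₂_C]⟩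
    · exact ⟨Polynomial.X, fun n => by
        rw [Polynomial.coeff_X]; split_ifs
        · exact one_mem _
        · exact zero_mem _, by rw [Polynomial.eval₂_X]; exact hy⟩
  | zero => exact ⟨0, fun n => by simp [zero_mem], by simp⟩
  | one => exact ⟨1, fun n => by
      rw [Polynomial.coeff_one]; split_ifs
      · exact one_mem _
      · exact zero_mem _, by simp⟩
  | add x y _ _ hx hy =>
    obtain ⟨P, hP, rfl⟩ := hx
    obtain ⟨Q, hQ, rfl⟩ := hy
    exact ⟨P + Q, fun n => by rw [Polynomial.coeff_add]; exact add_mem (hP n) (hQ n),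
      by rw [Polynomial.eval₂_add]⟩
  | neg x _ hx =>
    obtain ⟨P, hP, rfl⟩ := hx
    exact ⟨-P, fun n => by rw [Polynomial.coeff_neg]; exact neg_mem (hP n),
      by rw [Polynomial.eval₂_neg]⟩
  | mul x y _ _ hx hy =>
    obtain ⟨P, hP, rfl⟩ := hx
    obtain ⟨Q, hQ, rfl⟩ := hy
    exact ⟨P * Q, fun n => by
      rw [Polynomial.coeff_mul]; exact sum_mem fun x _ => mul_mem (hP _) (hQ _),
      by rw [Polynomial.eval₂_mul]⟩

/-- **Splitting on the overlap**, up to a finite family. -/
theorem exists_splitting (L : Level p A) (D : Divisor Qb F) :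
    ∃ (ι : Type u) (_ : Fintype ι) (lam : ι → F), (∀ e, M.Fixed L.H (lam e)) ∧
      ∀ d, M.Fixed L.H d → (∀ i, d ∈ M.V i) →
        (∀ P : Place Qb F, M.coord false ∈ P.toValuationSubring →
          M.coord true ∈ P.toValuationSubring → d = 0 ∨ -D P ≤ P.ord d) →
        ∃ (a b : F) (x : ι → Qb), M.ChartBounded false L.H D a ∧ M.ChartBounded true L.H D b ∧
          (∀ e, x e ∈ fixedInts A L.H) ∧ d = a + b + ∑ e, algebraMap Qb F (x e) * lam e := by
  classical
  obtain ⟨G, hG, hGspan⟩ :=
    M.chart_finite false L.H L.le_inertia L.π L.ne_zero L.fixed L.value D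
  have hG' : ∀ a ∈ G, M.ChartBounded false L.H D a := fun a ha => hG a ha
  choose! K hK using fun a (ha : a ∈ G) => M.exists_pow_bounded true L.H D (hG' a ha).1
    (hG' a ha).2.1 (fun P _ hP => (hG' a ha).2.2 P hP)
  set N := G.sup K with hN
  refine ⟨↥G × Fin N, inferInstance, fun e => M.coord true ^ (e.2 : ℕ) * (e.1 : F),
    fun e => fixed_mul (fixed_pow (M.coord_fixed true L.H) _) (hG' _ e.1.2).1,
    fun d hd hdV hdb => ?_⟩
  obtain ⟨j, hj⟩ := M.exists_pow_bounded false L.H D hd hdV hdb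
  have hmem := hGspan (M.coord false ^ j * d) (hj j le_rfl).1 (hj j le_rfl).2.1
    (fun P hP => (hj j le_rfl).2.2 P hP)
  obtain ⟨r, hr⟩ := Submodule.mem_span_finset'.1 hmem
  choose Q hQc hQe using fun a => M.exists_coeffs (c := false) (H := L.H) (r a).2
  have ht : M.coord false ≠ 0 := M.coord_ne_zero false
  have hu : M.coord true = (M.coord false)⁻¹ := M.coord_not false
  -- the terms `coefficient * t ^ (n - j) * a`
  let T : ↥G → ℕ → F := fun a n =>
    algebraMap Qb F ((Q a).coeff n) * (M.coord false ^ ((n : ℤ) - j) * (a : F))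
  have hdT : d = ∑ a : ↥G, ∑ n ∈ (Q a).support, T a n := by
    have h1 : d = (M.coord false ^ j)⁻¹ * (M.coord false ^ j * d) := by
      rw [inv_mul_cancel_left₀ (pow_ne_zero j ht)]
    rw [h1, ← hr, Finset.mul_sum]
    refine Finset.sum_congr rfl fun a _ => ?_
    rw [Subring.smul_def, smul_eq_mul, hQe a, Polynomial.eval₂_eq_sum, Polynomial.sum,
      Finset.sum_mul, Finset.mul_sum]
    refine Finset.sum_congr rfl fun n _ => ?_
    simp only [T]
    rw [zpow_sub₀ ht, zpow_natCast, zpow_natCast, div_eq_mul_inv]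
    ring
  have hsplit : ∀ a : ↥G, ∀ n, ∃ (u v : F) (x : ↥G × Fin N → Qb),
      M.ChartBounded false L.H D u ∧ M.ChartBounded true L.H D v ∧
        (∀ e, x e ∈ fixedInts A L.H) ∧
          T a n = u + v + ∑ e, algebraMap Qb F (x e) *
            (M.coord true ^ (e.2 : ℕ) * (e.1 : F)) := by
    intro a n
    have hcoef : ∀ c, M.ChartReg c L.H (algebraMap Qb F ((Q a).coeff n)) := fun c =>
      M.chartReg_algebraMap c (hQc a n).1 (hQc a n).2
    rcases le_or_gt j n with hjn | hjn
    · refine ⟨T a n, 0, fun _ => 0, ChartBounded.mul (hcoef false) ?_, chartBounded_zero,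
        fun _ => zero_mem _, by simp⟩
      obtain ⟨l, rfl⟩ := Nat.exists_eq_add_of_le hjn
      rw [show ((j + l : ℕ) : ℤ) - j = (l : ℤ) by push_cast; ring, zpow_natCast]
      exact ChartBounded.mul ((M.chartRing false L.H).pow_mem (M.chartReg_coord false L.H) l)
        (hG' _ a.2)
    · obtain ⟨l, rfl⟩ := Nat.exists_eq_add_of_le hjn.le
      have hT : T a n = algebraMap Qb F ((Q a).coeff n) * (M.coord true ^ l * (a : F)) := by
        simp only [T]
        rw [show (n : ℤ) - ((n + l : ℕ) : ℤ) = -(l : ℤ) by push_cast; ring, zpow_neg, hu,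
          inv_pow, zpow_natCast]
      rcases lt_or_ge l N with hl | hl
      · refine ⟨0, 0, Pi.single (a, ⟨l, hl⟩) ((Q a).coeff n), chartBounded_zero,
          chartBounded_zero, fun e => ?_, ?_⟩
        · rw [Pi.single_apply]
          split_ifs
          · exact hQc a n
          · exact zero_mem _
        · rw [hT, Finset.sum_eq_single (a, ⟨l, hl⟩) (fun e _ he => by
            rw [Pi.single_eq_of_ne he, map_zero, zero_mul])
            (fun h => absurd (Finset.mem_univ _) h), Pi.single_eq_same]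
          simp
      · refine ⟨0, T a n, fun _ => 0, chartBounded_zero, ?_, fun _ => zero_mem _, by simp⟩
        rw [hT]
        exact ChartBounded.mul (hcoef true)
          (hK _ a.2 l ((Finset.le_sup (f := K) a.2).trans hl))
  choose u v x hu' hv' hx' he using hsplit
  refine ⟨∑ a : ↥G, ∑ n ∈ (Q a).support, u a n, ∑ a : ↥G, ∑ n ∈ (Q a).support, v a n,
    fun e => ∑ a : ↥G, ∑ n ∈ (Q a).support, x a n e,
    chartBounded_sum _ _ fun a _ => chartBounded_sum _ _ fun n _ => hu' a n,
    chartBounded_sum _ _ fun a _ => chartBounded_sum _ _ fun n _ => hv' a n,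
    fun e => sum_mem fun a _ => sum_mem fun n _ => hx' a n e, ?_⟩
  rw [hdT]
  simp only [map_sum, Finset.sum_mul]
  rw [Finset.sum_congr rfl fun a _ => Finset.sum_congr rfl fun n _ => he a n]
  simp only [Finset.sum_add_distrib]
  congr 1
  conv_rhs => rw [Finset.sum_comm]
  refine Finset.sum_congr rfl fun a _ => ?_
  rw [Finset.sum_comm]

/-- **Separatedness.** -/
theorem isPrincipal_of_forall_trivial (hp : p.Prime) (L : Level p A) (D : Divisor Qb F)
    (hdeg : Divisor.degree D = 0) (hD : M.DivFixed L.H D) (h : ∀ m, M.Trivial L D m) :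
    D.IsPrincipal := by
  classical
  by_contra hnp
  set K := constField L
  set B := fun c => M.boundedSpace L D c
  -- the bounded spaces of the two charts are independent
  have hdisj : ∀ f, f ∈ B false → f ∈ B true → f = 0 := by
    intro f h₀ h₁
    by_contra hf
    refine hnp ⟨f⁻¹, inv_ne_zero hf, fun P => ?_⟩
    have hE : (0 : Divisor Qb F) ≤ divisorOf f + D := fun P => by
      rw [Finsupp.add_apply, divisorOf_apply, Finsupp.zero_apply]
      have : M.coord false ∈ P.toValuationSubring ∨ M.coord true ∈ P.toValuationSubring := by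
        rw [show M.coord true = (M.coord false)⁻¹ from M.coord_not false]
        exact P.toValuationSubring.mem_or_inv_mem _
      rcases this with hP | hP
      · have := (h₀.2 P hP).resolve_left hf; omega
      · have := (h₁.2 P hP).resolve_left hf; omega
    have h0 : divisorOf f + D = 0 := by
      have hd : Divisor.degree (divisorOf f + D) = 0 := by
        rw [map_add, degree_divisorOf, hdeg, add_zero]
      rw [degree_eq_sum] at hd
      refine Finsupp.ext fun v => ?_
      by_contra hv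
      have := (Finset.sum_eq_zero_iff_of_nonneg fun v _ =>
        mul_nonneg (hE v) (Int.natCast_nonneg _)).1 hd v (Finsupp.mem_support_iff.2 hv)
      rw [deg_eq_one v, Nat.cast_one, mul_one] at this
      exact hv this
    have hP := DFunLike.congr_fun h0 P
    rw [Finsupp.add_apply, divisorOf_apply, Finsupp.zero_apply] at hP
    rw [P.ord_inv]
    omega
  let sumMap : (B false × B true) →ₗ[K] F := (B false).subtype.coprod (B true).subtype
  have hinj : LinearMap.ker sumMap = ⊥ := by
    rw [LinearMap.ker_eq_bot']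
    rintro ⟨u, v⟩ huv
    have he : (u : F) = -(v : F) := eq_neg_of_add_eq_zero_left huv
    have h0 := hdisj _ u.2 (he ▸ (B true).neg_mem v.2)
    refine Prod.ext (Subtype.ext h0) (Subtype.ext ?_)
    simpa [h0, eq_comm] using he
  obtain ⟨proj, hproj⟩ := sumMap.exists_leftInverse_of_injective hinj
  obtain ⟨ι, hι, lam, hlam, hsplit⟩ := M.exists_splitting L D
  let w : ι → F := fun e => ((proj (lam e)).1 : F)
  -- a bound on the orders of `w`
  obtain ⟨k, hk⟩ : ∃ k : ℕ, ∀ e, w e = 0 ∨ algebraMap Qb F L.π ^ k * w e ∈ M.V false := by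
    have hone : ∀ e, ∃ k : ℕ, ∀ l ≥ k, w e = 0 ∨ algebraMap Qb F L.π ^ l * w e ∈ M.V false := by
      intro e
      rcases eq_or_ne (w e) 0 with hw | hw
      · exact ⟨0, fun _ _ => Or.inl hw⟩
      obtain ⟨n, hn⟩ := M.exists_vord L false hw (proj (lam e)).1.2.1
      refine ⟨(-n).toNat, fun l hl => Or.inr ?_⟩
      rw [← ValuationSubring.valuation_le_one_iff, map_mul, map_pow, hn, ← zpow_natCast,
        ← zpow_add₀ (M.valuation_pi_ne_zero L false)]
      obtain ⟨r, hr⟩ := Int.eq_ofNat_of_zero_le (show 0 ≤ (l : ℤ) + n by omega)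
      rw [hr, zpow_natCast]
      exact pow_le_one₀ zero_le (M.valuation_pi_lt_one L false).le
    choose k hk using hone
    exact ⟨Finset.univ.sup k, fun e => hk e _ (Finset.le_sup (Finset.mem_univ e))⟩
  obtain ⟨g, hg0, hgfix, hgu, hloc⟩ := h (k + 1)
  have hgV : ∀ i, g ∈ M.V i := fun i => M.mem_of_valuation_eq_one (hgu i)
  obtain ⟨h', hh', hc'⟩ :=
    M.exists_chartBounded_congr L D (Nat.le_add_left 1 k) hg0 hgfix hgV hloc false
  obtain ⟨h'', hh'', hc''⟩ :=
    M.exists_chartBounded_congr L D (Nat.le_add_left 1 k) hg0 hgfix hgV hloc true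
  obtain ⟨d, hd, hdV, hde⟩ :=
    VCongr.exists_eq M hh'.1 hh''.1 fun i => (hc' i).symm'.trans' (hc'' i)
  have hπ : algebraMap Qb F L.π ^ (k + 1) ≠ 0 := pow_ne_zero _ ((map_ne_zero _).2 L.ne_zero)
  have hdb : ∀ P : Place Qb F, M.coord false ∈ P.toValuationSubring →
      M.coord true ∈ P.toValuationSubring → d = 0 ∨ -D P ≤ P.ord d := by
    intro P h₀ h₁
    have h2 := ord_sum_le (hh'.2.2 P h₀) (hh''.neg.2.2 P h₁)
    rw [← sub_eq_add_neg, hde] at h2
    rcases eq_or_ne d 0 with h | h
    · exact Or.inl h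
    refine Or.inr ?_
    have h3 := h2.resolve_left (mul_ne_zero hπ h)
    rwa [P.ord_mul hπ h, ← map_pow, ord_algebraMap, zero_add] at h3
  obtain ⟨a, b, x, ha, hb, hx, hdx⟩ := hsplit d hd hdV hdb
  -- the part of `h' - h''` in the finite family
  set c₁ := h' - algebraMap Qb F L.π ^ (k + 1) * a with hc₁
  set c₂ := -h'' - algebraMap Qb F L.π ^ (k + 1) * b with hc₂
  have hπK : L.π ^ (k + 1) ∈ K := pow_mem (mem_fixedSubfield.2 L.fixed) _
  have hπB : ∀ c, ∀ f ∈ B c, algebraMap Qb F L.π ^ (k + 1) * f ∈ B c := fun c f hf => by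
    have := (B c).smul_mem ⟨_, hπK⟩ hf
    rwa [Subfield.smul_def, Algebra.smul_def, map_pow] at this
  have hc₁B : c₁ ∈ B false :=
    (B false).sub_mem ⟨hh'.1, hh'.2.2⟩ (hπB false a ⟨ha.1, ha.2.2⟩)
  have hc₂B : c₂ ∈ B true :=
    (B true).sub_mem ((B true).neg_mem ⟨hh''.1, hh''.2.2⟩) (hπB true b ⟨hb.1, hb.2.2⟩)
  have hxK : ∀ e, L.π ^ (k + 1) * x e ∈ K := fun e =>
    mul_mem hπK (mem_fixedSubfield.2 (hx e).2)
  have hsum : sumMap (⟨c₁, hc₁B⟩, ⟨c₂, hc₂B⟩) = ∑ e, (⟨_, hxK e⟩ : K) • lam e := by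
    simp only [Algebra.smul_def]
    show c₁ + c₂ = ∑ e, algebraMap Qb F (L.π ^ (k + 1) * x e) * lam e
    simp only [map_mul, map_pow, mul_assoc, ← Finset.mul_sum]
    rw [hc₁, hc₂]
    linear_combination hde + algebraMap Qb F L.π ^ (k + 1) * hdx
  have hc₁eq : c₁ = ∑ e, algebraMap Qb F (L.π ^ (k + 1) * x e) * w e := by
    have h1 := congrArg proj hsum
    rw [← LinearMap.comp_apply, hproj, LinearMap.id_apply, map_sum] at h1
    have h2 := congrArg (fun z : B false × B true => (z.1 : F)) h1
    simp only [map_smul, Prod.fst_sum, Submodule.coe_sum, Prod.smul_fst, Submodule.coe_smul] at h2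
    simp only [Algebra.smul_def] at h2
    exact h2
  have hlt : (M.V false).valuation c₁ < 1 := by
    rw [hc₁eq]
    refine (M.V false).valuation.map_sum_lt one_ne_zero fun e _ => ?_
    rcases hk e with hw | hw
    · rw [hw, mul_zero, map_zero]; exact one_pos
    have e1 : algebraMap Qb F (L.π ^ (k + 1) * x e) * w e = algebraMap Qb F L.π *
        (algebraMap Qb F (x e) * (algebraMap Qb F L.π ^ k * w e)) := by
      rw [map_mul, map_pow]; ring
    rw [e1, map_mul]
    exact mul_lt_one_of_lt_of_le (M.valuation_pi_lt_one L false)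
      ((ValuationSubring.valuation_le_one_iff _ _).2
        (mul_mem ((M.algebraMap_mem_iff false _).2 (hx e).1) hw))
  obtain ⟨d', hd', he'⟩ := hc' false
  have hgc : g = c₁ + algebraMap Qb F L.π * (algebraMap Qb F L.π ^ k * (a + d')) := by
    rw [hc₁]
    linear_combination he'
  refine (ne_of_lt ?_) (hgu false)
  rw [hgc]
  refine (M.V false).valuation.map_add_lt hlt ?_
  rw [map_mul]
  exact mul_lt_one_of_lt_of_le (M.valuation_pi_lt_one L false)
    ((ValuationSubring.valuation_le_one_iff _ _).2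
      (mul_mem (pow_mem (M.pi_mem L false) k) (add_mem (ha.2.1 false) hd')))

end TwoCompData

end Fermat.Agent.LevelP
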