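import Fermat.Agent.LevelP.Model.Basic
import Fermat.Agent.LevelP.Model.Slope
import Fermat.Agent.LevelP.Model.Nodal

/-!
# The slopes of a class moved by `τ` agree modulo `p` at all nodes

Owner: helper34.
-/

set_option autoImplicit false

noncomputable section

namespace Fermat.Agent.LevelP

open AlgebraicCurve Fermat.Agent.Curve IsLocalRing

local notation "Qb" => AlgebraicClosure ℚ
local notation "Γℚ" => (AlgebraicClosure ℚ ≃ₐ[ℚ] AlgebraicClosure ℚ)

variable {p : ℕ} {A : ValuationSubring Qb} {F : Type*} [Field F] [Algebra Qb F]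
  [IsFunctionField1 Qb F] {Fb : Type*} [Field Fb] [Algebra (ResidueField A) Fb]
  [IsFunctionField1 (ResidueField A) Fb] [IsAlgClosed (ResidueField A)]
  (M : TwoCompData p A F Fb)

omit [IsFunctionField1 Qb F] [IsFunctionField1 (ResidueField A) Fb]
  [IsAlgClosed (ResidueField A)] in
/-- Inertia fixing the valuation of the uniformiser preserves orders along the components. -/
theorem TwoCompData.VOrd.act {M : TwoCompData p A F Fb} {τ : Γℚ}
    (hτ : τ ∈ A.inertiaSubgroupIn ℚ) {π : Qb} (hπ : π ≠ 0)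
    (hτπ : A.valuation (τ π) = A.valuation π) {i : Bool} {f : F} {n : ℤ}
    (h : M.VOrd π i f n) : M.VOrd π i (M.act τ • f) n := by
  set c := algebraMap Qb F (π ^ n) with hc
  have hc0 : c ≠ 0 := (map_ne_zero _).2 (zpow_ne_zero n hπ)
  have hcv : M.VOrd π i c n := M.vord_algebraMap (map_zpow₀ _ _ _)
  have h1 : (M.V i).valuation (f / c) = 1 := by
    have := h.div hcv hπ
    rw [sub_self] at this
    exact this.valuation_eq_one
  have h2 : f / c ∈ M.V i := M.mem_of_valuation_eq_one h1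
  have h3 : (f / c)⁻¹ ∈ M.V i := M.mem_of_valuation_eq_one (by rw [map_inv₀, h1, inv_one])
  have h4 := (M.act_mem_iff i τ hτ _).2 h2
  have h5 := (M.act_mem_iff i τ hτ _).2 h3
  rw [smul_inv''] at h5
  rw [← ValuationSubring.valuation_le_one_iff] at h4 h5
  have hne : M.act τ • (f / c) ≠ 0 :=
    (smul_ne_zero_iff_ne _).2 (div_ne_zero (h.ne_zero hπ) hc0)
  rw [map_inv₀, inv_le_one₀ (zero_lt_iff.2 ((map_ne_zero _).2 hne))] at h5
  have hu : M.VOrd π i (M.act τ • (f / c)) 0 :=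
    TwoCompData.vord_zero_iff.2 (le_antisymm h4 h5)
  have hτc : M.VOrd π i (M.act τ • c) n := by
    rw [hc, SemilinearAut.smul_algebraMap, M.baseAut_act]
    exact M.vord_algebraMap (by rw [map_zpow₀, map_zpow₀, hτπ])
  have := hu.mul hτc hπ
  rwa [← smul_mul', div_mul_cancel₀ _ hc0, zero_add] at this

omit [IsFunctionField1 Qb F] [IsFunctionField1 (ResidueField A) Fb]
  [IsAlgClosed (ResidueField A)] in
/-- The translate of a local generator generates the translated divisor. -/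
theorem TwoCompData.LocalGen.act {M : TwoCompData p A F Fb} {τ : Γℚ}
    (hτ : τ ∈ A.inertiaSubgroupIn ℚ) {y : M.Pt} {D : Divisor Qb F} {ψ : F}
    (h : M.LocalGen y D ψ) : M.LocalGen y (M.act τ • D) (M.act τ • ψ) := by
  refine ⟨(smul_ne_zero_iff_ne _).2 h.1, fun P hP => ?_⟩
  have hP' : M.sp ((M.act τ)⁻¹ • P) = y := by
    rw [← map_inv, M.sp_act τ⁻¹ (inv_mem hτ), hP]
  rw [SemilinearAut.divisor_smul_apply, ← h.2 _ hP']
  have h' := SemilinearAut.ord_smul (M.act τ) ((M.act τ)⁻¹ • P) ψ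
  rwa [smul_inv_smul] at h'

/-- At a node the slope of a fixed function without tube divisor is divisible by `p` when the
ramification index is. -/
theorem TwoCompData.dvd_of_slope (hp : p.Prime) (hp5 : 5 ≤ p) (L : Level p A) (he : p ∣ L.e) {y : M.Pt}
    (hy : M.IsNode y) {X : F} (hfix : M.Fixed L.H X) (hX : M.LocalGen y 0 X) {n₀ n₁ : ℤ}
    (h₀ : M.VOrd L.π false X n₀) (h₁ : M.VOrd L.π true X n₁) : (p : ℤ) ∣ n₁ - n₀ := by
  have h := M.slope_eq hp L hy hfix hX h₀ h₁
  have hdvd : (p : ℤ) ∣ (n₁ - n₀) * M.r y :=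
    h ▸ dvd_mul_of_dvd_left (dvd_mul_of_dvd_right (Int.natCast_dvd_natCast.2 he) _) _
  refine ((Nat.prime_iff_prime_int.1 hp).dvd_or_dvd hdvd).resolve_right fun hr => ?_
  exact M.not_dvd_r hp5 y hy.1 hy.2 (dvd_mul_of_dvd_right (Int.natCast_dvd_natCast.1 hr) _)

omit [Algebra Qb F] [IsFunctionField1 Qb F] [IsFunctionField1 (ResidueField A) Fb]
  [IsAlgClosed (ResidueField A)] in
/-- `(1 + η) ^ n ≡ 1 + n η` when `η²` is small. -/
theorem NodalModel.congr_one_add_zpow {ι : Type*} (N : NodalModel F ι) (k : Bool) {m : ℕ} {η : F}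
    (hη : η ∈ N.O) (hinv : (1 + η)⁻¹ ∈ N.O) (h0 : 1 + η ≠ 0) (hsq : N.Small m (η * η)) (n : ℤ) :
    N.Congr k m ((1 + η) ^ n) (1 + n * η) := by
  obtain ⟨e, he, hee⟩ := hsq
  have hV := N.O_le_V k
  have h1 : 1 + η ∈ N.V k := add_mem (one_mem _) (hV hη)
  have hn : ∀ l : ℤ, 1 + (l : F) * η ∈ N.V k := fun l =>
    add_mem (one_mem _) (mul_mem (intCast_mem _ _) (hV hη))
  induction n using Int.induction_on with
  | zero => simpa using N.congr_refl k m 1
  | succ l ih =>
    rw [zpow_add_one₀ h0]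
    refine (ih.mul (N.congr_refl k m (1 + η)) h1 (hn _)).trans
      ⟨(l : F) * e, mul_mem (natCast_mem _ _) (hV he), ?_⟩
    push_cast
    linear_combination (l : F) * hee
  | pred l ih =>
    rw [zpow_sub_one₀ h0]
    refine (ih.mul (N.congr_refl k m (1 + η)⁻¹) (hV hinv) (hn _)).trans
      ⟨((l : F) + 1) * (1 + η)⁻¹ * e,
        mul_mem (mul_mem (add_mem (natCast_mem _ _) (one_mem _)) (hV hinv)) (hV he), ?_⟩
    push_cast
    field_simp
    linear_combination ((l : F) + 1) * hee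

/-- **Step b.** -/
theorem TwoCompData.jump_uniform (hp : p.Prime) (hp5 : 5 ≤ p) (hA : A.LiesOverPrime p)
    (L₁ L : Level p A) (he₁ : L₁.e = p - 1) (he : L.e = p * (p - 1)) (hle : L.H ≤ L₁.H)
    (τ : Γℚ) (hτ : τ ∈ L₁.H) (hnorm : ∀ σ ∈ L.H, τ⁻¹ * σ * τ ∈ L.H)
    (hgen : ∀ σ ∈ L₁.H, ∃ n : ℤ, τ ^ n * σ ∈ L.H)
    (η : Qb) (b : ℕ) (hb : 1 ≤ b) (hbp : b < p) (hτπ : τ L.π = L.π * (1 + η))
    (hη : A.valuation η = A.valuation L.π ^ b)
    (hmove : ∀ z : Qb, (∀ σ ∈ L.H, σ z = z) → z ∈ A →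
      A.valuation (τ z - z) ≤ A.valuation L.π ^ (b + 1))
    (D : Divisor Qb F) (hdeg : Divisor.degree D = 0) (hpD : Divisor.IsPrincipal ((p : ℤ) • D))
    (hDfix : M.DivFixed L.H D)
    (hfix₁ : ∀ σ ∈ L₁.H,
      Divisor.IsPrincipal (M.act σ • (M.act τ • D - D) - (M.act τ • D - D)))
    {y y' : M.Pt} (hy : M.IsNode y) (hy' : M.IsNode y')
    {ψ ψ' : F} (hψ : M.LocalGen y D ψ) (hψf : M.Fixed L.H ψ)
    (hψ' : M.LocalGen y' D ψ') (hψf' : M.Fixed L.H ψ')
    {n₀ n₁ n₀' n₁' : ℤ} (h₀ : M.VOrd L.π false ψ n₀) (h₁ : M.VOrd L.π true ψ n₁)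
    (h₀' : M.VOrd L.π false ψ' n₀') (h₁' : M.VOrd L.π true ψ' n₁') :
    (p : ℤ) ∣ (n₁ - n₀) - (n₁' - n₀') := by
  have hπ0 : L.π ≠ 0 := L.ne_zero
  have hπF : algebraMap Qb F L.π ≠ 0 := (map_ne_zero _).2 hπ0
  have hvπ : A.valuation L.π ≠ 0 := L.valuation_ne_zero
  have he' : L.e = p * L₁.e := by rw [he, he₁]
  have hpe : p ∣ L.e := Dvd.intro _ he.symm
  have hτI : τ ∈ A.inertiaSubgroupIn ℚ := L₁.le_inertia hτ
  set N := M.nodal hp hA L with hN
  -- the constant `η`
  have hτπfix : ∀ σ ∈ L.H, σ (τ L.π) = τ L.π := fun σ hσ => by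
    have h := L.fixed _ (hnorm σ hσ)
    apply τ⁻¹.injective
    simpa [AlgEquiv.mul_apply, AlgEquiv.aut_inv] using h
  have hηdef : η = τ L.π / L.π - 1 := by
    rw [hτπ, mul_div_cancel_left₀ _ hπ0, add_sub_cancel_left]
  have hηfix : ∀ σ ∈ L.H, σ η = η := fun σ hσ => by
    rw [hηdef, map_sub, map_div₀, hτπfix σ hσ, L.fixed σ hσ, map_one]
  have hηlt : A.valuation η < 1 := by
    rw [hη]
    exact pow_lt_one₀ zero_le L.lt_one (by omega)
  have hηA : η ∈ A := (A.valuation_le_one_iff _).1 hηlt.le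
  have hη1 : A.valuation (1 + η) = 1 := by
    rw [Valuation.map_add_eq_of_lt_left _ (by rwa [map_one]), map_one]
  have hη0 : 1 + η ≠ 0 := (map_ne_zero A.valuation).1 (by rw [hη1]; exact one_ne_zero)
  have hτv : A.valuation (τ L.π) = A.valuation L.π := by rw [hτπ, map_mul, hη1, mul_one]
  -- the descended class of `τ D - D`
  obtain ⟨E, hEfix, hEprinc⟩ := M.descend_class L₁.H L₁.le_inertia (M.act τ • D - D)
    (by rw [map_sub, SemilinearAut.degree_smul, sub_self]) hfix₁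
  obtain ⟨k₀, hh0, hhfix, hhord⟩ := M.descend_principal L.H L.le_inertia _
    (fun σ hσ => by
      rw [smul_sub, smul_sub, hEfix σ (hle hσ), hDfix σ hσ,
        TwoCompData.divFixed_act hnorm hDfix σ hσ]) hEprinc
  obtain ⟨a₀, ha₀⟩ := M.exists_vord L false hh0 hhfix
  obtain ⟨h, hne, hfx, hord, hv₀, m, hv₁⟩ : ∃ h : F, h ≠ 0 ∧ M.Fixed L.H h ∧
      (∀ P, P.ord h = E P - ((M.act τ • D) P - D P)) ∧ M.VOrd L.π false h 0 ∧
      ∃ m, M.VOrd L.π true h m := by
    have hc : algebraMap Qb F (L.π ^ a₀) ≠ 0 := (map_ne_zero _).2 (zpow_ne_zero _ hπ0)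
    have hfx : M.Fixed L.H (k₀ / algebraMap Qb F (L.π ^ a₀)) :=
      TwoCompData.fixed_div hhfix
        (M.fixed_algebraMap fun σ hσ => by rw [map_zpow₀, L.fixed σ hσ])
    refine ⟨_, div_ne_zero hh0 hc, hfx, fun P => ?_, ?_,
      M.exists_vord L true (div_ne_zero hh0 hc) hfx⟩
    · rw [ord_div P hh0 hc, ord_algebraMap, sub_zero, ← hhord P, Finsupp.sub_apply,
        Finsupp.sub_apply]
    · have := ha₀.div (M.vord_algebraMap (π := L.π) (i := false) (map_zpow₀ _ L.π a₀)) hπ0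
      rwa [sub_self] at this
  -- local generators
  choose ψz hψzf hψzg using fun z => M.exists_localGen hp L D hDfix z
  choose νz hνz using fun z k => M.exists_vord L k (hψzg z).1 (hψzf z)
  choose sz hszf hszg using fun z => M.exists_localGen hp L₁ E hEfix z
  choose oz hoz using fun z k => M.exists_vord L₁ k (hszg z).1 (hszf z)
  have hozL : ∀ z k, M.VOrd L.π k (sz z) (p * oz z k) := fun z k => (hoz z k).of_tame he'
  -- the quotients `τ ψ / ψ`
  have hρf : ∀ z, M.Fixed L.H (M.act τ • ψz z / ψz z) := fun z =>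
    TwoCompData.fixed_div (TwoCompData.fixed_act hnorm (hψzf z)) (hψzf z)
  have hρv : ∀ z k, M.VOrd L.π k (M.act τ • ψz z / ψz z) 0 := fun z k => by
    simpa using ((hνz z k).act hτI hπ0 hτv).div (hνz z k) hπ0
  have hρ0 : ∀ z, M.act τ • ψz z / ψz z ≠ 0 := fun z => (hρv z false).ne_zero hπ0
  -- functions without divisor in the tubes
  set X : M.Pt → F := fun z => h * (M.act τ • ψz z / ψz z) / sz z with hXdef
  have hXf : ∀ z, M.Fixed L.H (X z) := fun z =>
    TwoCompData.fixed_div (TwoCompData.fixed_mul hfx (hρf z))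
      (TwoCompData.fixed_mono hle (hszf z))
  have hX0 : ∀ z, X z ≠ 0 := fun z => div_ne_zero (mul_ne_zero hne (hρ0 z)) (hszg z).1
  have hXord : ∀ z P, M.sp P = z → P.ord (X z) = 0 := fun z P hP => by
    rw [hXdef, ord_div P (mul_ne_zero hne (hρ0 z)) (hszg z).1, P.ord_mul hne (hρ0 z),
      ord_div P ((hψzg z).act hτI).1 (hψzg z).1, ((hψzg z).act hτI).2 P hP, (hψzg z).2 P hP,
      (hszg z).2 P hP, hord P]
    ring
  have hXv₀ : ∀ z, M.VOrd L.π false (X z) (-(p * oz z false)) := fun z => by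
    simpa [X, -SemilinearAut.smul_def] using ((hv₀.mul (hρv z false) hπ0).div (hozL z false) hπ0)
  have hXv₁ : ∀ z, M.VOrd L.π true (X z) (m - p * oz z true) := fun z => by
    simpa [X, -SemilinearAut.smul_def] using ((hv₁.mul (hρv z true) hπ0).div (hozL z true) hπ0)
  obtain ⟨m', rfl⟩ : (p : ℤ) ∣ m := by
    have h := M.dvd_of_slope hp hp5 L hpe hy (hXf y)
      ⟨hX0 y, fun P hP => by rw [hXord y P hP, Finsupp.zero_apply]⟩ (hXv₀ y) (hXv₁ y)
    rwa [show m - p * oz y true - -(p * oz y false) = m - p * (oz y true - oz y false) by ring,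
      dvd_sub_left (dvd_mul_right _ _)] at h
  -- the normalised function `U`
  set Q : ℕ := 12 * (p - 1) with hQ
  have hQe : (Q : ℤ) * p = 12 * (L.e : ℤ) := by rw [hQ, he]; push_cast; ring
  have hwf : M.Fixed L.H M.w := fun σ hσ => M.w_fixed σ (L.le_inertia hσ)
  have hw₀ : M.VOrd L.π false M.w 0 := TwoCompData.vord_zero_iff.2 M.w_false
  have hw₁ : M.VOrd L.π true M.w ((Q : ℤ) * p) := by
    have hc : M.VOrd L.π true (algebraMap Qb F ((p : Qb) ^ 12)) ((Q : ℤ) * p) := by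
      refine M.vord_algebraMap ?_
      rw [hQe, map_pow, ← L.pow_e, ← pow_mul, mul_comm L.e 12, ← zpow_natCast]
      push_cast
      rfl
    have hne0 : algebraMap Qb F ((p : Qb) ^ 12) ≠ 0 := hc.ne_zero hπ0
    have h1 : M.VOrd L.π true (M.w / algebraMap Qb F ((p : Qb) ^ 12)) 0 :=
      TwoCompData.vord_zero_iff.2 M.w_true
    have := h1.mul hc hπ0
    rwa [div_mul_cancel₀ _ hne0, zero_add] at this
  have hw0 : M.w ≠ 0 := hw₀.ne_zero hπ0
  set U : F := h ^ Q / M.w ^ m' with hUdef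
  have hUv : ∀ k, M.VOrd L.π k U 0 := by
    intro k
    cases k
    · simpa using (hv₀.pow Q).div (hw₀.zpow m') hπ0
    · have := (hv₁.pow Q).div (hw₁.zpow m') hπ0
      rwa [show (Q : ℤ) * (p * m') - m' * (Q * p) = 0 by ring] at this
  have hUm : ∀ k, U ∈ M.V k := fun k => M.mem_of_valuation_eq_one (hUv k).valuation_eq_one
  obtain ⟨a, hafix, ha⟩ := M.exists_lift fun k => M.red k ⟨U, hUm k⟩
  choose haV hares using ha
  have hav : ∀ k, M.VOrd L.π k a 0 := fun k =>
    TwoCompData.vord_zero_iff.2 (M.valuation_eq_one_of_red (haV k)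
      (by rw [hares k]; exact M.red_ne_zero (hUv k).valuation_eq_one _))
  have ha0 : a ≠ 0 := (hav false).ne_zero hπ0
  have hafH : M.Fixed L.H a := fun σ hσ => hafix σ (L.le_inertia hσ)
  have hU'f : M.Fixed L.H (U / a) :=
    TwoCompData.fixed_div
      (TwoCompData.fixed_div (TwoCompData.fixed_pow hfx _) (TwoCompData.fixed_zpow hwf _)) hafH
  have hU'v : ∀ k, M.VOrd L.π k (U / a) 0 := fun k => by
    simpa using (hUv k).div (hav k) hπ0
  have hU'm : ∀ k, U / a ∈ M.V k := fun k =>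
    M.mem_of_valuation_eq_one (hU'v k).valuation_eq_one
  have hU'1 : ∀ k, N.Congr k 1 (U / a) 1 := by
    intro k
    refine M.congr_of_vcongr hp hA L hU'f (fun σ _ => smul_one _)
      ((M.vcongr_one_iff L k hU'f (fun σ _ => smul_one _) (hU'm k) (one_mem _)).2 ?_)
    have hprod : M.red k ⟨U / a, hU'm k⟩ * M.red k ⟨a, haV k⟩ = M.red k ⟨U, hUm k⟩ := by
      rw [← map_mul]
      exact congrArg (M.red k) (Subtype.ext (div_mul_cancel₀ U ha0))
    rw [hares k] at hprod
    exact ((mul_eq_right₀ (M.red_ne_zero (hUv k).valuation_eq_one _)).1 hprod).trans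
      (map_one _).symm
  -- the constant `η` in `F`
  set ηF := algebraMap Qb F η with hηF
  have hηO : ηF ∈ N.O := ⟨η, ⟨hηA, hηfix⟩, rfl⟩
  have hinvO : (1 + ηF)⁻¹ ∈ N.O := by
    refine ⟨(1 + η)⁻¹, ⟨?_, fun σ hσ => by rw [map_inv₀, map_add, map_one, hηfix σ hσ]⟩,
      by rw [map_inv₀, map_add, map_one]⟩
    rw [← A.valuation_le_one_iff, map_inv₀, hη1, inv_one]
  have hηF0 : 1 + ηF ≠ 0 := by
    rw [hηF, ← map_one (algebraMap Qb F), ← map_add]
    exact (map_ne_zero _).2 hη0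
  have hsmall : ∀ l ≤ b + b, N.Small l (ηF * ηF) := by
    intro l hl
    refine ⟨algebraMap Qb F (η * η / L.π ^ l), ⟨_, ⟨?_, fun σ hσ => ?_⟩, rfl⟩, ?_⟩
    · rw [← A.valuation_le_one_iff, map_div₀, map_pow,
        div_le_one₀ (zero_lt_iff.2 (pow_ne_zero _ hvπ)), map_mul, hη, ← pow_add]
      exact L.valuation_lt_one_pow hl
    · rw [map_div₀, map_mul, map_pow, hηfix σ hσ, L.fixed σ hσ]
    · show ηF * ηF = algebraMap Qb F L.π ^ l * _
      rw [hηF, ← map_mul, ← map_pow, ← map_mul, mul_div_cancel₀ _ (pow_ne_zero _ hπ0)]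
  -- every point
  have hloc : ∀ z, ∃ c ∈ N.B z, ∀ k, N.On z k →
      N.Congr k (b + 1) (U / a * (1 - ((-(Q : ℤ) * νz z k : ℤ) : F) * ηF)) c := by
    intro z
    obtain ⟨κ, j, hκ, hY⟩ : ∃ κ j : ℤ, (κ = 0 ∨ M.IsNode z) ∧ ∀ k, M.On z k →
        M.VOrd L.π k (X z ^ Q / (M.w ^ κ * algebraMap Qb F L₁.π ^ j)) 0 := by
      have hπ₁v : ∀ k, M.VOrd L.π k (algebraMap Qb F L₁.π) (p : ℤ) := fun k =>
        M.vord_algebraMap (by rw [zpow_natCast]; exact L₁.valuation_eq_pow L he')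
      have key₀ : ∀ κ : ℤ, M.VOrd L.π false
          (X z ^ Q / (M.w ^ κ * algebraMap Qb F L₁.π ^ (-(Q : ℤ) * oz z false))) 0 := by
        intro κ
        have := ((hXv₀ z).pow Q).div
          ((hw₀.zpow κ).mul ((hπ₁v false).zpow (-(Q : ℤ) * oz z false)) hπ0) hπ0
        rwa [show (Q : ℤ) * -(p * oz z false) - (κ * 0 + -(Q : ℤ) * oz z false * p) = 0 by ring]
          at this
      have key₁ : ∀ κ j : ℤ, κ * Q + j = (Q : ℤ) * (m' - oz z true) →
          M.VOrd L.π true (X z ^ Q / (M.w ^ κ * algebraMap Qb F L₁.π ^ j)) 0 := by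
        intro κ j hκj
        have := ((hXv₁ z).pow Q).div ((hw₁.zpow κ).mul ((hπ₁v true).zpow j) hπ0) hπ0
        rwa [show (Q : ℤ) * (p * m' - p * oz z true) - (κ * (Q * p) + j * p) = 0 by
          linear_combination -(p : ℤ) * hκj] at this
      by_cases hz : M.IsNode z
      · refine ⟨m' - oz z true + oz z false, -(Q : ℤ) * oz z false, Or.inr hz, fun k _ => ?_⟩
        cases k
        · exact key₀ _
        · exact key₁ _ _ (by ring)
      · by_cases hz₀ : M.On z false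
        · refine ⟨0, -(Q : ℤ) * oz z false, Or.inl rfl, fun k hk => ?_⟩
          cases k
          · exact key₀ _
          · exact absurd ⟨hz₀, hk⟩ hz
        · refine ⟨0, (Q : ℤ) * (m' - oz z true), Or.inl rfl, fun k hk => ?_⟩
          cases k
          · exact absurd hk hz₀
          · exact key₁ _ _ (by ring)
    set d := M.w ^ κ * algebraMap Qb F L₁.π ^ j with hd
    have hπ₁0 : algebraMap Qb F L₁.π ≠ 0 := (map_ne_zero _).2 L₁.ne_zero
    have hd0 : d ≠ 0 := mul_ne_zero (zpow_ne_zero _ hw0) (zpow_ne_zero _ hπ₁0)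
    have hd₁ : M.Fixed L₁.H d :=
      TwoCompData.fixed_mul
        (TwoCompData.fixed_zpow (fun σ hσ => M.w_fixed σ (L₁.le_inertia hσ)) _)
        (TwoCompData.fixed_zpow (M.fixed_algebraMap L₁.fixed) _)
    set Y := X z ^ Q / d with hYdef
    have hY0 : Y ≠ 0 := div_ne_zero (pow_ne_zero _ (hX0 z)) hd0
    have hYf : M.Fixed L.H Y :=
      TwoCompData.fixed_div (TwoCompData.fixed_pow (hXf z) _) (TwoCompData.fixed_mono hle hd₁)
    have hYord : ∀ P, M.sp P = z → P.ord Y = 0 := by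
      intro P hP
      have hwP : κ * P.ord M.w = 0 := by
        rcases hκ with rfl | hz
        · rw [zero_mul]
        · rw [M.w_ord z hz.1 hz.2 P hP, mul_zero]
      rw [hYdef, ord_div P (pow_ne_zero _ (hX0 z)) hd0, ord_pow, hXord z P hP, hd,
        P.ord_mul (zpow_ne_zero _ hw0) (zpow_ne_zero _ hπ₁0), P.ord_zpow, P.ord_zpow, hwP,
        ord_algebraMap]
      ring
    have hYreg : M.Reg z Y :=
      ⟨fun P hP => mem_of_ord_nonneg P (hYord P hP).ge,
        fun k hk => M.mem_of_valuation_eq_one (hY k hk).valuation_eq_one⟩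
    have hYreg' : M.Reg z Y⁻¹ := by
      refine ⟨fun P hP => mem_of_ord_nonneg P (by rw [P.ord_inv, hYord P hP, neg_zero]),
        fun k hk => M.mem_of_valuation_eq_one ?_⟩
      rw [map_inv₀, (hY k hk).valuation_eq_one, inv_one]
    -- the congruence of `τ ψ / ψ`
    have hρc : ∀ k, N.Congr k (b + 1) ((M.act τ • ψz z / ψz z) ^ Q)
        (1 + ((Q : ℤ) * νz z k : ℤ) * ηF) := by
      intro k
      set n := νz z k with hn
      set g := ψz z / algebraMap Qb F (L.π ^ n) with hg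
      have hc0 : algebraMap Qb F (L.π ^ n) ≠ 0 := (map_ne_zero _).2 (zpow_ne_zero n hπ0)
      have hgf : M.Fixed L.H g := TwoCompData.fixed_div (hψzf z)
        (M.fixed_algebraMap fun σ hσ => by rw [map_zpow₀, L.fixed σ hσ])
      have hgv : M.VOrd L.π k g 0 := by
        have := (hνz z k).div
          (M.vord_algebraMap (π := L.π) (i := k) (map_zpow₀ _ L.π n)) hπ0
        rwa [sub_self] at this
      have hg0 : g ≠ 0 := hgv.ne_zero hπ0
      obtain ⟨e, he, hee⟩ := M.vcongr_act L hτI hnorm hmove k hgf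
        (M.mem_of_valuation_eq_one hgv.valuation_eq_one)
      have hτg : N.Congr k (b + 1) (M.act τ • g / g) 1 := by
        refine M.congr_of_vcongr hp hA L
          (TwoCompData.fixed_div (TwoCompData.fixed_act hnorm hgf) hgf) (fun σ _ => smul_one _)
          ⟨e * g⁻¹, mul_mem he (M.mem_of_valuation_eq_one
            (by rw [map_inv₀, hgv.valuation_eq_one, inv_one])), ?_⟩
        rw [← mul_assoc, ← hee, sub_mul, mul_inv_cancel₀ hg0, div_eq_mul_inv]
      have hρeq : M.act τ • ψz z / ψz z = (1 + ηF) ^ n * (M.act τ • g / g) := by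
        have hψeq : ψz z = algebraMap Qb F (L.π ^ n) * g := by
          rw [hg, mul_div_cancel₀ _ hc0]
        rw [hψeq, smul_mul', SemilinearAut.smul_algebraMap, M.baseAut_act, map_zpow₀ τ, hτπ,
          mul_zpow, map_mul, map_zpow₀ _ (1 + η), map_add, map_one, ← hηF,
          mul_assoc, mul_div_mul_left _ _ hc0, mul_div_assoc]
      have hEV : ∀ l : ℤ, (1 + ηF) ^ l ∈ N.V k := fun l =>
        ((N.congr_one_add_zpow k hηO hinvO hηF0 (hsmall 0 (Nat.zero_le _)) l).mem
          (add_mem (one_mem _) (mul_mem (intCast_mem _ _) (N.O_le_V k hηO))))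
      have hρn : N.Congr k (b + 1) (M.act τ • ψz z / ψz z) ((1 + ηF) ^ n) := by
        rw [hρeq]
        have hτgm : M.act τ • g / g ∈ N.V k := hτg.mem (one_mem _)
        simpa using (N.congr_refl k (b + 1) ((1 + ηF) ^ n)).mul hτg hτgm (hEV n)
      have hρm : M.act τ • ψz z / ψz z ∈ N.V k :=
        ⟨M.mem_of_valuation_eq_one (hρv z k).valuation_eq_one, hρf z⟩
      have hpow : ∀ l : ℕ, N.Congr k (b + 1) ((M.act τ • ψz z / ψz z) ^ l)
          ((1 + ηF) ^ ((l : ℤ) * n)) := by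
        intro l
        induction l with
        | zero => simpa using N.congr_refl k (b + 1) 1
        | succ l ih =>
          rw [pow_succ, Nat.cast_succ, add_mul, one_mul, zpow_add₀ hηF0]
          exact ih.mul hρn hρm (hEV _)
      exact (hpow Q).trans
        (N.congr_one_add_zpow k hηO hinvO hηF0 (hsmall _ (by omega)) _)
    set W := U / a * (M.act τ • ψz z / ψz z) ^ Q with hW
    have hWf : M.Fixed L.H W :=
      TwoCompData.fixed_mul hU'f (TwoCompData.fixed_pow (hρf z) _)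
    have hWv : ∀ k, M.VOrd L.π k W 0 := fun k => by
      simpa [W, -SemilinearAut.smul_def] using (hU'v k).mul ((hρv z k).pow Q) hπ0
    have hWc : ∀ k, N.Congr k (b + 1) W (U / a * (1 + ((Q : ℤ) * νz z k : ℤ) * ηF)) := fun k =>
      (N.congr_refl k (b + 1) (U / a)).mul (hρc k)
        ⟨pow_mem (M.mem_of_valuation_eq_one (hρv z k).valuation_eq_one) Q,
          TwoCompData.fixed_pow (hρf z) _⟩ ⟨hU'm k, hU'f⟩
    have hW1 : ∀ k, M.red k ⟨W, M.mem_of_valuation_eq_one (hWv k).valuation_eq_one⟩ = 1 := by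
      intro k
      have h1 : N.Congr k 1 (U / a * (1 + ((Q : ℤ) * νz z k : ℤ) * ηF)) 1 := by
        have hc : N.Congr k 1 (1 + ((Q : ℤ) * νz z k : ℤ) * ηF) 1 := by
          refine ⟨((Q : ℤ) * νz z k : ℤ) * algebraMap Qb F (η / L.π),
            mul_mem (intCast_mem _ _) (N.O_le_V k ⟨_, ⟨?_, fun σ hσ => ?_⟩, rfl⟩), ?_⟩
          · rw [← A.valuation_le_one_iff, map_div₀, div_le_one₀ (zero_lt_iff.2 hvπ), hη]
            simpa using L.valuation_lt_one_pow hb
          · rw [map_div₀, hηfix σ hσ, L.fixed σ hσ]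
          · show _ = algebraMap Qb F L.π ^ 1 * _
            rw [pow_one, map_div₀, ← hηF]
            field_simp
            ring
        simpa using (hU'1 k).mul hc (hc.mem (one_mem _)) (one_mem _)
      obtain ⟨e, he, hee⟩ := ((hWc k).mono (by omega)).trans h1
      rw [(M.vcongr_one_iff L k hWf (fun σ _ => smul_one _) _ (one_mem _)).1 ⟨e, he.1, hee⟩]
      exact map_one _
    set G := sz z ^ Q * d / (M.w ^ m' * a) with hG
    have hYG : Y * G = W := by
      rw [hYdef, hG, hW, hUdef, hXdef]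
      field_simp
      rw [← mul_pow, ← mul_pow]
      congr 1
      field_simp [(hψzg z).1, (hszg z).1]
    have hGf : M.Fixed L₁.H G :=
      TwoCompData.fixed_div (TwoCompData.fixed_mul (TwoCompData.fixed_pow (hszf z) _) hd₁)
        (TwoCompData.fixed_mul
          (TwoCompData.fixed_zpow (fun σ hσ => M.w_fixed σ (L₁.le_inertia hσ)) _)
          (fun σ hσ => hafix σ (L₁.le_inertia hσ)))
    have hG0 : G = W * Y⁻¹ := by rw [← hYG, mul_comm Y G, mul_inv_cancel_right₀ hY0]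
    obtain ⟨f, hffix, hfpl, hf⟩ := M.exists_regular_lift z (fun k => M.residueAt k Y⁻¹)
      (fun k hk => by
        rw [M.residueAt_of_mem (hYreg'.2 k hk)]
        exact M.red_regular z _ hYreg'.1 hYreg'.2 k hk _)
      (fun hz₀ hz₁ => by
        rw [M.residueAt_of_mem (hYreg'.2 _ hz₀), M.residueAt_of_mem (hYreg'.2 _ hz₁)]
        exact M.red_node z _ hYreg'.1 hYreg'.2 hz₀ hz₁ _ _)
    have hfH : M.Fixed L.H f := fun σ hσ => hffix σ (L.le_inertia hσ)
    refine ⟨Y * f, ⟨⟨fun P hP => mul_mem (hYreg.1 P hP) (hfpl P hP),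
      fun k hk => mul_mem (hYreg.2 k hk) (hf k hk).1⟩, TwoCompData.fixed_mul hYf hfH⟩,
      fun k hk => ?_⟩
    obtain ⟨hfV, hfres⟩ := hf k hk
    have hWm : W ∈ M.V k := M.mem_of_valuation_eq_one (hWv k).valuation_eq_one
    have hGV : G ∈ M.V k := hG0 ▸ mul_mem hWm (hYreg'.2 k hk)
    have hGres : M.red k ⟨G, hGV⟩ = M.red k ⟨f, hfV⟩ := by
      rw [hfres, M.residueAt_of_mem (hYreg'.2 k hk)]
      have : M.red k ⟨G, hGV⟩ = M.red k ⟨W, hWm⟩ * M.red k ⟨Y⁻¹, hYreg'.2 k hk⟩ := by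
        rw [← map_mul]
        exact congrArg (M.red k) (Subtype.ext hG0)
      rw [this, hW1 k, one_mul]
    have hGc : N.Congr k (b + 1) G f :=
      (M.congr_of_vcongr hp hA L (TwoCompData.fixed_mono hle hGf) hfH
        (M.vcongr_tame L₁ L hle he' k hGf hffix hGV hfV hGres)).mono (by omega)
    have hfinal : N.Congr k (b + 1) W (Y * f) := by
      rw [← hYG]
      exact (N.congr_refl k (b + 1) Y).mul hGc ⟨hGV, TwoCompData.fixed_mono hle hGf⟩
        ⟨hYreg.2 k hk, hYf⟩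
    have hsign : (1 : F) - ((-(Q : ℤ) * νz z k : ℤ) : F) * ηF
        = 1 + ((Q : ℤ) * νz z k : ℤ) * ηF := by
      push_cast; ring
    rw [hsign]
    exact (hWc k).symm.trans hfinal
  obtain ⟨c, hcO, hcU, e, heO, hee⟩ := N.jump_congr (b := b) (by omega) (η := ηF)
    (ν := algebraMap Qb F (η / L.π ^ b))
    ⟨_, ⟨by
      rw [← A.valuation_le_one_iff, map_div₀, map_pow, hη, div_self (pow_ne_zero _ hvπ)],
      fun σ hσ => by rw [map_div₀, map_pow, hηfix σ hσ, L.fixed σ hσ]⟩, rfl⟩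
    (by
      show _ = algebraMap Qb F L.π ^ b * _
      rw [hηF, ← map_pow, ← map_mul, mul_div_cancel₀ _ (pow_ne_zero _ hπ0)])
    (fun k => ⟨hU'm k, hU'f⟩) (fun z k => -(Q : ℤ) * νz z k) hloc hy.1 hy.2 hy'.1 hy'.2
  -- the difference of the jumps is divisible by `p`
  set Dd : ℤ := -(Q : ℤ) * νz y true - -(Q : ℤ) * νz y false -
    (-(Q : ℤ) * νz y' true - -(Q : ℤ) * νz y' false) with hDd
  have hDlt : A.valuation (Dd : Qb) < 1 := by
    obtain ⟨d, hd, hdd⟩ := (hcU false).symm.trans (hU'1 false)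
    have hcm : c ∈ M.V false := (N.O_le_V false hcO).1
    have hc1 : (M.V false).valuation c = 1 := by
      refine M.valuation_eq_one_of_red hcm ?_
      rw [(M.vcongr_one_iff L false (N.O_le_V false hcO).2 (fun σ _ => smul_one _) hcm
        (one_mem _)).1 ⟨d, hd.1, hdd⟩]
      exact (map_one (M.red false)).trans_ne one_ne_zero
    have hν1 : (M.V false).valuation (algebraMap Qb F (η / L.π ^ b)) = 1 := by
      refine (M.vord_algebraMap (π := L.π) (n := 0) ?_).valuation_eq_one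
      rw [map_div₀, map_pow, hη, div_self (pow_ne_zero _ hvπ), zpow_zero]
    have hlt : (M.V false).valuation (algebraMap Qb F (Dd : Qb)) < 1 := by
      have := congrArg (M.V false).valuation hee
      rw [map_mul, map_mul, hν1, hc1, one_mul, one_mul] at this
      rw [map_intCast, hDd, this, pow_one, map_mul]
      exact mul_lt_one_of_lt_of_le (M.valuation_pi_lt_one L false)
        ((ValuationSubring.valuation_le_one_iff _ _).2 (N.O_le_V false heO).1)
    refine lt_of_not_ge fun h1 => hlt.not_ge ?_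
    have := (M.valuation_algebraMap_le_iff false 1 (Dd : Qb)).2 (by simpa using h1)
    simpa using this
  have hdvd : (p : ℤ) ∣ Dd :=
    (Galois.intCast_mem_nonunits_iff A hp hA Dd).1 ((ValuationSubring.mem_nonunits_iff _).2 hDlt)
  have hpQ : ¬ (p : ℤ) ∣ -(Q : ℤ) := by
    rw [dvd_neg, Int.natCast_dvd_natCast, hQ, hp.dvd_mul,
      show (12 : ℕ) = 2 * (2 * 3) from rfl, hp.dvd_mul, hp.dvd_mul]
    rintro ((h | h | h) | h)
    all_goals have := Nat.le_of_dvd (by omega) h; omega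
  have hΔ : (p : ℤ) ∣ (νz y true - νz y false) - (νz y' true - νz y' false) := by
    refine ((Nat.prime_iff_prime_int.1 hp).dvd_or_dvd (a := -(Q : ℤ)) ?_).resolve_left hpQ
    rw [show -(Q : ℤ) * ((νz y true - νz y false) - (νz y' true - νz y' false)) = Dd by
      rw [hDd]; ring]
    exact hdvd
  have indep : ∀ (z : M.Pt), M.IsNode z → ∀ (χ : F) (l₀ l₁ : ℤ), M.LocalGen z D χ →
      M.Fixed L.H χ → M.VOrd L.π false χ l₀ → M.VOrd L.π true χ l₁ →
      (p : ℤ) ∣ (l₁ - l₀) - (νz z true - νz z false) := by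
    intro z hz χ l₀ l₁ hχ hχf hl₀ hl₁
    have h := M.dvd_of_slope hp hp5 L hpe hz (TwoCompData.fixed_div hχf (hψzf z))
      ⟨div_ne_zero hχ.1 (hψzg z).1, fun P hP => by
        rw [ord_div P hχ.1 (hψzg z).1, hχ.2 P hP, (hψzg z).2 P hP, sub_self,
          Finsupp.zero_apply]⟩
      (hl₀.div (hνz z false) hπ0) (hl₁.div (hνz z true) hπ0)
    rwa [show l₁ - νz z true - (l₀ - νz z false) = l₁ - l₀ - (νz z true - νz z false) by ring]
      at h
  have := ((indep y hy ψ n₀ n₁ hψ hψf h₀ h₁).sub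
    (indep y' hy' ψ' n₀' n₁' hψ' hψf' h₀' h₁')).add hΔ
  rwa [show (n₁ - n₀ - (νz y true - νz y false) - (n₁' - n₀' - (νz y' true - νz y' false)) +
      (νz y true - νz y false - (νz y' true - νz y' false))) = n₁ - n₀ - (n₁' - n₀') by ring]
    at this

end Fermat.Agent.LevelP
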